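import Mathlib

/-!
# S56 / GT : group theory behind the Taylor-Wiles primes -- definitions

`k` a field, `G` a subgroup of `GL₂(k)`.  The module `ad⁰(1) = ad⁰ ⊗ det` is realised as the
trace zero `2 × 2` matrices with the *twisted adjoint action*
`tw g X = det(g) g X g⁻¹ = g X adj(g)`.

Cocycles are plain functions `c : GL₂(k) → M₂(k)`; only their values on the subgroup matter.
-/

set_option autoImplicit false

namespace Fermat.Agent.S56.GT

open Matrix Matrix.GeneralLinearGroup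

variable {k : Type*} [Field k]

/-- twisted adjoint action `X ↦ det(g) g X g⁻¹ = g X adj(g)`. -/
def tw (g : GL (Fin 2) k) (X : Matrix (Fin 2) (Fin 2) k) : Matrix (Fin 2) (Fin 2) k :=
  g.val * X * g.val.adjugate

lemma tw_def (g : GL (Fin 2) k) (X : Matrix (Fin 2) (Fin 2) k) :
    tw g X = g.val * X * g.val.adjugate := rfl

@[simp] lemma tw_one (X : Matrix (Fin 2) (Fin 2) k) : tw 1 X = X := by
  simp [tw]

lemma tw_mul (g h : GL (Fin 2) k) (X : Matrix (Fin 2) (Fin 2) k) :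
    tw (g * h) X = tw g (tw h X) := by
  simp only [tw, Units.val_mul, Matrix.adjugate_mul_distrib, Matrix.mul_assoc]

@[simp] lemma tw_zero (g : GL (Fin 2) k) : tw g 0 = 0 := by simp [tw]

lemma tw_add (g : GL (Fin 2) k) (X Y : Matrix (Fin 2) (Fin 2) k) :
    tw g (X + Y) = tw g X + tw g Y := by
  simp only [tw, Matrix.mul_add, Matrix.add_mul]

lemma tw_sub (g : GL (Fin 2) k) (X Y : Matrix (Fin 2) (Fin 2) k) :
    tw g (X - Y) = tw g X - tw g Y := by
  simp only [tw, Matrix.mul_sub, Matrix.sub_mul]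

lemma tw_neg (g : GL (Fin 2) k) (X : Matrix (Fin 2) (Fin 2) k) :
    tw g (-X) = - tw g X := by
  simp only [tw, Matrix.mul_neg, Matrix.neg_mul]

lemma tw_smul (g : GL (Fin 2) k) (a : k) (X : Matrix (Fin 2) (Fin 2) k) :
    tw g (a • X) = a • tw g X := by
  simp only [tw, Matrix.mul_smul, Matrix.smul_mul]

lemma tw_sum {ι : Type*} (s : Finset ι) (g : GL (Fin 2) k)
    (f : ι → Matrix (Fin 2) (Fin 2) k) : tw g (∑ i ∈ s, f i) = ∑ i ∈ s, tw g (f i) := by
  simp only [tw, Matrix.mul_sum, Matrix.sum_mul]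

/-- `tw g` as a linear map. -/
def twL (g : GL (Fin 2) k) : Matrix (Fin 2) (Fin 2) k →ₗ[k] Matrix (Fin 2) (Fin 2) k where
  toFun := tw g
  map_add' := tw_add g
  map_smul' := tw_smul g

@[simp] lemma twL_apply (g : GL (Fin 2) k) (X : Matrix (Fin 2) (Fin 2) k) : twL g X = tw g X := rfl

lemma tw_eq_det_smul (g : GL (Fin 2) k) (X : Matrix (Fin 2) (Fin 2) k) :
    tw g X = g.val.det • (g.val * X * (g⁻¹ : GL (Fin 2) k).val) := by
  have h : g.val.adjugate = g.val.det • (g⁻¹ : GL (Fin 2) k).val := by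
    rw [Matrix.coe_units_inv, Matrix.inv_def, smul_smul, Ring.mul_inverse_cancel _
      ((Matrix.isUnit_iff_isUnit_det _).mp g.isUnit), one_smul]
  rw [tw, h, Matrix.mul_smul]

lemma trace_tw (g : GL (Fin 2) k) (X : Matrix (Fin 2) (Fin 2) k) :
    (tw g X).trace = g.val.det * X.trace := by
  rw [tw, Matrix.trace_mul_comm, ← Matrix.mul_assoc, Matrix.adjugate_mul, Matrix.smul_mul,
    Matrix.one_mul, Matrix.trace_smul, smul_eq_mul]

lemma trace_tw_eq_zero (g : GL (Fin 2) k) {X : Matrix (Fin 2) (Fin 2) k} (h : X.trace = 0) :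
    (tw g X).trace = 0 := by rw [trace_tw, h, mul_zero]

/-- entries of `tw g X`. -/
lemma tw_apply (g : GL (Fin 2) k) (X : Matrix (Fin 2) (Fin 2) k) :
    tw g X = !![(g 0 0 * X 0 0 + g 0 1 * X 1 0) * g 1 1 - (g 0 0 * X 0 1 + g 0 1 * X 1 1) * g 1 0,
                (g 0 0 * X 0 1 + g 0 1 * X 1 1) * g 0 0 - (g 0 0 * X 0 0 + g 0 1 * X 1 0) * g 0 1;
                (g 1 0 * X 0 0 + g 1 1 * X 1 0) * g 1 1 - (g 1 0 * X 0 1 + g 1 1 * X 1 1) * g 1 0,
                (g 1 0 * X 0 1 + g 1 1 * X 1 1) * g 0 0 - (g 1 0 * X 0 0 + g 1 1 * X 1 0) * g 0 1] := by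
  rw [tw, Matrix.adjugate_fin_two]
  ext i j
  fin_cases i <;> fin_cases j <;> simp [Matrix.mul_apply, Fin.sum_univ_two] <;> ring

/-- `c` is a 1-cocycle on `G` with values in the trace zero matrices (twisted adjoint action). -/
def IsCoc (G : Subgroup (GL (Fin 2) k)) (c : GL (Fin 2) k → Matrix (Fin 2) (Fin 2) k) : Prop :=
  (∀ g ∈ G, (c g).trace = 0) ∧ ∀ g ∈ G, ∀ h ∈ G, c (g * h) = c g + tw g (c h)

/-- `c` is a 1-coboundary on `G`. -/
def IsCob (G : Subgroup (GL (Fin 2) k)) (c : GL (Fin 2) k → Matrix (Fin 2) (Fin 2) k) : Prop :=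
  ∃ m : Matrix (Fin 2) (Fin 2) k, m.trace = 0 ∧ ∀ g ∈ G, c g = tw g m - m

lemma IsCoc.mono {G H : Subgroup (GL (Fin 2) k)} {c : GL (Fin 2) k → Matrix (Fin 2) (Fin 2) k}
    (hc : IsCoc G c) (h : H ≤ G) : IsCoc H c :=
  ⟨fun g hg => hc.1 g (h hg), fun g hg g' hg' => hc.2 g (h hg) g' (h hg')⟩

lemma IsCoc.map_one {G : Subgroup (GL (Fin 2) k)}
    {c : GL (Fin 2) k → Matrix (Fin 2) (Fin 2) k} (hc : IsCoc G c) : c 1 = 0 := by
  have h := hc.2 1 G.one_mem 1 G.one_mem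
  rw [mul_one, tw_one] at h
  simpa using h

/-- subtracting the coboundary of `m`. -/
lemma IsCoc.sub_cob {G : Subgroup (GL (Fin 2) k)}
    {c : GL (Fin 2) k → Matrix (Fin 2) (Fin 2) k} (hc : IsCoc G c)
    {m : Matrix (Fin 2) (Fin 2) k} (hm : m.trace = 0) :
    IsCoc G (fun g => c g - (tw g m - m)) := by
  refine ⟨fun g hg => ?_, fun g hg h hh => ?_⟩
  · rw [Matrix.trace_sub, Matrix.trace_sub, hc.1 g hg, trace_tw_eq_zero g hm, hm]; simp
  · simp only [hc.2 g hg h hh, tw_mul, tw_sub]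
    abel

lemma IsCob.of_sub_cob {G : Subgroup (GL (Fin 2) k)}
    {c : GL (Fin 2) k → Matrix (Fin 2) (Fin 2) k}
    {m : Matrix (Fin 2) (Fin 2) k} (hm : m.trace = 0)
    (h : IsCob G (fun g => c g - (tw g m - m))) : IsCob G c := by
  obtain ⟨m', hm', h'⟩ := h
  refine ⟨m' + m, by rw [Matrix.trace_add, hm, hm', add_zero], fun g hg => ?_⟩
  have := h' g hg
  rw [tw_add]
  rw [sub_eq_iff_eq_add] at this
  rw [this]; abel

/-- conjugation identity for a cocycle: `c(b u b⁻¹) = b c(u) + (1 - b u b⁻¹) c(b)`. -/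
lemma IsCoc.conj {G : Subgroup (GL (Fin 2) k)}
    {c : GL (Fin 2) k → Matrix (Fin 2) (Fin 2) k} (hc : IsCoc G c)
    {b u : GL (Fin 2) k} (hb : b ∈ G) (hu : u ∈ G) :
    c (b * u * b⁻¹) = tw b (c u) + (c b - tw (b * u * b⁻¹) (c b)) := by
  have h1 := hc.2 (b * u) (G.mul_mem hb hu) b⁻¹ (G.inv_mem hb)
  have h2 := hc.2 b hb u hu
  have h3 := hc.2 b hb b⁻¹ (G.inv_mem hb)
  rw [mul_inv_cancel, hc.map_one] at h3
  have h4 : tw b (c b⁻¹) = - c b := by
    rw [eq_neg_iff_add_eq_zero, add_comm]; exact h3.symm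
  have h5 : tw (b * u) (c b⁻¹) = - tw (b * u * b⁻¹) (c b) := by
    rw [tw_mul (b * u) b⁻¹, ← tw_neg, ← tw_neg, ← h4, ← tw_mul b⁻¹ b, inv_mul_cancel, tw_one]
  rw [h1, h2, h5]; abel

/-- the scalar matrices in `G`. -/
def Zof (G : Subgroup (GL (Fin 2) k)) : Subgroup (GL (Fin 2) k) :=
  G ⊓ Subgroup.center (GL (Fin 2) k)

/-- `A(G) = {t : u_t ∈ G}`, `u_t = [[1,t],[0,1]] = upperRightHom t`. -/
def Aof (G : Subgroup (GL (Fin 2) k)) : AddSubgroup k where
  carrier := {t | upperRightHom t ∈ G}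
  zero_mem' := by
    show upperRightHom (0 : k) ∈ G
    rw [AddChar.map_zero_eq_one]; exact G.one_mem
  add_mem' := by
    intro a b ha hb
    show upperRightHom (a + b) ∈ G
    rw [AddChar.map_add_eq_mul]; exact G.mul_mem ha hb
  neg_mem' := by
    intro a ha
    show upperRightHom (-a) ∈ G
    rw [AddChar.map_neg_eq_inv]; exact G.inv_mem ha

lemma mem_Aof {G : Subgroup (GL (Fin 2) k)} {t : k} : t ∈ Aof G ↔ upperRightHom t ∈ G := Iff.rfl

/-- the upper unipotent elements of `G`. -/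
def Uof (G : Subgroup (GL (Fin 2) k)) : Subgroup (GL (Fin 2) k) where
  carrier := {g | g ∈ G ∧ ∃ t : k, g = upperRightHom t}
  one_mem' := ⟨G.one_mem, 0, by rw [AddChar.map_zero_eq_one]⟩
  mul_mem' := by
    rintro a b ⟨ha, s, rfl⟩ ⟨hb, t, rfl⟩
    exact ⟨G.mul_mem ha hb, s + t, by rw [AddChar.map_add_eq_mul]⟩
  inv_mem' := by
    rintro a ⟨ha, s, rfl⟩
    exact ⟨G.inv_mem ha, -s, by rw [AddChar.map_neg_eq_inv]⟩

lemma Uof_le (G : Subgroup (GL (Fin 2) k)) : Uof G ≤ G := fun _ h => h.1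

/-- the elements of determinant one. -/
def G1of (G : Subgroup (GL (Fin 2) k)) : Subgroup (GL (Fin 2) k) where
  carrier := {g | g ∈ G ∧ g.val.det = 1}
  one_mem' := ⟨G.one_mem, by simp⟩
  mul_mem' := by
    rintro a b ⟨ha, ha'⟩ ⟨hb, hb'⟩
    exact ⟨G.mul_mem ha hb, by rw [Units.val_mul, Matrix.det_mul, ha', hb', one_mul]⟩
  inv_mem' := by
    rintro a ⟨ha, ha'⟩
    refine ⟨G.inv_mem ha, ?_⟩
    have : (a * a⁻¹).val.det = 1 := by simp
    rw [Units.val_mul, Matrix.det_mul, ha', one_mul] at this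
    exact this

lemma G1of_le (G : Subgroup (GL (Fin 2) k)) : G1of G ≤ G := fun _ h => h.1

lemma mem_G1of {G : Subgroup (GL (Fin 2) k)} {g : GL (Fin 2) k} :
    g ∈ G1of G ↔ g ∈ G ∧ g.val.det = 1 := Iff.rfl

/-- the set of values `χ(b) = a/d` on the upper triangular elements `b = [[a,*],[0,d]]` of `G`. -/
def chiSet (G : Subgroup (GL (Fin 2) k)) : Set k :=
  {x | ∃ b ∈ G, b 1 0 = 0 ∧ x = b 0 0 / b 1 1}

@[simp] lemma upperRightHom_apply (t : k) :
    (upperRightHom t : GL (Fin 2) k).val = !![1, t; 0, 1] := rfl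

lemma Aof_G1of (G : Subgroup (GL (Fin 2) k)) : Aof (G1of G) = Aof G := by
  ext t
  simp only [mem_Aof, mem_G1of, and_iff_left_iff_imp]
  intro _
  simp [Matrix.det_fin_two]

/-- the conjugate subgroup `h G h⁻¹`. -/
def cj (h : GL (Fin 2) k) (G : Subgroup (GL (Fin 2) k)) : Subgroup (GL (Fin 2) k) :=
  G.map (MulAut.conj h).toMonoidHom

lemma mem_cj {h g : GL (Fin 2) k} {G : Subgroup (GL (Fin 2) k)} :
    g ∈ cj h G ↔ h⁻¹ * g * h ∈ G := by
  constructor
  · rintro ⟨x, hx, rfl⟩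
    simpa [mul_assoc] using hx
  · intro hg
    exact ⟨h⁻¹ * g * h, hg, by simp [mul_assoc]⟩

end Fermat.Agent.S56.GT
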