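import Fermat.Agent.S56.GT.IrrC

/-!
# S56 / GT / IrrD : `ad⁰` has no stable line, semisimple case
-/

set_option autoImplicit false

namespace Fermat.Agent.S56.GT

open Matrix Matrix.GeneralLinearGroup Polynomial

variable {k : Type*} [Field k] {p : ℕ} {𝒢 : Type*} [Group 𝒢] {r : 𝒢 →* GL (Fin 2) k}

/-- the commutant of a non-scalar `2 × 2` matrix `Y` is `k + k Y`. (Entrywise; e.g. if `Y 0 1 ≠ 0`
take `b = h 0 1 / Y 0 1`, `a = h 0 0 - b Y 0 0`; similarly if `Y 1 0 ≠ 0`; if both vanish then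
`Y 0 0 ≠ Y 1 1`, `h` is diagonal.) -/
theorem commutant_eq {Y h : Matrix (Fin 2) (Fin 2) k} (hY : ∀ e : k, Y ≠ e • 1)
    (hc : h * Y = Y * h) : ∃ a b : k, h = a • 1 + b • Y := by
  have c00 := congrFun (congrFun hc 0) 0
  have c01 := congrFun (congrFun hc 0) 1
  have c10 := congrFun (congrFun hc 1) 0
  simp only [Matrix.mul_apply, Fin.sum_univ_two] at c00 c01 c10
  -- it suffices to check the four entries
  have hext : ∀ a b : k, h 0 0 = a + b * Y 0 0 → h 0 1 = b * Y 0 1 → h 1 0 = b * Y 1 0 →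
      h 1 1 = a + b * Y 1 1 → h = a • 1 + b • Y := by
    intro a b e00 e01 e10 e11
    ext i j
    fin_cases i <;> fin_cases j <;> simp [e00, e01, e10, e11]
  by_cases h01 : Y 0 1 = 0
  · by_cases h10 : Y 1 0 = 0
    · have hne : Y 0 0 - Y 1 1 ≠ 0 := by
        intro h0
        apply hY (Y 0 0)
        ext i j
        fin_cases i <;> fin_cases j <;> simp [h01, h10]
        exact (sub_eq_zero.1 h0).symm
      rw [h01] at c01
      rw [h10] at c10
      have z01 : h 0 1 = 0 := by
        have : h 0 1 * (Y 0 0 - Y 1 1) = 0 := by linear_combination -c01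
        exact (mul_eq_zero.1 this).resolve_right hne
      have z10 : h 1 0 = 0 := by
        have : h 1 0 * (Y 0 0 - Y 1 1) = 0 := by linear_combination c10
        exact (mul_eq_zero.1 this).resolve_right hne
      refine ⟨h 0 0 - (h 0 0 - h 1 1) / (Y 0 0 - Y 1 1) * Y 0 0,
        (h 0 0 - h 1 1) / (Y 0 0 - Y 1 1), hext _ _ (by ring) (by rw [z01, h01, mul_zero])
        (by rw [z10, h10, mul_zero]) ?_⟩
      field_simp
      ring
    · refine ⟨h 0 0 - h 1 0 / Y 1 0 * Y 0 0, h 1 0 / Y 1 0, hext _ _ (by ring) ?_ ?_ ?_⟩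
      · field_simp
        linear_combination c00
      · field_simp
      · field_simp
        linear_combination c10
  · refine ⟨h 0 0 - h 0 1 / Y 0 1 * Y 0 0, h 0 1 / Y 0 1, hext _ _ (by ring) ?_ ?_ ?_⟩
    · field_simp
    · field_simp
      linear_combination -c00
    · field_simp
      linear_combination -c01

/-- **semisimple case.**  `X₀` of trace `0`, `det X₀ ≠ 0`, `2 ≠ 0`.
PROOF.  By `mul_eq_of_tw_eq`, `g X₀ = ν(g) X₀ g`; determinants: `ν(g)² = 1`, `ν(g) = ± 1`; `ν` is
multiplicative (`X₀` is invertible so `ν(g)` is unique).  `𝒢' := {g : ν g = 1}` = commutant of `X₀`, of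
index `1` or `2` (`index_of_sign`).  `X₀` is not scalar (`tr (e • 1) = 2 e`).
(a) if `X₀` has an eigenvector `v` in `k²`: `commute_stabilises` contradicts `hr.irr2 𝒢'`.
(b) otherwise: for `g ∈ 𝒢'`, `r g = a + b X₀` (`commutant_eq`); `r g` has an eigenvector `w` with
eigenvalue `e` (`hr.split`); if `b ≠ 0` then `X₀ w = ((e - a)/b) w`, excluded; so `b = 0` and `r g` is
scalar: every line is stable under `𝒢'`, contradiction with `hr.irr2 𝒢'`. -/
theorem false_of_stable_semisimple (h2 : (2 : k) ≠ 0) (hr : Hyp p r)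
    (X₀ : Matrix (Fin 2) (Fin 2) k) (htr : X₀.trace = 0) (hdet : X₀.det ≠ 0)
    (hst : ∀ g, ∃ l : k, tw (r g) X₀ = l • X₀) : False := by
  classical
  choose l hl using hst
  set ν : 𝒢 → k := fun g => l g / (r g).val.det with hνdef
  have hν : ∀ g, (r g).val * X₀ = ν g • (X₀ * (r g).val) := fun g => mul_eq_of_tw_eq (hl g)
  have hdg : ∀ g, (r g).val.det ≠ 0 := fun g => (r g).det_ne_zero
  have hXg : ∀ g, X₀ * (r g).val ≠ 0 := by
    intro g h0
    have := congrArg Matrix.det h0
    rw [Matrix.det_mul, Matrix.det_zero] at this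
    exact mul_ne_zero hdet (hdg g) this
  -- uniqueness of the scalar
  have huniq : ∀ (g : 𝒢) (c : k), (r g).val * X₀ = c • (X₀ * (r g).val) → ν g = c := by
    intro g c hc
    have h1 : (ν g - c) • (X₀ * (r g).val) = 0 := by
      rw [sub_smul, ← hν g, ← hc, sub_self]
    exact sub_eq_zero.1 ((smul_eq_zero.1 h1).resolve_right (hXg g))
  have hpm : ∀ g, ν g = 1 ∨ ν g = -1 := by
    intro g
    have h1 := congrArg Matrix.det (hν g)
    rw [Matrix.det_mul, Matrix.det_smul, Matrix.det_mul, Fintype.card_fin] at h1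
    have h2 : (ν g - 1) * (ν g + 1) * (X₀.det * (r g).val.det) = 0 := by
      linear_combination -h1
    rcases mul_eq_zero.1 ((mul_eq_zero.1 h2).resolve_right (mul_ne_zero hdet (hdg g))) with h | h
    · exact Or.inl (sub_eq_zero.1 h)
    · exact Or.inr (eq_neg_of_add_eq_zero_left h)
  have hmul : ∀ g h, ν (g * h) = ν g * ν h := by
    intro g h
    apply huniq
    rw [map_mul, Units.val_mul, Matrix.mul_assoc, hν h, Matrix.mul_smul, ← Matrix.mul_assoc,
      hν g, Matrix.smul_mul, smul_smul, Matrix.mul_assoc, mul_comm]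
  have hone : ν 1 = 1 := by
    apply huniq
    rw [map_one, Units.val_one, Matrix.one_mul, Matrix.mul_one, one_smul]
  let 𝒢' : Subgroup 𝒢 :=
    { carrier := {g | ν g = 1}
      one_mem' := hone
      mul_mem' := by
        intro a b ha hb
        change ν (a * b) = 1
        rw [hmul, show ν a = 1 from ha, show ν b = 1 from hb, one_mul]
      inv_mem' := by
        intro a ha
        change ν a⁻¹ = 1
        have h1 := hmul a a⁻¹
        rw [mul_inv_cancel, hone, show ν a = 1 from ha, one_mul] at h1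
        exact h1.symm }
  have hmem : ∀ g, g ∈ 𝒢' ↔ ν g = 1 := fun g => Iff.rfl
  have hidx := index_of_sign 𝒢' ν hmul hpm hmem
  have hcomm : ∀ g ∈ 𝒢', (r g).val * X₀ = X₀ * (r g).val := by
    intro g hg
    rw [hν g, (hmem g).1 hg, one_smul]
  have hY : ∀ e : k, X₀ ≠ e • 1 := by
    intro e he
    rw [he, Matrix.trace_smul, Matrix.trace_one, Fintype.card_fin, smul_eq_mul] at htr
    have he0 : e = 0 := (mul_eq_zero.1 htr).resolve_right (by exact_mod_cast h2)
    rw [he, he0, zero_smul, Matrix.det_zero] at hdet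
    exact hdet rfl
  by_cases hev : ∃ (v : Fin 2 → k) (e : k), v ≠ 0 ∧ X₀ *ᵥ v = e • v
  · obtain ⟨v, e, hv, hYv⟩ := hev
    obtain ⟨g, hg, hga⟩ := hr.irr2 𝒢' hidx v hv
    obtain ⟨a, ha⟩ := commute_stabilises hY hv hYv (hcomm g hg)
    exact hga a ha
  · have hv : (![1, 0] : Fin 2 → k) ≠ 0 := by
      intro h0
      have := congrFun h0 0
      simp at this
    obtain ⟨g, hg, hga⟩ := hr.irr2 𝒢' hidx _ hv
    obtain ⟨a, b, hab⟩ := commutant_eq hY (hcomm g hg)
    obtain ⟨a', b', hsplit⟩ := hr.split g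
    obtain ⟨x, hx⟩ := exists_fixed_of_split hsplit
    obtain ⟨e, he⟩ := (smul_eq_self_iff_vec (r g) x).1 hx
    have hb : b = 0 := by
      by_contra hb
      apply hev
      refine ⟨vec x, (e - a) / b, vec_ne_zero x, ?_⟩
      rw [hab, Matrix.add_mulVec, Matrix.smul_mulVec, Matrix.one_mulVec, Matrix.smul_mulVec] at he
      have h1 : b • (X₀ *ᵥ vec x) = (e - a) • vec x := by
        rw [sub_smul, ← he, add_sub_cancel_left]
      rw [div_eq_inv_mul, mul_smul, ← h1, smul_smul, inv_mul_cancel₀ hb, one_smul]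
    apply hga a
    rw [hab, hb, zero_smul, add_zero, Matrix.smul_mulVec, Matrix.one_mulVec]

/-- `ad⁰` has no stable line. -/
theorem no_stable_line (h2 : (2 : k) ≠ 0) (hr : Hyp p r) (X₀ : Matrix (Fin 2) (Fin 2) k)
    (htr : X₀.trace = 0) (hne : X₀ ≠ 0) (hst : ∀ g, ∃ l : k, tw (r g) X₀ = l • X₀) : False := by
  by_cases hdet : X₀.det = 0
  · exact false_of_stable_nilpotent hr X₀ htr hne hdet hst
  · exact false_of_stable_semisimple h2 hr X₀ htr hdet hst

end Fermat.Agent.S56.GT
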