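import Fermat.Agent.S56.GT.Defs

/-!
# S56 / GT / IrrE : a proper non-zero stable subspace of `sl₂` produces a stable line
-/

set_option autoImplicit false

namespace Fermat.Agent.S56.GT

open Matrix Matrix.GeneralLinearGroup

variable {k : Type*} [Field k]

/-- `[tw g X, tw g Y] = det(g) • tw g [X,Y]`  (`adj(g) g = det g`). -/
lemma bracket_tw (g : GL (Fin 2) k) (X Y : Matrix (Fin 2) (Fin 2) k) :
    tw g X * tw g Y - tw g Y * tw g X = g.val.det • tw g (X * Y - Y * X) := by
  have key : ∀ X Y : Matrix (Fin 2) (Fin 2) k, tw g X * tw g Y = g.val.det • tw g (X * Y) := by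
    intro X Y
    simp only [tw]
    calc g.val * X * g.val.adjugate * (g.val * Y * g.val.adjugate)
        = g.val * X * (g.val.adjugate * g.val) * Y * g.val.adjugate := by
          simp only [Matrix.mul_assoc]
      _ = g.val.det • (g.val * (X * Y) * g.val.adjugate) := by
          rw [Matrix.adjugate_mul]
          simp only [Matrix.mul_smul, Matrix.smul_mul, Matrix.mul_one, Matrix.mul_assoc]
  rw [key, key, tw_sub, smul_sub]

/-- two commuting trace zero matrices are proportional (`2 ≠ 0`): entrywise,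
`[X,Y] = 0` means that the "cross product" of `(x,y,z)` and `(x',y',z')` vanishes. -/
lemma proportional_of_commute (h2 : (2 : k) ≠ 0) {X Y : Matrix (Fin 2) (Fin 2) k}
    (hX : X.trace = 0) (hY : Y.trace = 0) (hX0 : X ≠ 0) (hc : X * Y = Y * X) :
    ∃ a : k, Y = a • X := by
  rw [Matrix.trace_fin_two] at hX hY
  have hX11 : X 1 1 = - X 0 0 := eq_neg_of_add_eq_zero_right hX
  have hY11 : Y 1 1 = - Y 0 0 := eq_neg_of_add_eq_zero_right hY
  have e00 := congrFun (congrFun hc 0) 0
  have e01 := congrFun (congrFun hc 0) 1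
  have e10 := congrFun (congrFun hc 1) 0
  simp only [Matrix.mul_apply, Fin.sum_univ_two, hX11, hY11] at e00 e01 e10
  have c1 : X 0 1 * Y 1 0 = Y 0 1 * X 1 0 := by linear_combination e00
  have c2 : X 0 0 * Y 0 1 = Y 0 0 * X 0 1 := by
    have : 2 * (X 0 0 * Y 0 1) = 2 * (Y 0 0 * X 0 1) := by linear_combination e01
    exact mul_left_cancel₀ h2 this
  have c3 : X 1 0 * Y 0 0 = Y 1 0 * X 0 0 := by
    have : 2 * (X 1 0 * Y 0 0) = 2 * (Y 1 0 * X 0 0) := by linear_combination e10
    exact mul_left_cancel₀ h2 this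
  by_cases h00 : X 0 0 = 0
  · by_cases h01 : X 0 1 = 0
    · have h10 : X 1 0 ≠ 0 := by
        intro h10
        apply hX0
        ext i j
        fin_cases i <;> fin_cases j <;> simp [h00, h01, h10, hX11]
      refine ⟨Y 1 0 / X 1 0, ?_⟩
      ext i j
      fin_cases i <;> fin_cases j <;> simp [hX11, hY11] <;> field_simp
      · linear_combination c3
      · linear_combination (-1 : k) * c1
      · linear_combination c3
    · refine ⟨Y 0 1 / X 0 1, ?_⟩
      ext i j
      fin_cases i <;> fin_cases j <;> simp [hX11, hY11] <;> field_simp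
      · linear_combination (-1 : k) * c2
      · linear_combination c1
      · linear_combination (-1 : k) * c2
  · refine ⟨Y 0 0 / X 0 0, ?_⟩
    ext i j
    fin_cases i <;> fin_cases j <;> simp [hX11, hY11] <;> field_simp
    · linear_combination c2
    · linear_combination (-1 : k) * c3

/-- the trace zero matrices have dimension `3`: a subspace of them of dimension `≥ 3` is everything.
Statement used below: if `W ≤ sl₂` and `W ≠ sl₂` then `finrank W ≤ 2`. -/
lemma finrank_le_two {W : Submodule k (Matrix (Fin 2) (Fin 2) k)}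
    (hW0 : ∀ X ∈ W, X.trace = 0) {X₁ : Matrix (Fin 2) (Fin 2) k} (h1 : X₁.trace = 0)
    (h1' : X₁ ∉ W) : Module.finrank k W ≤ 2 := by
  let T : Matrix (Fin 2) (Fin 2) k →ₗ[k] k := Matrix.traceLinearMap (Fin 2) k k
  have hsl : Module.finrank k (LinearMap.ker T) = 3 := by
    have h := LinearMap.finrank_range_add_finrank_ker T
    have hr : LinearMap.range T = ⊤ := by
      rw [LinearMap.range_eq_top]
      intro a
      refine ⟨!![a, 0; 0, 0], ?_⟩
      simp [T, Matrix.trace_fin_two]
    rw [hr, finrank_top, Module.finrank_self, Module.finrank_matrix] at h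
    simp at h
    omega
  have hlt : W < LinearMap.ker T := by
    refine lt_of_le_of_ne (fun X hX => hW0 X hX) ?_
    intro h
    apply h1'
    rw [h]
    exact h1
  have := Submodule.finrank_lt_finrank_of_lt hlt
  omega

/-- **stable line.**  `S` any set of elements of `GL₂(k)`, `W ≤ sl₂` non-zero, `≠ sl₂`, stable under
`tw g`, `g ∈ S`.  Then there is a line `k X₀ ⊂ sl₂` stable under all `tw g`, `g ∈ S`.

PROOF.  `finrank W ∈ {1,2}` (`finrank_le_two`; `W ≠ ⊥`).  If `1`: `W = k X₀` (`finrank_eq_one_iff'`).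
If `2`: basis `X, Y` of `W` (`Module.finBasisOfFinrankEq`), `X₀ := X Y - Y X`, of trace `0`
(`Matrix.trace_mul_comm`), non-zero by `proportional_of_commute`.  For `g ∈ S`: `tw g X = a X + b Y`,
`tw g Y = c X + d Y`, so `[tw g X, tw g Y] = (a d - b c) X₀`, and by `bracket_tw`
`tw g X₀ = ((a d - b c)/det g) X₀`. -/
theorem exists_stable_line (h2 : (2 : k) ≠ 0) (S : Set (GL (Fin 2) k))
    (W : Submodule k (Matrix (Fin 2) (Fin 2) k)) (hW0 : ∀ X ∈ W, X.trace = 0) (hne : W ≠ ⊥)
    (hst : ∀ g ∈ S, ∀ X ∈ W, tw g X ∈ W)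
    {X₁ : Matrix (Fin 2) (Fin 2) k} (h1 : X₁.trace = 0) (h1' : X₁ ∉ W) :
    ∃ X₀ : Matrix (Fin 2) (Fin 2) k, X₀.trace = 0 ∧ X₀ ≠ 0 ∧
      ∀ g ∈ S, ∃ l : k, tw g X₀ = l • X₀ := by
  have hle := finrank_le_two hW0 h1 h1'
  have hpos : 0 < Module.finrank k W := by
    rw [Module.finrank_pos_iff]
    exact Submodule.nontrivial_iff_ne_bot.mpr hne
  rcases (by omega : Module.finrank k W = 1 ∨ Module.finrank k W = 2) with h | h
  · obtain ⟨v, hv, hv'⟩ := finrank_eq_one_iff'.mp h
    refine ⟨v.1, hW0 _ v.2, fun h0 => hv (Subtype.ext h0), fun g hg => ?_⟩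
    obtain ⟨l, hl⟩ := hv' ⟨tw g v.1, hst g hg _ v.2⟩
    exact ⟨l, (congrArg Subtype.val hl).symm⟩
  · let b := Module.finBasisOfFinrankEq k W h
    set X : Matrix (Fin 2) (Fin 2) k := (b 0).1 with hXdef
    set Y : Matrix (Fin 2) (Fin 2) k := (b 1).1 with hYdef
    have hrep : ∀ Z ∈ W, ∃ α β : k, Z = α • X + β • Y := by
      intro Z hZ
      have := b.sum_repr ⟨Z, hZ⟩
      rw [Fin.sum_univ_two] at this
      exact ⟨_, _, (congrArg Subtype.val this).symm⟩
    have hX0 : X ≠ 0 := fun h0 => b.ne_zero 0 (Subtype.ext h0)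
    have hbr : X * Y - Y * X ≠ 0 := by
      intro h0
      obtain ⟨a, ha⟩ := proportional_of_commute h2 (hW0 _ (b 0).2) (hW0 _ (b 1).2) hX0
        (sub_eq_zero.mp h0)
      have hb1 : b 1 = a • b 0 := Subtype.ext ha
      have := congrArg (fun v => b.repr v 1) hb1
      simp at this
    refine ⟨X * Y - Y * X, by rw [Matrix.trace_sub, Matrix.trace_mul_comm, sub_self], hbr,
      fun g hg => ?_⟩
    obtain ⟨α, β, hα⟩ := hrep _ (hst g hg _ (b 0).2)
    obtain ⟨γ, δ, hγ⟩ := hrep _ (hst g hg _ (b 1).2)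
    have hb := bracket_tw g X Y
    rw [hα, hγ] at hb
    have hdet : g.val.det ≠ 0 := g.det_ne_zero
    refine ⟨(α * δ - β * γ) / g.val.det, ?_⟩
    have h3 : g.val.det • tw g (X * Y - Y * X) = (α * δ - β * γ) • (X * Y - Y * X) := by
      rw [← hb]
      simp only [Matrix.add_mul, Matrix.mul_add, Matrix.smul_mul, Matrix.mul_smul, smul_add,
        smul_smul, sub_smul, smul_sub]
      module
    rw [div_eq_inv_mul, mul_smul, ← h3, smul_smul, inv_mul_cancel₀ hdet, one_smul]

end Fermat.Agent.S56.GT
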