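import Fermat.Agent.S56.GT.FixA

/-!
# S56 / GT / FixB : number of fixed points of elements of `GL₂(k)` on `ℙ¹(k) = OnePoint k`
(see the header of FixA for the Mathlib API)
-/

set_option autoImplicit false
set_option linter.unusedSectionVars false

namespace Fermat.Agent.S56.GT

open Matrix Matrix.GeneralLinearGroup OnePoint Polynomial

variable {k : Type*} [Field k] [DecidableEq k]

/-- upper triangular elements: the fixed points in the affine part. -/
lemma smul_coe_eq_self_iff_of_upper {g : GL (Fin 2) k} (hg : g 1 0 = 0) (t : k) :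
    g • (t : OnePoint k) = t ↔ (g 0 0 - g 1 1) * t + g 0 1 = 0 := by
  have hdet := det_fin_two_ne_zero g
  rw [hg, mul_zero, sub_zero] at hdet
  have h11 : g 1 1 ≠ 0 := right_ne_zero_of_mul hdet
  rw [smul_some_eq_ite, hg, zero_mul, zero_add, if_neg h11, coe_eq_coe, div_eq_iff h11]
  constructor
  · intro h; linear_combination h
  · intro h; linear_combination h

/-- parabolic elements have exactly one fixed point (Mathlib). -/
lemma fix1_of_isParabolic [NeZero (2 : k)] {g : GL (Fin 2) k} (hg : g.IsParabolic) :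
    Fix1 (OnePoint k) g :=
  ⟨parabolicFixedPoint g, fun _ => hg.smul_eq_self_iff⟩

/-- fixed points of a conjugate. -/
lemma conj_smul_eq_self_iff (g h : GL (Fin 2) k) (w : OnePoint k) :
    g • w = w ↔ (h * g * h⁻¹) • (h • w) = h • w := by
  rw [← mul_smul, mul_assoc, inv_mul_cancel, mul_one, mul_smul]
  exact (MulAction.injective h).eq_iff.symm

lemma conj_mem_center_iff (g h : GL (Fin 2) k) :
    h * g * h⁻¹ ∈ Subgroup.center (GL (Fin 2) k) ↔ g ∈ Subgroup.center (GL (Fin 2) k) :=
  (Subgroup.Normal.mem_comm_iff inferInstance).trans (by rw [← mul_assoc, inv_mul_cancel, one_mul])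

/-- non-central, non-parabolic elements with a fixed point have exactly two fixed points.

PROOF.  Conjugate the fixed point to `∞` (`exists_smul_eq_infty`; `Fix2`, centrality and
`IsParabolic` (`isParabolic_conj_iff`) are invariant under conjugation).  Then `g = [[a,b],[0,d]]`,
`discr g = (a-d)²  ≠ 0`, the fixed points are `∞` and `t = -b/(a-d)`
(`smul_coe_eq_self_iff_of_upper`). -/
lemma fix2_of_not_isParabolic [NeZero (2 : k)] {g : GL (Fin 2) k}
    (hc : g ∉ Subgroup.center (GL (Fin 2) k)) (hp : ¬ g.IsParabolic)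
    (hx : ∃ x : OnePoint k, g • x = x) : Fix2 (OnePoint k) g := by
  obtain ⟨x, hx⟩ := hx
  obtain ⟨h, hh⟩ := exists_smul_eq_infty x
  set g' := h * g * h⁻¹ with hg'
  have hc' : g' ∉ Subgroup.center (GL (Fin 2) k) := fun e => hc ((conj_mem_center_iff g h).mp e)
  have hp' : ¬ g'.IsParabolic := fun e => hp ((isParabolic_conj_iff h g).mp e)
  have hinf : g' • (∞ : OnePoint k) = ∞ := by
    have := (conj_smul_eq_self_iff g h x).mp hx
    rwa [hh] at this
  have h10 : g' 1 0 = 0 := smul_infty_eq_self_iff.mp hinf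
  have hne : g' 0 0 - g' 1 1 ≠ 0 := by
    intro e
    have e' : g' 0 0 = g' 1 1 := sub_eq_zero.mp e
    by_cases h01 : g' 0 1 = 0
    · exact hc' (mem_center_iff.mpr ⟨h01, h10, e'⟩)
    · exact hp' ((Matrix.GeneralLinearGroup.isParabolic_iff_of_upperTriangular h10).mpr ⟨e', h01⟩)
  set t0 : k := - g' 0 1 / (g' 0 0 - g' 1 1) with ht0
  refine ⟨h⁻¹ • (∞ : OnePoint k), h⁻¹ • (t0 : OnePoint k), ?_, fun w => ?_⟩
  · intro e
    exact infty_ne_coe t0 ((MulAction.injective h⁻¹) e)
  · rw [conj_smul_eq_self_iff g h w, eq_inv_smul_iff, eq_inv_smul_iff]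
    generalize h • w = z
    cases z with
    | infty => exact ⟨fun _ => Or.inl rfl, fun _ => hinf⟩
    | coe s =>
      rw [smul_coe_eq_self_iff_of_upper h10, coe_eq_coe]
      constructor
      · intro e
        right
        rw [ht0, eq_div_iff hne]
        linear_combination e
      · rintro (e | e)
        · exact absurd e (coe_ne_infty s)
        · rw [e, ht0, mul_div_cancel₀ _ hne]
          ring

/-- conversely an element with exactly one fixed point is parabolic. -/
lemma isParabolic_of_fix1 [NeZero (2 : k)] {g : GL (Fin 2) k} (h : Fix1 (OnePoint k) g) :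
    g.IsParabolic := by
  obtain ⟨x, hx⟩ := h
  have hc : g ∉ Subgroup.center (GL (Fin 2) k) := by
    intro hc
    have h1 := (hx ∞).mp (smul_eq_self_of_mem_center hc _)
    have h2 := (hx ((0 : k) : OnePoint k)).mp (smul_eq_self_of_mem_center hc _)
    exact infty_ne_coe _ (h1.trans h2.symm)
  by_contra hp
  obtain ⟨y, z, hyz, hw⟩ := fix2_of_not_isParabolic hc hp ⟨x, (hx x).mpr rfl⟩
  have h1 := (hx y).mp ((hw y).mpr (Or.inl rfl))
  have h2 := (hx z).mp ((hw z).mpr (Or.inr rfl))
  exact hyz (h1.trans h2.symm)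

/-- `u_t`, `t ≠ 0`, fixes only `∞`. -/
lemma upperRightHom_smul_eq_self_iff {t : k} (ht : t ≠ 0) (x : OnePoint k) :
    (upperRightHom t : GL (Fin 2) k) • x = x ↔ x = ∞ := by
  have h10 : (upperRightHom t : GL (Fin 2) k) 1 0 = 0 := by simp
  cases x with
  | infty => simp [smul_infty_eq_self_iff]
  | coe s =>
    rw [smul_coe_eq_self_iff_of_upper h10]
    simp [ht]

lemma upperRightHom_pow_char (p : ℕ) [CharP k p] (t : k) :
    (upperRightHom t : GL (Fin 2) k) ^ p = 1 := by
  rw [← AddChar.map_nsmul_eq_pow, nsmul_eq_mul, CharP.cast_eq_zero, zero_mul,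
    AddChar.map_zero_eq_one]

/-- the `p`-part of a parabolic element.  `g = λ (1 + n)`, `n² = 0`, `n ≠ 0`
(`λ = parabolicEigenvalue`, `IsParabolic.sub_eigenvalue_sq_eq_zero`), so
`g ^ m = λ ^ m (1 + m n)`.  With `m = |k| - 1`: `w = g ^ m = 1 - n`, `w ^ p = 1 - p n = 1`, and `w` is
parabolic; its fixed point is the one of `g` (a fixed point of `g` is fixed by `g ^ m`). -/
lemma exists_pow_of_isParabolic [Finite k] (p : ℕ) [Fact p.Prime] [CharP k p] [NeZero (2 : k)]
    {g : GL (Fin 2) k} (hg : g.IsParabolic) :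
    ∃ m : ℕ, (g ^ m) ^ p = 1 ∧ ∀ x : OnePoint k, (g ^ m) • x = x ↔ g • x = x := by
  have := Fintype.ofFinite k
  obtain ⟨h, hh⟩ := exists_smul_eq_infty (parabolicFixedPoint g)
  set g' := h * g * h⁻¹ with hg'
  have hp' : g'.IsParabolic := (isParabolic_conj_iff h g).mpr hg
  have hinf : g' • (∞ : OnePoint k) = ∞ := by
    have := (conj_smul_eq_self_iff g h _).mp (hg.smul_eq_self_iff.mpr rfl)
    rwa [hh] at this
  have h10 : g' 1 0 = 0 := smul_infty_eq_self_iff.mp hinf
  obtain ⟨h00, h01⟩ := (Matrix.GeneralLinearGroup.isParabolic_iff_of_upperTriangular h10).mp hp'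
  have hdet := det_fin_two_ne_zero g'
  rw [h10, mul_zero, sub_zero] at hdet
  have ha : g' 1 1 ≠ 0 := right_ne_zero_of_mul hdet
  set a := g' 1 1 with ha_def
  set b := g' 0 1 with hb_def
  set u : GL (Fin 2) k := upperRightHom (b / a) with hu
  have hval : g'.val = a • u.val := by
    ext i j
    fin_cases i <;> fin_cases j
    · simpa [hu, upperRightHom_apply] using h00
    · simp [hu, mul_div_cancel₀ _ ha, hb_def]
    · simpa [hu, upperRightHom_apply] using h10
    · simp [hu, ha_def]
  set m := Fintype.card k - 1 with hm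
  have ham : a ^ m = 1 := FiniteField.pow_card_sub_one_eq_one a ha
  have hpow : g' ^ m = upperRightHom ((m : k) * (b / a)) := by
    apply Units.ext
    rw [Units.val_pow_eq_pow_val, hval, _root_.smul_pow, ham, one_smul, ← Units.val_pow_eq_pow_val, hu,
      ← AddChar.map_nsmul_eq_pow, nsmul_eq_mul]
  have hmk : (m : k) = -1 := by
    rw [hm, Nat.cast_sub Fintype.card_pos, FiniteField.cast_card_eq_zero]
    simp
  have hne : (m : k) * (b / a) ≠ 0 := by
    rw [hmk]
    exact mul_ne_zero (neg_ne_zero.mpr one_ne_zero) (div_ne_zero h01 ha)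
  have hconj : h * g ^ m * h⁻¹ = g' ^ m := by
    rw [hg', conj_pow]
  refine ⟨m, ?_, fun x => ?_⟩
  · have h1 : (g' ^ m) ^ p = 1 := by rw [hpow]; exact upperRightHom_pow_char p _
    rw [← hconj, conj_pow] at h1
    have h2 : (g ^ m) ^ p = h⁻¹ * (h * (g ^ m) ^ p * h⁻¹) * h := by group
    rw [h2, h1]
    group
  · rw [conj_smul_eq_self_iff (g ^ m) h x, hconj, hpow, upperRightHom_smul_eq_self_iff hne,
      conj_smul_eq_self_iff g h x, hp'.smul_eq_self_iff]
    have : parabolicFixedPoint g' = ∞ := (hp'.smul_eq_self_iff.mp hinf).symm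
    rw [this]

end Fermat.Agent.S56.GT
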