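import Fermat.Agent.S56.GT.Hyp
import Fermat.Agent.S56.GT.FixB

/-!
# S56 / GT / IrrB : Clifford theory by hand, case of a scalar normal subgroup; commutants
-/

set_option autoImplicit false

namespace Fermat.Agent.S56.GT

open Matrix Matrix.GeneralLinearGroup OnePoint Polynomial

variable {k : Type*} [Field k] {p : ℕ} {𝒢 : Type*} [Group 𝒢] {r : 𝒢 →* GL (Fin 2) k}

/-- A non-scalar matrix `Y` with an eigenvector `v`: everything commuting with `Y` stabilises `k v`.
(`Y (h v) = h (Y v) = e (h v)`; the `e`-eigenspace of a non-scalar `2 × 2` matrix is a line.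
Elementary: write `w = h v`; if `w` is not proportional to `v` then `v, w` is a basis of eigenvectors
for `e`, so `Y = e • 1`.) -/
theorem commute_stabilises {Y h : Matrix (Fin 2) (Fin 2) k} (hY : ∀ e : k, Y ≠ e • 1)
    {v : Fin 2 → k} (hv : v ≠ 0) {e : k} (hYv : Y *ᵥ v = e • v) (hc : h * Y = Y * h) :
    ∃ a : k, h *ᵥ v = a • v := by
  set w := h *ᵥ v with hw
  have hYw : Y *ᵥ w = e • w := by
    rw [hw, Matrix.mulVec_mulVec, ← hc, ← Matrix.mulVec_mulVec, hYv, Matrix.mulVec_smul]
  have v0 := congrFun hYv 0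
  have v1 := congrFun hYv 1
  have w0 := congrFun hYw 0
  have w1 := congrFun hYw 1
  simp only [Matrix.mulVec, dotProduct, Fin.sum_univ_two, Pi.smul_apply, smul_eq_mul] at v0 v1 w0 w1
  have hd : v 0 * w 1 - v 1 * w 0 = 0 := by
    by_contra hd
    apply hY e
    have z00 : (Y 0 0 - e) * (v 0 * w 1 - v 1 * w 0) = 0 := by linear_combination w 1 * v0 - v 1 * w0
    have z01 : Y 0 1 * (v 0 * w 1 - v 1 * w 0) = 0 := by linear_combination v 0 * w0 - w 0 * v0
    have z10 : Y 1 0 * (v 0 * w 1 - v 1 * w 0) = 0 := by linear_combination w 1 * v1 - v 1 * w1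
    have z11 : (Y 1 1 - e) * (v 0 * w 1 - v 1 * w 0) = 0 := by linear_combination v 0 * w1 - w 0 * v1
    have y00 := (mul_eq_zero.1 z00).resolve_right hd
    have y01 := (mul_eq_zero.1 z01).resolve_right hd
    have y10 := (mul_eq_zero.1 z10).resolve_right hd
    have y11 := (mul_eq_zero.1 z11).resolve_right hd
    ext i j
    fin_cases i <;> fin_cases j
    · simpa using sub_eq_zero.1 y00
    · simpa using y01
    · simpa using y10
    · simpa using sub_eq_zero.1 y11
  by_cases h0 : v 0 = 0
  · have h1 : v 1 ≠ 0 := by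
      intro h1
      apply hv
      funext i
      fin_cases i
      · exact h0
      · exact h1
    refine ⟨w 1 / v 1, ?_⟩
    funext i
    fin_cases i
    · simp only [Fin.zero_eta, Pi.smul_apply, smul_eq_mul]
      field_simp
      linear_combination -hd
    · simp only [Fin.mk_one, Pi.smul_apply, smul_eq_mul]
      field_simp
  · refine ⟨w 0 / v 0, ?_⟩
    funext i
    fin_cases i
    · simp only [Fin.zero_eta, Pi.smul_apply, smul_eq_mul]
      field_simp
    · simp only [Fin.mk_one, Pi.smul_apply, smul_eq_mul]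
      field_simp
      linear_combination hd

/-- A subgroup defined by a sign character has index `1` or `2`:  if `ν : 𝒢 → k` is multiplicative
with `ν g = 1 ∨ ν g = -1` then `{g : ν g = 1}` has index `1` or `2`
(`Subgroup.index_eq_two_iff`, or `Subgroup.index_ker` for a hom to a group with two elements). -/
theorem index_of_sign (𝒢' : Subgroup 𝒢) (ν : 𝒢 → k) (hmul : ∀ g h, ν (g * h) = ν g * ν h)
    (hpm : ∀ g, ν g = 1 ∨ ν g = -1) (hmem : ∀ g, g ∈ 𝒢' ↔ ν g = 1) :
    𝒢'.index = 1 ∨ 𝒢'.index = 2 := by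
  by_cases hall : ∀ g, ν g = 1
  · left
    rw [Subgroup.index_eq_one, eq_top_iff]
    intro g _
    exact (hmem g).2 (hall g)
  · right
    push Not at hall
    obtain ⟨a, ha⟩ := hall
    have ha' : ν a = -1 := (hpm a).resolve_left ha
    rw [Subgroup.index_eq_two_iff]
    refine ⟨a, fun b => ?_⟩
    rw [hmem, hmem, hmul, ha']
    rcases hpm b with hb | hb
    · right
      rw [hb]
      exact ⟨rfl, by rw [one_mul, ← ha']; exact ha⟩
    · left
      rw [hb]
      exact ⟨by ring, by rw [← ha']; exact ha⟩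

/-- a central element of `GL₂(k)` is the scalar matrix of its `(0,0)` entry. -/
private theorem val_eq_smul_of_mem_center {g : GL (Fin 2) k}
    (hg : g ∈ Subgroup.center (GL (Fin 2) k)) : g.val = (g.val 0 0) • (1 : Matrix (Fin 2) (Fin 2) k) := by
  classical
  obtain ⟨h01, h10, h00⟩ := mem_center_iff.1 hg
  have a01 : g.val 0 1 = 0 := h01
  have a10 : g.val 1 0 = 0 := h10
  have a00 : g.val 0 0 = g.val 1 1 := h00
  ext i j
  fin_cases i <;> fin_cases j <;> simp [a01, a10, a00]

private theorem mem_center_of_val_eq_smul {g : GL (Fin 2) k} {e : k}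
    (hg : g.val = e • (1 : Matrix (Fin 2) (Fin 2) k)) : g ∈ Subgroup.center (GL (Fin 2) k) := by
  classical
  rw [mem_center_iff]
  have a : ∀ i j, g i j = (e • (1 : Matrix (Fin 2) (Fin 2) k)) i j := fun i j => by
    rw [← hg]
  refine ⟨?_, ?_, ?_⟩
  · rw [a]; simp
  · rw [a]; simp
  · rw [a, a]; simp

/-- an eigenvector for a root of the characteristic polynomial. -/
private theorem exists_eigenvector_of_split {Y : Matrix (Fin 2) (Fin 2) k} {a b : k}
    (h : Y.charpoly = (X - C a) * (X - C b)) : ∃ v : Fin 2 → k, v ≠ 0 ∧ Y *ᵥ v = a • v := by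
  have h1 : (Matrix.scalar (Fin 2) a - Y).det = 0 := by
    rw [← Matrix.eval_charpoly, h]
    simp
  obtain ⟨v, hv, hv0⟩ := Matrix.exists_mulVec_eq_zero_iff.2 h1
  refine ⟨v, hv, ?_⟩
  rw [Matrix.sub_mulVec, sub_eq_zero] at hv0
  rw [← hv0]
  funext i
  simp [Matrix.mulVec, dotProduct, Matrix.scalar_apply, Matrix.diagonal_apply]

/-- **Case B.**  `N` contains all commutators and `r N` consists of scalars: impossible.

PROOF.  Some `r g₀` is not scalar (otherwise every line is stable, contradicting `irr2 ⊤`,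
`Subgroup.index_top`).  For `h : 𝒢` the commutator `r (g₀ h g₀⁻¹ h⁻¹)` is a scalar `ν h • 1` of
determinant `1`, so `ν h = ± 1`; `r g₀ * r h = ν h • (r h * r g₀)`, hence `ν` is multiplicative.
`𝒢' := {h : ν h = 1}` = the `h` with `r h` commuting with `r g₀`; index `1` or `2` (`index_of_sign`).
`r g₀` has an eigenvector `v` (`hr.split`: a root `a` of the characteristic polynomial;
`Matrix.exists_mulVec_eq_zero_iff` for `r g₀ - a • 1`, or `exists_fixed_of_split` +
`smul_eq_self_iff_vec` from FixA).  By `commute_stabilises` all of `𝒢'` stabilises `k v`: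
contradiction with `hr.irr2 𝒢'`. -/
theorem false_of_scalar (hr : Hyp p r) (N : Subgroup 𝒢)
    (hab : ∀ g h : 𝒢, g * h * g⁻¹ * h⁻¹ ∈ N)
    (hsc : ∀ n ∈ N, r n ∈ Subgroup.center (GL (Fin 2) k)) : False := by
  -- some `r g₀` is not scalar
  obtain ⟨g₀, hg₀⟩ : ∃ g₀, r g₀ ∉ Subgroup.center (GL (Fin 2) k) := by
    by_contra hall
    push Not at hall
    obtain ⟨g, -, hg⟩ := hr.irr2 ⊤ (Or.inl Subgroup.index_top) ![1, 0] (by
      intro h
      have := congrFun h 0
      simp at this)
    apply hg ((r g).val 0 0)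
    rw [val_eq_smul_of_mem_center (hall g)]
    simp
  have hY : ∀ e : k, (r g₀).val ≠ e • 1 := fun e he => hg₀ (mem_center_of_val_eq_smul he)
  -- the commutator pairing
  set c : 𝒢 → GL (Fin 2) k := fun h => r (g₀ * h * g₀⁻¹ * h⁻¹) with hc
  have hcc : ∀ h, c h ∈ Subgroup.center (GL (Fin 2) k) := fun h => hsc _ (hab g₀ h)
  set ν : 𝒢 → k := fun h => (c h).val 0 0 with hν
  have hcν : ∀ h, (c h).val = ν h • (1 : Matrix (Fin 2) (Fin 2) k) := fun h =>
    val_eq_smul_of_mem_center (hcc h)
  have hcmul : ∀ h h', c (h * h') = c h * c h' := by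
    intro h h'
    have h1 : c (h * h') = c h * (r h * c h' * (r h)⁻¹) := by
      simp only [hc, ← map_mul, ← map_inv]
      congr 1
      group
    rw [h1, Subgroup.mem_center_iff.1 (hcc h') (r h), mul_inv_cancel_right]
  have hmul : ∀ h h', ν (h * h') = ν h * ν h' := by
    intro h h'
    have h1 : (c (h * h')).val = (ν h * ν h') • (1 : Matrix (Fin 2) (Fin 2) k) := by
      rw [hcmul, Units.val_mul, hcν, hcν]
      simp [smul_smul, mul_comm]
    have h2 := congrFun (congrFun h1 0) 0
    simpa using h2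
  have hdet : ∀ h, (c h).val.det = 1 := by
    intro h
    have h1 : Matrix.GeneralLinearGroup.det (c h) = 1 := by
      simp only [hc, map_mul, map_inv]
      rw [mul_assoc, mul_comm, ← mul_assoc]
      simp
    have h2 := congrArg Units.val h1
    simpa using h2
  have hpm : ∀ h, ν h = 1 ∨ ν h = -1 := by
    intro h
    have h1 := hdet h
    rw [hcν] at h1
    simp only [Matrix.det_smul, Fintype.card_fin, Matrix.det_one, mul_one] at h1
    exact sq_eq_one_iff.1 h1
  have hν1 : ν 1 = 1 := by
    have h1 : c 1 = 1 := by simp [hc]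
    simp [hν, h1]
  -- the subgroup `ν = 1`
  let 𝒢' : Subgroup 𝒢 :=
    { carrier := {h | ν h = 1}
      mul_mem' := fun {a b} ha hb => by
        show ν (a * b) = 1
        rw [hmul, show ν a = 1 from ha, show ν b = 1 from hb, one_mul]
      one_mem' := hν1
      inv_mem' := fun {a} ha => by
        show ν a⁻¹ = 1
        have h1 := hmul a a⁻¹
        rw [mul_inv_cancel, hν1, show ν a = 1 from ha, one_mul] at h1
        exact h1.symm }
  have hmem : ∀ g, g ∈ 𝒢' ↔ ν g = 1 := fun g => Iff.rfl
  obtain ⟨a, b, hab'⟩ := hr.split g₀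
  obtain ⟨v, hv, hYv⟩ := exists_eigenvector_of_split hab'
  obtain ⟨g, hg, hgv⟩ := hr.irr2 𝒢' (index_of_sign 𝒢' ν hmul hpm hmem) v hv
  have hcg : c g = 1 := by
    apply Units.ext
    rw [hcν, (hmem g).1 hg, one_smul, Units.val_one]
  have hcomm : r g * r g₀ = r g₀ * r g := by
    have h1 : r g₀ * r g = c g * (r g * r g₀) := by
      simp only [hc, ← map_mul]
      congr 1
      group
    rw [h1, hcg, one_mul]
  obtain ⟨a', ha'⟩ := commute_stabilises hY hv hYv (h := (r g).val) (by
    rw [← Units.val_mul, ← Units.val_mul, hcomm])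
  exact hgv a' ha'

end Fermat.Agent.S56.GT
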