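import Fermat.Agent.S56.GT.IrrA
import Fermat.Agent.S56.GT.IrrB

/-!
# S56 / GT / Sel0 : normal subgroups with abelian quotient are irreducible and contain regular
semisimple elements
-/

set_option autoImplicit false

namespace Fermat.Agent.S56.GT

open Matrix Matrix.GeneralLinearGroup OnePoint Polynomial

variable {k : Type*} [Field k] {p : ℕ} {𝒢 : Type*} [Group 𝒢] {r : 𝒢 →* GL (Fin 2) k}

/-- `r N` has no fixed point on `ℙ¹(k)` if `N` contains all commutators. -/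
theorem no_fixed_of_ab [DecidableEq k] [NeZero (2 : k)] (hr : Hyp p r) (N : Subgroup 𝒢)
    (hab : ∀ g h : 𝒢, g * h * g⁻¹ * h⁻¹ ∈ N) (x : OnePoint k) : ∃ g ∈ N, r g • x ≠ x := by
  by_contra hcon
  push Not at hcon
  by_cases hsc : ∀ n ∈ N, r n ∈ Subgroup.center (GL (Fin 2) k)
  · exact false_of_scalar hr N hab hsc
  · push Not at hsc
    obtain ⟨n₀, hn₀, hns⟩ := hsc
    exact false_of_fixed_of_nonscalar hr N hab hn₀ hns x hcon

/-- Two parabolic elements with different fixed points: one of `h₀ h₁`, `h₀² h₁` has non-zero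
discriminant.  Normal form: `h₀ = [[λ,s],[0,λ]]`, `s ≠ 0`; `h₁ = [[a,b],[c,d]]`, `c ≠ 0`,
`T = a + d`, `T² = 4 det h₁`.  `discr (h₀ h₁) = s c (2 λ T + s c)`,
`discr (h₀² h₁) = 2 λ s c (2 λ² T + 2 λ s c)`.  If both vanish: `s c = - 2 λ T` and `s c = - λ T`, so
`λ T = 0`, `s c = 0`: contradiction.  (`Matrix.discr_fin_two`, `trace_fin_two`, `det_fin_two`.) -/
theorem discr_ne_zero_of_two_parabolic (h2 : (2 : k) ≠ 0) {h₀ h₁ : GL (Fin 2) k}
    (h10 : h₀ 1 0 = 0) (h00 : h₀ 0 0 = h₀ 1 1) (h01 : h₀ 0 1 ≠ 0) (hc : h₁ 1 0 ≠ 0)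
    (hd : h₁.val.discr = 0) :
    (h₀ * h₁).val.discr ≠ 0 ∨ (h₀ * h₀ * h₁).val.discr ≠ 0 := by
  classical
  have hdet0 := det_fin_two_ne_zero h₀
  rw [h10, mul_zero, sub_zero, h00] at hdet0
  have hl : h₀ 1 1 ≠ 0 := right_ne_zero_of_mul hdet0
  by_contra hcon
  push Not at hcon
  obtain ⟨e1, e2⟩ := hcon
  rw [discr_fin_two, trace_fin_two, det_fin_two] at hd e1 e2
  simp only [Units.val_mul, Matrix.mul_apply, Fin.sum_univ_two] at e1 e2
  have a10 : h₀.val 1 0 = 0 := h10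
  have a00 : h₀.val 0 0 = h₀.val 1 1 := h00
  have a01 : h₀.val 0 1 ≠ 0 := h01
  have a11 : h₀.val 1 1 ≠ 0 := hl
  have c10 : h₁.val 1 0 ≠ 0 := hc
  rw [a10, a00] at e1 e2
  generalize h₀.val 1 1 = l at *
  generalize h₀.val 0 1 = s at *
  generalize h₁.val 0 0 = a at *
  generalize h₁.val 0 1 = b at *
  generalize h₁.val 1 0 = c at *
  generalize h₁.val 1 1 = d at *
  have hsc : s * c ≠ 0 := mul_ne_zero a01 c10
  have E1 : (s * c) * (2 * l * (a + d) + s * c) = 0 := by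
    linear_combination e1 - l ^ 2 * hd
  have E2 : (4 * l ^ 2 * (s * c)) * (l * (a + d) + s * c) = 0 := by
    linear_combination e2 - l ^ 4 * hd
  have h4 : (4 : k) ≠ 0 := by
    have : (4 : k) = 2 * 2 := by norm_num
    rw [this]
    exact mul_ne_zero h2 h2
  have F1 : 2 * l * (a + d) + s * c = 0 := (mul_eq_zero.1 E1).resolve_left hsc
  have F2 : l * (a + d) + s * c = 0 :=
    (mul_eq_zero.1 E2).resolve_left (mul_ne_zero (mul_ne_zero h4 (pow_ne_zero 2 a11)) hsc)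
  apply hsc
  linear_combination 2 * F2 - F1

/-- **padding**: regular semisimple elements in `N`.

PROOF.  (use `classical`, `NeZero (2 : k)` from `hp2`.)  Suppose every `r n`, `n ∈ N`, has
`discr = 0` (by `hr.split` and `discr_of_split`, `discr = (a - b)²`; so it is enough to find `n` with
`discr (r n) ≠ 0`).  By `no_fixed_of_ab` not all `r n` are central (central elements fix every
point): pick `n₀ ∈ N` with `r n₀` parabolic (`isParabolic_iff`), fixed point `x₀`; pick `n₁ ∈ N` with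
`r n₁ • x₀ ≠ x₀`.  Choose `h` with `h • x₀ = ∞` (`exists_smul_eq_infty`) and put
`h₀ = h (r n₀) h⁻¹` (upper triangular, parabolic: `h₀ 1 0 = 0`, `h₀ 0 0 = h₀ 1 1`, `h₀ 0 1 ≠ 0`),
`h₁ = h (r (n₁ n₀ n₁⁻¹)) h⁻¹` (parabolic, does not fix `∞`: `h₁ 1 0 ≠ 0`).  `discr` is invariant under
conjugation (trace and determinant are).  `discr_ne_zero_of_two_parabolic` gives
`n = n₀ (n₁ n₀ n₁⁻¹)` or `n = n₀ n₀ (n₁ n₀ n₁⁻¹)` in `N` with `discr (r n) ≠ 0`. -/
theorem sel0 [Finite k] [Fact p.Prime] [CharP k p] (hp2 : p ≠ 2)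
    (r : 𝒢 →* GL (Fin 2) k) (hr : Hyp p r)
    (N : Subgroup 𝒢) (hab : ∀ g h : 𝒢, g * h * g⁻¹ * h⁻¹ ∈ N) :
    ∃ τ ∈ N, ∃ a b : k, a ≠ b ∧ (r τ).val.charpoly = (X - C a) * (X - C b) := by
  classical
  have h2 : (2 : k) ≠ 0 := Ring.two_ne_zero (by rw [ringChar.eq k p]; exact hp2)
  have : NeZero (2 : k) := ⟨h2⟩
  suffices hex : ∃ n ∈ N, (r n).val.discr ≠ 0 by
    obtain ⟨n, hn, hd⟩ := hex
    obtain ⟨a, b, hab'⟩ := hr.split n
    refine ⟨n, hn, a, b, ?_, hab'⟩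
    rintro rfl
    apply hd
    rw [discr_of_split hab', sub_self]
    simp
  by_contra hcon
  push Not at hcon
  -- a parabolic element
  obtain ⟨n₀, hn₀, hn₀'⟩ := no_fixed_of_ab hr N hab (∞ : OnePoint k)
  have hc₀ : r n₀ ∉ Subgroup.center (GL (Fin 2) k) :=
    fun hc => hn₀' (smul_eq_self_of_mem_center hc _)
  have hp₀ : (r n₀).IsParabolic := isParabolic_iff.2 ⟨hc₀, hcon n₀ hn₀⟩
  set x₀ := parabolicFixedPoint (r n₀) with hx₀
  have hfix₀ : ∀ x : OnePoint k, r n₀ • x = x ↔ x = x₀ := fun x => hp₀.smul_eq_self_iff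
  obtain ⟨n₁, hn₁, hn₁'⟩ := no_fixed_of_ab hr N hab x₀
  obtain ⟨h, hh⟩ := exists_smul_eq_infty x₀
  have hh' : h⁻¹ • (∞ : OnePoint k) = x₀ := by rw [← hh, inv_smul_smul]
  have hdc : ∀ g : GL (Fin 2) k, (h * g * h⁻¹).val.discr = g.val.discr := by
    intro g
    rw [Units.val_mul, Units.val_mul, Matrix.coe_units_inv]
    exact Matrix.discr_conj h g.val
  set m := n₁ * n₀ * n₁⁻¹ with hm
  have hmN : m ∈ N := N.mul_mem (N.mul_mem hn₁ hn₀) (N.inv_mem hn₁)
  set h₀ := h * r n₀ * h⁻¹ with hh₀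
  set h₁ := h * r m * h⁻¹ with hh₁
  have hp' : h₀.IsParabolic := (isParabolic_conj_iff h (r n₀)).mpr hp₀
  have hinf : h₀ • (∞ : OnePoint k) = ∞ := by
    have := (conj_smul_eq_self_iff (r n₀) h x₀).mp ((hfix₀ x₀).2 rfl)
    rwa [hh] at this
  have h10 : h₀ 1 0 = 0 := smul_infty_eq_self_iff.mp hinf
  obtain ⟨h00, h01⟩ := (Matrix.GeneralLinearGroup.isParabolic_iff_of_upperTriangular h10).mp hp'
  have hc : h₁ 1 0 ≠ 0 := by
    intro hc
    have h1 : h₁ • (∞ : OnePoint k) = ∞ := smul_infty_eq_self_iff.mpr hc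
    have h2' : r m • x₀ = x₀ := by
      rw [conj_smul_eq_self_iff (r m) h x₀, hh]
      exact h1
    rw [hm, map_mul, map_mul, map_inv, mul_smul, mul_smul, smul_eq_iff_eq_inv_smul, hfix₀,
      inv_smul_eq_iff] at h2'
    exact hn₁' h2'.symm
  have hd : h₁.val.discr = 0 := by rw [hh₁, hdc]; exact hcon m hmN
  rcases discr_ne_zero_of_two_parabolic h2 h10 h00 h01 hc hd with hne | hne
  · apply hne
    have : h₀ * h₁ = h * r (n₀ * m) * h⁻¹ := by
      rw [hh₀, hh₁, map_mul r n₀ m]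
      generalize r n₀ = A
      generalize r m = B
      group
    rw [this, hdc]
    exact hcon _ (N.mul_mem hn₀ hmN)
  · apply hne
    have : h₀ * h₀ * h₁ = h * r (n₀ * n₀ * m) * h⁻¹ := by
      rw [hh₀, hh₁, map_mul r (n₀ * n₀) m, map_mul r n₀ n₀]
      generalize r n₀ = A
      generalize r m = B
      group
    rw [this, hdc]
    exact hcon _ (N.mul_mem (N.mul_mem hn₀ hn₀) hmN)

end Fermat.Agent.S56.GT
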