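import Fermat.Agent.S56.GT.H1
import Fermat.Agent.S56.GT.Sel0
import Fermat.Agent.S56.GT.IrrD
import Fermat.Agent.S56.GT.IrrE

/-!
# S56 / GT / Select : the selection lemma (interface GT -> TW)
-/

set_option autoImplicit false

namespace Fermat.Agent.S56.GT

open Matrix Matrix.GeneralLinearGroup Polynomial

variable {k : Type*} [Field k]

section cocycle

variable {𝒢 : Type*} [Group 𝒢] {r : 𝒢 →* GL (Fin 2) k}
  {ψ : 𝒢 → Matrix (Fin 2) (Fin 2) k}

lemma coc_one (hcoc : ∀ g h, ψ (g * h) = ψ g + tw (r g) (ψ h)) : ψ 1 = 0 := by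
  have h := hcoc 1 1
  rw [mul_one, map_one, tw_one] at h
  simpa using h

lemma coc_mul_ker (hcoc : ∀ g h, ψ (g * h) = ψ g + tw (r g) (ψ h)) {z : 𝒢} (hz : r z = 1)
    (g : 𝒢) : ψ (z * g) = ψ z + ψ g := by
  rw [hcoc, hz, tw_one]

lemma coc_conj_ker (hcoc : ∀ g h, ψ (g * h) = ψ g + tw (r g) (ψ h)) {z : 𝒢} (hz : r z = 1)
    (g : 𝒢) : ψ (g * z * g⁻¹) = tw (r g) (ψ z) := by
  have h1 := hcoc (g * z) g⁻¹
  have h2 := hcoc g z
  have h3 := hcoc g g⁻¹
  rw [mul_inv_cancel, coc_one hcoc] at h3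
  rw [map_mul, hz, mul_one] at h1
  rw [h1, h2, add_assoc, add_comm (tw (r g) (ψ z)), ← add_assoc, ← h3, zero_add]

end cocycle

/-- the functional `X ↦ tr (X g)` kills `(tw g - 1) M` when `det g = 1`. -/
lemma trace_mul_tw_sub (g : GL (Fin 2) k) (hg : g.val.det = 1) (m : Matrix (Fin 2) (Fin 2) k) :
    ((tw g m - m) * g.val).trace = 0 := by
  rw [Matrix.sub_mul, Matrix.trace_sub, tw, Matrix.mul_assoc, Matrix.adjugate_mul, hg, one_smul,
    Matrix.mul_one, Matrix.trace_mul_comm, sub_self]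

/-- **The selection lemma** (interface GT -> TW). -/
theorem selection [Finite k] {p : ℕ} [Fact p.Prime] [CharP k p] (hp2 : p ≠ 2)
    {𝒢 : Type*} [Group 𝒢] (r : 𝒢 →* GL (Fin 2) k) (hr : Hyp p r)
    (N : Subgroup 𝒢) (hab : ∀ g h : 𝒢, g * h * g⁻¹ * h⁻¹ ∈ N)
    (hN : ∀ g ∈ N, (r g).val.det = 1)
    (ψ : 𝒢 → Matrix (Fin 2) (Fin 2) k) (htr : ∀ g, (ψ g).trace = 0)
    (hcoc : ∀ g h, ψ (g * h) = ψ g + tw (r g) (ψ h))
    (hnb : ¬ ∃ m : Matrix (Fin 2) (Fin 2) k, m.trace = 0 ∧ ∀ g, ψ g = tw (r g) m - m) :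
    ∃ τ ∈ N, (∃ a b : k, a ≠ b ∧ (r τ).val.charpoly = (X - C a) * (X - C b)) ∧
      ¬ ∃ m : Matrix (Fin 2) (Fin 2) k, m.trace = 0 ∧ ψ τ = tw (r τ) m - m := by
  classical
  have h2 : (2 : k) ≠ 0 := two_ne_zero_of_char p hp2
  have : NeZero (2 : k) := ⟨h2⟩
  -- Claim A
  have hA : ∃ h, r h = 1 ∧ h ∈ N ∧ ψ h ≠ 0 := by
    by_contra hcon
    push Not at hcon
    -- `ψ` vanishes on `ker r`
    have hker : ∀ z, r z = 1 → ψ z = 0 := by
      intro z hz
      by_contra hne
      refine no_stable_line h2 hr (ψ z) (htr z) hne (fun g => ⟨1, ?_⟩)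
      rw [one_smul, ← coc_conj_ker hcoc hz g]
      have hcomm : r (g * z * g⁻¹ * z⁻¹) = 1 := by
        simp [map_mul, map_inv, hz]
      have h0 := hcon _ hcomm (hab g z)
      have h1 := coc_mul_ker hcoc hcomm z
      rw [h0, zero_add, inv_mul_cancel_right] at h1
      exact h1
    -- descend to the image
    let c : GL (Fin 2) k → Matrix (Fin 2) (Fin 2) k :=
      fun γ => if h : ∃ g, r g = γ then ψ h.choose else 0
    have hcr : ∀ g, c (r g) = ψ g := by
      intro g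
      have hex : ∃ g', r g' = r g := ⟨g, rfl⟩
      have hc1 : c (r g) = ψ hex.choose := dif_pos hex
      have hz : r (hex.choose * g⁻¹) = 1 := by
        rw [map_mul, hex.choose_spec, map_inv, mul_inv_cancel]
      have h1 := coc_mul_ker hcoc hz g
      rw [inv_mul_cancel_right, hker _ hz, zero_add] at h1
      rw [hc1, h1]
    have hc : IsCoc r.range c := by
      refine ⟨?_, ?_⟩
      · rintro _ ⟨g, rfl⟩
        rw [hcr]; exact htr g
      · rintro _ ⟨g, rfl⟩ _ ⟨h, rfl⟩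
        rw [← map_mul, hcr, hcr, hcr, hcoc]
    have hcob : IsCob r.range c := by
      refine H1_vanish p hp2 r.range ?_ ?_ ?_ c hc
      · rintro _ ⟨⟨g, rfl⟩, -⟩
        exact hr.exists_fixed g
      · intro x
        obtain ⟨g, hg, hgx⟩ := no_fixed_of_ab hr ((G1of ⊤).comap r) (by
          intro g h
          rw [Subgroup.mem_comap, mem_G1of]
          refine ⟨Subgroup.mem_top _, ?_⟩
          have : (r (g * h * g⁻¹ * h⁻¹)) = r g * r h * (r g)⁻¹ * (r h)⁻¹ := by
            simp [map_mul, map_inv]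
          rw [this]
          have hd : ∀ γ : GL (Fin 2) k, γ.val.det * (γ⁻¹).val.det = 1 := by
            intro γ
            rw [← Matrix.det_mul, ← Units.val_mul, mul_inv_cancel]; simp
          simp only [Units.val_mul, Matrix.det_mul]
          have h1 := hd (r g)
          have h2 := hd (r h)
          calc (r g).val.det * (r h).val.det * ((r g)⁻¹).val.det * ((r h)⁻¹).val.det
              = ((r g).val.det * ((r g)⁻¹).val.det) * ((r h).val.det * ((r h)⁻¹).val.det) := by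
                ring
            _ = 1 := by rw [h1, h2, one_mul]) x
        exact ⟨r g, ⟨⟨g, rfl⟩, hg.2⟩, hgx⟩
      · intro h5
        obtain ⟨g, hg⟩ := hr.det5 h5
        exact ⟨r g, ⟨g, rfl⟩, hg⟩
    obtain ⟨m, hm, hm'⟩ := hcob
    exact hnb ⟨m, hm, fun g => by rw [← hcr]; exact hm' _ ⟨g, rfl⟩⟩
  -- the regular semisimple element
  obtain ⟨σ₀, hσ₀, a, b, hab', hchar⟩ := sel0 hp2 r hr N hab
  by_cases hℓ : (ψ σ₀ * (r σ₀).val).trace = 0
  swap
  · refine ⟨σ₀, hσ₀, ⟨a, b, hab', hchar⟩, ?_⟩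
    rintro ⟨m, -, hm⟩
    apply hℓ
    rw [hm]
    exact trace_mul_tw_sub _ (hN _ hσ₀) m
  -- look for `h` in `ker r ⊓ N` with `ℓ (ψ h) ≠ 0`
  have hex : ∃ h, r h = 1 ∧ h ∈ N ∧ (ψ h * (r σ₀).val).trace ≠ 0 := by
    by_contra hcon
    push Not at hcon
    let W : Submodule k (Matrix (Fin 2) (Fin 2) k) :=
      Submodule.span k {Y | ∃ h, r h = 1 ∧ h ∈ N ∧ Y = ψ h}
    have hW0 : ∀ Y ∈ W, Y.trace = 0 := by
      intro Y hY
      induction hY using Submodule.span_induction with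
      | mem Y hY => obtain ⟨h, -, -, rfl⟩ := hY; exact htr h
      | zero => simp
      | add Y Z _ _ hY hZ => rw [Matrix.trace_add, hY, hZ, add_zero]
      | smul e Y _ hY => rw [Matrix.trace_smul, hY, smul_zero]
    have hWℓ : ∀ Y ∈ W, (Y * (r σ₀).val).trace = 0 := by
      intro Y hY
      induction hY using Submodule.span_induction with
      | mem Y hY => obtain ⟨h, h1, h2, rfl⟩ := hY; exact hcon h h1 h2
      | zero => simp
      | add Y Z _ _ hY hZ => rw [Matrix.add_mul, Matrix.trace_add, hY, hZ, add_zero]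
      | smul e Y _ hY => rw [Matrix.smul_mul, Matrix.trace_smul, hY, smul_zero]
    have hWne : W ≠ ⊥ := by
      obtain ⟨h, h1, h2, h3⟩ := hA
      intro hbot
      have : ψ h ∈ W := Submodule.subset_span ⟨h, h1, h2, rfl⟩
      rw [hbot, Submodule.mem_bot] at this
      exact h3 this
    have hWst : ∀ γ ∈ Set.range r, ∀ Y ∈ W, tw γ Y ∈ W := by
      rintro _ ⟨g, rfl⟩ Y hY
      induction hY using Submodule.span_induction with
      | mem Y hY =>
        obtain ⟨h, h1, h2, rfl⟩ := hY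
        rw [← coc_conj_ker hcoc h1 g]
        refine Submodule.subset_span ⟨g * h * g⁻¹, by simp [map_mul, map_inv, h1], ?_, rfl⟩
        have := N.mul_mem (hab g h) h2
        rwa [inv_mul_cancel_right] at this
      | zero => rw [tw_zero]; exact W.zero_mem
      | add Y Z _ _ hY hZ => rw [tw_add]; exact W.add_mem hY hZ
      | smul e Y _ hY => rw [tw_smul]; exact W.smul_mem e hY
    -- the test vector
    let X₁ : Matrix (Fin 2) (Fin 2) k := (r σ₀).val - ((r σ₀).val.trace / 2) • 1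
    have hX₁tr : X₁.trace = 0 := by
      simp only [X₁, Matrix.trace_sub, Matrix.trace_smul, Matrix.trace_one, Fintype.card_fin,
        smul_eq_mul]
      push_cast
      field_simp
      ring
    have hX₁ℓ : (X₁ * (r σ₀).val).trace ≠ 0 := by
      have hd := discr_of_split hchar
      rw [Matrix.discr_fin_two] at hd
      have hne : (a - b) ^ 2 ≠ 0 := pow_ne_zero 2 (sub_ne_zero.mpr hab')
      have key : (X₁ * (r σ₀).val).trace * 2 = (r σ₀).val.trace ^ 2 - 4 * (r σ₀).val.det := by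
        simp only [X₁, Matrix.sub_mul, Matrix.smul_mul, Matrix.one_mul, Matrix.trace_sub,
          Matrix.trace_smul, smul_eq_mul]
        rw [Matrix.trace_fin_two, Matrix.trace_fin_two, Matrix.det_fin_two]
        simp only [Matrix.mul_apply, Fin.sum_univ_two]
        field_simp
        ring
      intro h0
      rw [h0, zero_mul, hd] at key
      exact hne key.symm
    have hX₁W : X₁ ∉ W := fun h => hX₁ℓ (hWℓ _ h)
    obtain ⟨X₀, hX₀tr, hX₀ne, hX₀st⟩ :=
      exists_stable_line h2 (Set.range r) W hW0 hWne hWst hX₁tr hX₁W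
    exact no_stable_line h2 hr X₀ hX₀tr hX₀ne (fun g => hX₀st _ ⟨g, rfl⟩)
  obtain ⟨h, h1, h2', h3⟩ := hex
  have hrτ : r (h * σ₀) = r σ₀ := by rw [map_mul, h1, one_mul]
  refine ⟨h * σ₀, N.mul_mem h2' hσ₀, ⟨a, b, hab', by rw [hrτ]; exact hchar⟩, ?_⟩
  rintro ⟨m, -, hm⟩
  rw [hrτ, coc_mul_ker hcoc h1] at hm
  have h4 := trace_mul_tw_sub _ (hN _ hσ₀) m
  rw [← hm, Matrix.add_mul, Matrix.trace_add, hℓ, add_zero] at h4
  exact h3 h4

end Fermat.Agent.S56.GT
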