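import Fermat.Agent.S56.GT.FixB

/-!
# S56 / GT / BorelA : the stabiliser of `∞` in a finite subgroup `H ⊂ GL₂(k)`, `k` finite

`B = Stab_H(∞) = {b ∈ H : b 1 0 = 0}`, `χ(b) = b 0 0 / b 1 1`, `K = ker χ = {b ∈ B : b 0 0 = b 1 1}`.
KEY: for `b = [[a,s],[0,a]] ∈ H` one has `b ^ |k| = a • 1` (write `b = a (1 + n)`, `n² = 0`,
`b ^ m = a ^ m (1 + m n)`, `|k| = 0` in `k`, `a ^ |k| = a`), so the scalar `a • 1` and
`u_{s/a} = upperRightHom (s/a)` both lie in `H`:  `K = Z × U`, `|K| = z q`.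
-/

set_option autoImplicit false

namespace Fermat.Agent.S56.GT

open Matrix Matrix.GeneralLinearGroup OnePoint

variable {k : Type*} [Field k] [DecidableEq k]

/-- the scalars of `H`, as a subgroup of `↥H`. -/
abbrev Zs (H : Subgroup (GL (Fin 2) k)) : Subgroup ↥H :=
  (Subgroup.center (GL (Fin 2) k)).subgroupOf H

omit [DecidableEq k] in
lemma BorelA_pow_entries (g : GL (Fin 2) k) (h10 : g 1 0 = 0) (hd : g 0 0 = g 1 1) (m : ℕ) :
    (g ^ m) 1 0 = 0 ∧ (g ^ m) 0 0 = (g 0 0) ^ m ∧ (g ^ m) 1 1 = (g 0 0) ^ m ∧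
      g 0 0 * (g ^ m) 0 1 = m * (g 0 0) ^ m * g 0 1 := by
  induction m with
  | zero => simp
  | succ m ih =>
    obtain ⟨i1, i2, i3, i4⟩ := ih
    have e : ∀ i j, (g ^ (m + 1)) i j = (g ^ m) i 0 * g 0 j + (g ^ m) i 1 * g 1 j := by
      intro i j
      rw [pow_succ, GeneralLinearGroup.coe_mul, Matrix.mul_apply, Fin.sum_univ_two]
    refine ⟨?_, ?_, ?_, ?_⟩
    · rw [e, i1, h10]; ring
    · rw [e, i2, h10]; ring
    · rw [e, i1, i3, ← hd]; ring
    · rw [e, i2, ← hd]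
      have : g 0 0 * (g 0 0 ^ m * g 0 1 + (g ^ m) 0 1 * g 0 0) =
          g 0 0 ^ (m + 1) * g 0 1 + (g 0 0 * (g ^ m) 0 1) * g 0 0 := by ring
      rw [this, i4]
      push_cast
      ring

omit [DecidableEq k] in
lemma BorelA_diag_ne_zero (g : GL (Fin 2) k) (h10 : g 1 0 = 0) : g 0 0 ≠ 0 := by
  intro h
  have hdet : g.val.det ≠ 0 := ((Matrix.isUnit_iff_isUnit_det _).mp g.isUnit).ne_zero
  apply hdet
  rw [Matrix.det_fin_two]
  have h1 : g.val 0 0 = 0 := h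
  have h2 : g.val 1 0 = 0 := h10
  rw [h1, h2]; ring

omit [DecidableEq k] in
lemma BorelA_pow_card [Finite k] (p : ℕ) [Fact p.Prime] [CharP k p] (g : GL (Fin 2) k)
    (h10 : g 1 0 = 0) (hd : g 0 0 = g 1 1) :
    (g ^ Nat.card k) 1 0 = 0 ∧ (g ^ Nat.card k) 0 0 = g 0 0 ∧ (g ^ Nat.card k) 1 1 = g 0 0 ∧
      (g ^ Nat.card k) 0 1 = 0 := by
  have : Fintype k := Fintype.ofFinite k
  obtain ⟨i1, i2, i3, i4⟩ := BorelA_pow_entries g h10 hd (Nat.card k)
  rw [Nat.card_eq_fintype_card] at i1 i2 i3 i4 ⊢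
  rw [FiniteField.pow_card] at i2 i3 i4
  refine ⟨i1, i2, i3, ?_⟩
  rw [Nat.cast_card_eq_zero, zero_mul, zero_mul] at i4
  exact (mul_eq_zero.1 i4).resolve_left (BorelA_diag_ne_zero g h10)


/-- the predicate defining `K`. -/
def BorelA_Kp (H : Subgroup (GL (Fin 2) k)) (g : ↥H) : Prop :=
  (g : GL (Fin 2) k) 1 0 = 0 ∧ (g : GL (Fin 2) k) 0 0 = (g : GL (Fin 2) k) 1 1

lemma BorelA_mem_Zs {H : Subgroup (GL (Fin 2) k)} {g : ↥H} :
    g ∈ Zs H ↔ (g : GL (Fin 2) k) 0 1 = 0 ∧ (g : GL (Fin 2) k) 1 0 = 0 ∧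
      (g : GL (Fin 2) k) 0 0 = (g : GL (Fin 2) k) 1 1 := by
  rw [Subgroup.mem_subgroupOf, mem_center_iff]

omit [DecidableEq k] in
lemma BorelA_mul_entries (z : GL (Fin 2) k) (t : k) (i : Fin 2) :
    (z * upperRightHom t) i 0 = z i 0 ∧ (z * upperRightHom t) i 1 = z i 0 * t + z i 1 := by
  constructor
  · rw [GeneralLinearGroup.coe_mul, Matrix.mul_apply, Fin.sum_univ_two]
    simp
  · rw [GeneralLinearGroup.coe_mul, Matrix.mul_apply, Fin.sum_univ_two]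
    simp

/-- the parametrisation `(ζ,t) ↦ ζ u_t`. -/
def BorelA_par (H : Subgroup (GL (Fin 2) k)) (x : Zs H × Aof H) :
    {g : ↥H // (g : GL (Fin 2) k) 1 0 = 0 ∧ (g : GL (Fin 2) k) 0 0 = (g : GL (Fin 2) k) 1 1} :=
  ⟨(x.1 : ↥H) * ⟨upperRightHom (x.2 : k), x.2.2⟩, by
    obtain ⟨h01, h10, hd⟩ := BorelA_mem_Zs.1 x.1.2
    have e0 := BorelA_mul_entries ((x.1 : ↥H) : GL (Fin 2) k) (x.2 : k) 0
    have e1 := BorelA_mul_entries ((x.1 : ↥H) : GL (Fin 2) k) (x.2 : k) 1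
    refine ⟨?_, ?_⟩
    · exact e1.1.trans h10
    · refine e0.1.trans ?_
      refine Eq.trans ?_ e1.2.symm
      rw [h10, zero_mul, zero_add, hd]⟩

omit [DecidableEq k] in
lemma BorelA_ext {g h : GL (Fin 2) k} (e : ∀ i j, g i j = h i j) : g = h :=
  Units.ext (Matrix.ext e)

lemma BorelA_par_bijective [Finite k] (p : ℕ) [Fact p.Prime] [CharP k p]
    (H : Subgroup (GL (Fin 2) k)) : Function.Bijective (BorelA_par H) := by
  constructor
  · rintro ⟨ζ, t⟩ ⟨ζ', t'⟩ h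
    have h' : ((ζ : ↥H) : GL (Fin 2) k) * upperRightHom (t : k) =
        ((ζ' : ↥H) : GL (Fin 2) k) * upperRightHom (t' : k) :=
      congrArg (fun x => ((x.1 : ↥H) : GL (Fin 2) k)) h
    obtain ⟨h01, h10, hd⟩ := BorelA_mem_Zs.1 ζ.2
    obtain ⟨h01', h10', hd'⟩ := BorelA_mem_Zs.1 ζ'.2
    have a0 : ((ζ : ↥H) : GL (Fin 2) k) 0 0 = ((ζ' : ↥H) : GL (Fin 2) k) 0 0 := by
      rw [← (BorelA_mul_entries _ (t : k) 0).1, h', (BorelA_mul_entries _ (t' : k) 0).1]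
    have a1 : ((ζ : ↥H) : GL (Fin 2) k) 0 0 * (t : k) = ((ζ' : ↥H) : GL (Fin 2) k) 0 0 * (t' : k) := by
      have e1 := (BorelA_mul_entries ((ζ : ↥H) : GL (Fin 2) k) (t : k) 0).2
      have e2 := (BorelA_mul_entries ((ζ' : ↥H) : GL (Fin 2) k) (t' : k) 0).2
      rw [h01, add_zero] at e1
      rw [h01', add_zero] at e2
      rw [← e1, h', e2]
    have hz : ζ = ζ' := by
      apply Subtype.ext
      apply Subtype.ext
      apply BorelA_ext
      intro i j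
      fin_cases i <;> fin_cases j
      · exact a0
      · exact h01.trans h01'.symm
      · exact h10.trans h10'.symm
      · exact hd.symm.trans (a0.trans hd')
    have ht : t = t' := by
      apply Subtype.ext
      rw [← a0] at a1
      exact mul_left_cancel₀ (BorelA_diag_ne_zero _ h10) a1
    rw [hz, ht]
  · rintro ⟨g, h10, hd⟩
    obtain ⟨i1, i2, i3, i4⟩ := BorelA_pow_card p (g : GL (Fin 2) k) h10 hd
    have ha : (g : GL (Fin 2) k) 0 0 ≠ 0 := BorelA_diag_ne_zero _ h10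
    have hζ : g ^ Nat.card k ∈ Zs H := BorelA_mem_Zs.2 ⟨i4, i1, i2.trans i3.symm⟩
    have hu : (g : GL (Fin 2) k) = ((g ^ Nat.card k : ↥H) : GL (Fin 2) k) *
        upperRightHom ((g : GL (Fin 2) k) 0 1 / (g : GL (Fin 2) k) 0 0) := by
      apply BorelA_ext
      intro i j
      have e := BorelA_mul_entries ((g ^ Nat.card k : ↥H) : GL (Fin 2) k)
        ((g : GL (Fin 2) k) 0 1 / (g : GL (Fin 2) k) 0 0) i
      have c1 : ((g ^ Nat.card k : ↥H) : GL (Fin 2) k) = (g : GL (Fin 2) k) ^ Nat.card k := rfl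
      fin_cases i <;> fin_cases j
      · refine Eq.trans ?_ e.1.symm
        rw [c1]; exact i2.symm
      · refine Eq.trans ?_ e.2.symm
        rw [c1]
        change _ = ((g : GL (Fin 2) k) ^ Nat.card k) 0 0 * _ + ((g : GL (Fin 2) k) ^ Nat.card k) 0 1
        rw [i2, i4, add_zero, mul_div_cancel₀ _ ha]
        rfl
      · refine Eq.trans ?_ e.1.symm
        rw [c1]; exact h10.trans i1.symm
      · refine Eq.trans ?_ e.2.symm
        rw [c1]
        change _ = ((g : GL (Fin 2) k) ^ Nat.card k) 1 0 * _ + ((g : GL (Fin 2) k) ^ Nat.card k) 1 1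
        rw [i1, i3, zero_mul, zero_add]
        exact hd.symm
    have ht : (g : GL (Fin 2) k) 0 1 / (g : GL (Fin 2) k) 0 0 ∈ Aof H := by
      rw [mem_Aof]
      have : upperRightHom ((g : GL (Fin 2) k) 0 1 / (g : GL (Fin 2) k) 0 0) =
          (((g ^ Nat.card k : ↥H) : GL (Fin 2) k))⁻¹ * (g : GL (Fin 2) k) := by
        rw [eq_inv_mul_iff_mul_eq]
        exact hu.symm
      rw [this]
      exact H.mul_mem (H.inv_mem (g ^ Nat.card k).2) g.2
    refine ⟨(⟨g ^ Nat.card k, hζ⟩, ⟨_, ht⟩), ?_⟩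
    apply Subtype.ext
    apply Subtype.ext
    exact hu.symm

/-- `K = {b ∈ H : b 1 0 = 0, b 0 0 = b 1 1}` has `z q` elements (bijection
`Zs H × Aof H → K`, `(ζ,t) ↦ ζ u_t`; surjectivity: see the header). -/
theorem card_K [Finite k] (p : ℕ) [Fact p.Prime] [CharP k p] (H : Subgroup (GL (Fin 2) k)) :
    Nat.card {g : ↥H // (g : GL (Fin 2) k) 1 0 = 0 ∧ (g : GL (Fin 2) k) 0 0 = (g : GL (Fin 2) k) 1 1}
      = Nat.card (Zs H) * Nat.card (Aof H) := by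
  rw [← Nat.card_prod]
  exact (Nat.card_congr (Equiv.ofBijective _ (BorelA_par_bijective p H))).symm

lemma BorelA_par_iff {H : Subgroup (GL (Fin 2) k)} (g : ↥H) :
    (g • (∞ : OnePoint k) = ∞ ∧ g ∉ Zs H ∧ Fix1 (OnePoint k) g) ↔
      (((g : GL (Fin 2) k) 1 0 = 0 ∧ (g : GL (Fin 2) k) 0 0 = (g : GL (Fin 2) k) 1 1) ∧
        g ∉ Zs H) := by
  have hsm : ∀ w : OnePoint k, g • w = (g : GL (Fin 2) k) • w := fun _ => rfl
  constructor
  · rintro ⟨h1, h2, x, hx⟩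
    rw [hsm, smul_infty_eq_self_iff] at h1
    refine ⟨⟨h1, ?_⟩, h2⟩
    by_contra hne
    have hxinf : (∞ : OnePoint k) = x := (hx ∞).1 (by rw [hsm, smul_infty_eq_self_iff]; exact h1)
    have hsub : (g : GL (Fin 2) k) 0 0 - (g : GL (Fin 2) k) 1 1 ≠ 0 := sub_ne_zero.2 hne
    have hfix : g • ((-(g : GL (Fin 2) k) 0 1 / ((g : GL (Fin 2) k) 0 0 - (g : GL (Fin 2) k) 1 1) : k) :
        OnePoint k) = ((-(g : GL (Fin 2) k) 0 1 / ((g : GL (Fin 2) k) 0 0 - (g : GL (Fin 2) k) 1 1) : k) :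
        OnePoint k) := by
      rw [hsm, smul_coe_eq_self_iff_of_upper h1, mul_div_cancel₀ _ hsub]
      ring
    have := (hx _).1 hfix
    rw [← hxinf] at this
    exact OnePoint.coe_ne_infty _ this
  · rintro ⟨⟨h1, hd⟩, h2⟩
    refine ⟨by rw [hsm, smul_infty_eq_self_iff]; exact h1, h2, ∞, fun w => ?_⟩
    have h01 : (g : GL (Fin 2) k) 0 1 ≠ 0 := fun h => h2 (BorelA_mem_Zs.2 ⟨h, h1, hd⟩)
    induction w using OnePoint.rec with
    | infty =>
      rw [hsm, smul_infty_eq_self_iff]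
      exact ⟨fun _ => rfl, fun _ => h1⟩
    | coe t =>
      rw [hsm, smul_coe_eq_self_iff_of_upper h1, hd, sub_self, zero_mul, zero_add]
      exact ⟨fun h => absurd h h01, fun h => absurd h (OnePoint.coe_ne_infty _)⟩

/-- (h4) the parabolic elements of `H` fixing `∞` are the elements of `K \ Z`.
(`g ∈ Stab ∞ ↔ g 1 0 = 0` by `smul_infty_eq_self_iff`; for such `g`, `g ∉ Z`:
`Fix1 g ↔ g 0 0 = g 1 1` by `smul_coe_eq_self_iff_of_upper`; the elements of `Z` are in `K`;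
so the set is `K \ Z` and has `z q - z` elements.) -/
theorem card_par_infty [Finite k] (p : ℕ) [Fact p.Prime] [CharP k p]
    (H : Subgroup (GL (Fin 2) k)) :
    Nat.card {g : ↥H // g • (∞ : OnePoint k) = ∞ ∧ g ∉ Zs H ∧ Fix1 (OnePoint k) g}
      = Nat.card (Zs H) * (Nat.card (Aof H) - 1) := by
  classical
  have hK := card_K p H
  have e1 : Nat.card {g : ↥H // g • (∞ : OnePoint k) = ∞ ∧ g ∉ Zs H ∧ Fix1 (OnePoint k) g} =
      Nat.card {x : {g : ↥H // (g : GL (Fin 2) k) 1 0 = 0 ∧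
        (g : GL (Fin 2) k) 0 0 = (g : GL (Fin 2) k) 1 1} // ¬ (x.1 ∈ Zs H)} :=
    Nat.card_congr ((Equiv.subtypeEquivRight BorelA_par_iff).trans
      (Equiv.subtypeSubtypeEquivSubtypeInter _ _).symm)
  have e2 : Nat.card (Zs H) =
      Nat.card {x : {g : ↥H // (g : GL (Fin 2) k) 1 0 = 0 ∧
        (g : GL (Fin 2) k) 0 0 = (g : GL (Fin 2) k) 1 1} // x.1 ∈ Zs H} :=
    Nat.card_congr ((Equiv.subtypeEquivRight (fun g : ↥H => by
      constructor
      · intro h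
        exact ⟨(BorelA_mem_Zs.1 h).2, h⟩
      · intro h
        exact h.2)).trans (Equiv.subtypeSubtypeEquivSubtypeInter _ (fun g : ↥H => g ∈ Zs H)).symm)
  have e3 := Nat.card_congr (Equiv.sumCompl (fun x : {g : ↥H // (g : GL (Fin 2) k) 1 0 = 0 ∧
        (g : GL (Fin 2) k) 0 0 = (g : GL (Fin 2) k) 1 1} => x.1 ∈ Zs H))
  rw [Nat.card_sum, ← e1, ← e2, hK] at e3
  rw [Nat.mul_sub, mul_one, ← e3]
  omega

end Fermat.Agent.S56.GT
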