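import Fermat.Agent.S56.GT.BorelA

/-!
# S56 / GT / BorelB : the stabiliser of `∞` (continued; see the header of BorelA)
-/

set_option autoImplicit false

namespace Fermat.Agent.S56.GT

open Matrix Matrix.GeneralLinearGroup OnePoint

variable {k : Type*} [Field k] [DecidableEq k]

/-- the stabiliser of `∞` consists of the upper triangular elements. -/
private lemma mem_stab_iff (H : Subgroup (GL (Fin 2) k)) (g : ↥H) :
    g ∈ MulAction.stabilizer ↥H (∞ : OnePoint k) ↔ (g : GL (Fin 2) k) 1 0 = 0 := by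
  rw [MulAction.mem_stabilizer_iff]
  exact smul_infty_eq_self_iff

omit [DecidableEq k] in
private lemma diag_ne_zero {g : GL (Fin 2) k} (hg : g 1 0 = 0) : g 0 0 ≠ 0 ∧ g 1 1 ≠ 0 := by
  have h := g.det_ne_zero
  rw [Matrix.det_fin_two, hg, mul_zero, sub_zero] at h
  exact ⟨left_ne_zero_of_mul h, right_ne_zero_of_mul h⟩

/-- `χ(b) = b 0 0 / b 1 1` on the stabiliser of `∞`, with values in `k`. -/
private noncomputable def chi0 (H : Subgroup (GL (Fin 2) k)) :
    MulAction.stabilizer ↥H (∞ : OnePoint k) →* k where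
  toFun b := ((b : ↥H) : GL (Fin 2) k) 0 0 / ((b : ↥H) : GL (Fin 2) k) 1 1
  map_one' := by simp
  map_mul' b b' := by
    have hb := (mem_stab_iff H b.1).1 b.2
    have hb' := (mem_stab_iff H b'.1).1 b'.2
    have h00 : (((b * b' : MulAction.stabilizer ↥H (∞ : OnePoint k)) : ↥H) : GL (Fin 2) k) 0 0
        = ((b : ↥H) : GL (Fin 2) k) 0 0 * ((b' : ↥H) : GL (Fin 2) k) 0 0 := by
      simp [Matrix.mul_apply, Fin.sum_univ_two, hb']
    have h11 : (((b * b' : MulAction.stabilizer ↥H (∞ : OnePoint k)) : ↥H) : GL (Fin 2) k) 1 1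
        = ((b : ↥H) : GL (Fin 2) k) 1 1 * ((b' : ↥H) : GL (Fin 2) k) 1 1 := by
      simp [Matrix.mul_apply, Fin.sum_univ_two, hb]
    rw [h00, h11, mul_div_mul_comm]

/-- (h5) `|Stab ∞| = z q τ`: the map `χ : Stab ∞ → chiSet H` is onto with fibres the cosets of
`K` (it is a group homomorphism to `kˣ` with kernel `K`). -/
theorem card_stab_infty [Finite k] (p : ℕ) [Fact p.Prime] [CharP k p]
    (H : Subgroup (GL (Fin 2) k)) :
    Nat.card (MulAction.stabilizer ↥H (∞ : OnePoint k))
      = Nat.card (Zs H) * Nat.card (Aof H) * (chiSet H).ncard := by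
  classical
  let χ : MulAction.stabilizer ↥H (∞ : OnePoint k) →* kˣ := (chi0 H).toHomUnits
  have hχ : ∀ b : MulAction.stabilizer ↥H (∞ : OnePoint k),
      ((χ b : kˣ) : k) = ((b : ↥H) : GL (Fin 2) k) 0 0 / ((b : ↥H) : GL (Fin 2) k) 1 1 :=
    fun b => rfl
  rw [← Subgroup.card_mul_index χ.ker, Subgroup.index_ker, ← card_K p H]
  congr 1
  · -- the kernel
    refine Nat.card_eq_of_bijective
      (fun x : χ.ker => (⟨x.1.1, (mem_stab_iff H x.1.1).1 x.1.2, by
        have h1 : χ x.1 = 1 := x.2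
        have h2 := hχ x.1
        rw [h1, Units.val_one] at h2
        have h3 := (diag_ne_zero ((mem_stab_iff H x.1.1).1 x.1.2)).2
        exact ((eq_div_iff h3).1 h2 ▸ (one_mul _).symm).symm ▸ rfl⟩ :
          {g : ↥H // (g : GL (Fin 2) k) 1 0 = 0 ∧
            (g : GL (Fin 2) k) 0 0 = (g : GL (Fin 2) k) 1 1})) ⟨?_, ?_⟩
    · intro x y hxy
      have h : x.1.1 = y.1.1 := by
        have := congrArg Subtype.val hxy
        exact this
      exact Subtype.ext (Subtype.ext h)
    · rintro ⟨g, hg1, hg2⟩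
      refine ⟨⟨⟨g, (mem_stab_iff H g).2 hg1⟩, ?_⟩, rfl⟩
      rw [MonoidHom.mem_ker]
      apply Units.ext
      rw [hχ, Units.val_one]
      change (g : GL (Fin 2) k) 0 0 / (g : GL (Fin 2) k) 1 1 = 1
      rw [hg2, div_self (diag_ne_zero hg1).2]
  · -- the range
    have h1 : chiSet H = (fun u : kˣ => (u : k)) '' (χ.range : Set kˣ) := by
      ext x
      constructor
      · rintro ⟨b, hb, hb0, rfl⟩
        exact ⟨χ ⟨⟨b, hb⟩, (mem_stab_iff H ⟨b, hb⟩).2 hb0⟩, ⟨_, rfl⟩, rfl⟩
      · rintro ⟨_, ⟨b, rfl⟩, rfl⟩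
        exact ⟨b.1.1, b.1.2, (mem_stab_iff H b.1).1 b.2, rfl⟩
    rw [h1, Set.ncard_image_of_injective _ Units.val_injective]
    rfl

/-- (h6) if `H` does not fix `∞` the orbit of `∞` has at least `q + 1` elements: take
`ω = g ∞ ≠ ∞`; `t ↦ u_t ω` is an injection of `Aof H` into `orbit \ {∞}`
(`u_t ω = u_s ω` implies that `u_{t-s}` fixes `ω ≠ ∞`, so `t = s` by
`upperRightHom_smul_eq_self_iff`). -/
theorem card_orbit_infty_ge [Finite k] (H : Subgroup (GL (Fin 2) k))
    (hirr : ∃ g ∈ H, g • (∞ : OnePoint k) ≠ ∞) :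
    Nat.card (Aof H) + 1 ≤ Nat.card (MulAction.orbit ↥H (∞ : OnePoint k)) := by
  classical
  obtain ⟨g, hg, hgω⟩ := hirr
  have hfin : Finite (OnePoint k) := by
    have : Fintype k := Fintype.ofFinite k
    infer_instance
  have hu : ∀ t : k, (upperRightHom t : GL (Fin 2) k) • (∞ : OnePoint k) = ∞ := by
    intro t
    rw [smul_infty_eq_self_iff]
    simp
  let f : Option (Aof H) → MulAction.orbit ↥H (∞ : OnePoint k) := fun o =>
    match o with
    | Option.none => ⟨∞, MulAction.mem_orbit_self _⟩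
    | Option.some t => ⟨(upperRightHom (t : k) : GL (Fin 2) k) • (g • (∞ : OnePoint k)),
        ⟨(⟨upperRightHom (t : k), t.2⟩ : ↥H) * ⟨g, hg⟩, by
          change ((upperRightHom (t : k) : GL (Fin 2) k) * g) • (∞ : OnePoint k) = _
          rw [mul_smul]⟩⟩
  have hf : Function.Injective f := by
    intro a b hab
    have hab' : (f a : OnePoint k) = f b := congrArg Subtype.val hab
    have key : ∀ t : Aof H,
        (upperRightHom (t : k) : GL (Fin 2) k) • (g • (∞ : OnePoint k)) ≠ ∞ := by
      intro t h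
      apply hgω
      have h2 := congrArg (fun x => (upperRightHom (t : k) : GL (Fin 2) k)⁻¹ • x) h
      simp only [inv_smul_smul] at h2
      rw [h2, inv_smul_eq_iff, hu]
    match a, b, hab' with
    | Option.none, Option.none, _ => rfl
    | Option.none, Option.some t, h => exact absurd h.symm (key t)
    | Option.some t, Option.none, h => exact absurd h (key t)
    | Option.some t, Option.some s, h =>
      have h1 : (upperRightHom ((t : k) - s) : GL (Fin 2) k) • (g • (∞ : OnePoint k))
          = g • (∞ : OnePoint k) := by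
        have h' : (upperRightHom (t : k) : GL (Fin 2) k) • (g • (∞ : OnePoint k))
            = (upperRightHom (s : k) : GL (Fin 2) k) • (g • (∞ : OnePoint k)) := h
        rw [sub_eq_neg_add, AddChar.map_add_eq_mul, AddChar.map_neg_eq_inv, mul_smul, h',
          inv_smul_smul]
      have h2 : (t : k) - s = 0 := by
        by_contra hne
        exact hgω ((upperRightHom_smul_eq_self_iff hne _).1 h1)
      exact congrArg Option.some (Subtype.ext (sub_eq_zero.1 h2))
  have h := Nat.card_le_card_of_injective f hf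
  rwa [Finite.card_option] at h

/-- a non-trivial additive subgroup of a field of characteristic `p` has order divisible by `p`
(`t ≠ 0` has additive order `p`; `addOrderOf_dvd_natCard`). -/
theorem dvd_card_Aof [Finite k] (p : ℕ) [Fact p.Prime] [CharP k p] (A : AddSubgroup k)
    (hA : A ≠ ⊥) : p ∣ Nat.card A := by
  obtain ⟨a, ha⟩ := AddSubgroup.ne_bot_iff_exists_ne_zero.1 hA
  have h1 : p • a = 0 := by
    apply Subtype.ext
    simp [CharP.cast_eq_zero]
  rw [← addOrderOf_eq_prime h1 ha]
  exact addOrderOf_dvd_natCard a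

end Fermat.Agent.S56.GT
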