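import Fermat.Agent.S56.GT.Defs

/-!
# S56 / GT / CocP : cocycles on the upper triangular subgroup, explicit computations

`u t := upperRightHom t = [[1,t],[0,1]]`, `A = Aof G = {t : u t ∈ G}`.  For a cocycle `c` on `G` write
`c (u t) = [[x t, y t],[z t, - x t]]`.  By `tw_apply`,
`tw (u s) [[x,y],[z,-x]] = [[x + s z, y - 2 s x - s² z],[z, -(x + s z)]]`, so
  `z (s+t) = z s + z t`,  `x (s+t) = x s + x t + s z t`,  `y (s+t) = y s + y t - 2 s x t - s² z t`.
For `b = [[a,e],[0,d]]`:  `b * u t * b⁻¹ = u (a/d * t)`, and (`IsCoc.conj`)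
  `c (b u b⁻¹) = tw b (c u) + (c b - tw (b u b⁻¹) (c b))`.
-/

set_option autoImplicit false

namespace Fermat.Agent.S56.GT

open Matrix Matrix.GeneralLinearGroup

variable {k : Type*} [Field k]

lemma upper_diag_ne_zero (b : GL (Fin 2) k) (hb : b 1 0 = 0) : b 0 0 ≠ 0 ∧ b 1 1 ≠ 0 := by
  have h := b.det_ne_zero
  rw [Matrix.det_fin_two] at h
  have hb' : b.val 1 0 = 0 := hb
  rw [hb', mul_zero, sub_zero] at h
  exact ⟨left_ne_zero_of_mul h, right_ne_zero_of_mul h⟩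

/-- conjugation of `u t` by an upper triangular matrix. -/
lemma conj_upper (b : GL (Fin 2) k) (hb : b 1 0 = 0) (t : k) :
    b * upperRightHom t * b⁻¹ = upperRightHom (b 0 0 / b 1 1 * t) := by
  have hd := (upper_diag_ne_zero b hb).2
  rw [mul_inv_eq_iff_eq_mul]
  apply Units.ext
  have hb' : b.val 1 0 = 0 := hb
  ext i j
  fin_cases i <;> fin_cases j <;>
    simp [Matrix.mul_apply, Fin.sum_univ_two, hb']
  field_simp
  ring

lemma chi_mul_mem_Aof {G : Subgroup (GL (Fin 2) k)} {b : GL (Fin 2) k} (hbG : b ∈ G)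
    (hb : b 1 0 = 0) {t : k} (ht : t ∈ Aof G) : b 0 0 / b 1 1 * t ∈ Aof G := by
  rw [mem_Aof, ← conj_upper b hb t]
  exact G.mul_mem (G.mul_mem hbG ht) (G.inv_mem hbG)

/-- `tw (u s)` in coordinates. -/
lemma tw_u (s : k) (X : Matrix (Fin 2) (Fin 2) k) :
    tw (upperRightHom s) X = !![X 0 0 + s * X 1 0, X 0 1 + s * X 1 1 - s * X 0 0 - s ^ 2 * X 1 0;
      X 1 0, X 1 1 - s * X 1 0] := by
  rw [tw_apply]
  ext i j
  fin_cases i <;> fin_cases j <;> simp <;> ring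

/-- `tw b` for upper triangular `b`, lower left entry. -/
lemma tw_upper_10 (b : GL (Fin 2) k) (hb : b 1 0 = 0) (X : Matrix (Fin 2) (Fin 2) k) :
    tw b X 1 0 = (b 1 1) ^ 2 * X 1 0 := by
  rw [tw_apply]
  simp [hb]
  ring

/-- the cocycle relation on `U`, in coordinates. -/
lemma coc_u {G : Subgroup (GL (Fin 2) k)} {c : GL (Fin 2) k → Matrix (Fin 2) (Fin 2) k}
    (hc : IsCoc G c) {s t : k} (hs : s ∈ Aof G) (ht : t ∈ Aof G) :
    c (upperRightHom (s + t)) 0 0 = c (upperRightHom s) 0 0 + c (upperRightHom t) 0 0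
        + s * c (upperRightHom t) 1 0 ∧
    c (upperRightHom (s + t)) 0 1 = c (upperRightHom s) 0 1 + c (upperRightHom t) 0 1
        + s * c (upperRightHom t) 1 1 - s * c (upperRightHom t) 0 0
        - s ^ 2 * c (upperRightHom t) 1 0 ∧
    c (upperRightHom (s + t)) 1 0 = c (upperRightHom s) 1 0 + c (upperRightHom t) 1 0 := by
  have h := hc.2 _ hs _ ht
  rw [← AddChar.map_add_eq_mul, tw_u] at h
  refine ⟨?_, ?_, ?_⟩
  · rw [h]; simp; ring
  · rw [h]; simp; ring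
  · rw [h]; simp

lemma coc_u_zero {G : Subgroup (GL (Fin 2) k)} {c : GL (Fin 2) k → Matrix (Fin 2) (Fin 2) k}
    (hc : IsCoc G c) : c (upperRightHom (0 : k)) = 0 := by
  rw [AddChar.map_zero_eq_one]; exact hc.map_one

lemma coc_u_trace {G : Subgroup (GL (Fin 2) k)} {c : GL (Fin 2) k → Matrix (Fin 2) (Fin 2) k}
    (hc : IsCoc G c) {g : GL (Fin 2) k} (hg : g ∈ G) : c g 1 1 = - c g 0 0 := by
  have h := hc.1 g hg
  rw [Matrix.trace_fin_two] at h
  exact eq_neg_of_add_eq_zero_right h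

/-- (P1) `z t = g₀ t`.  PROOF: `x (s+t) = x (t+s)` gives `s z t = t z s`; if `A ≠ 0` take
`g₀ = z t₀ / t₀`; (`c (u 0) = c 1 = 0`). -/
theorem coc_lower_left {G : Subgroup (GL (Fin 2) k)}
    {c : GL (Fin 2) k → Matrix (Fin 2) (Fin 2) k} (hc : IsCoc G c) :
    ∃ g₀ : k, ∀ t ∈ Aof G, c (upperRightHom t) 1 0 = g₀ * t := by
  have hsym : ∀ s ∈ Aof G, ∀ t ∈ Aof G,
      s * c (upperRightHom t) 1 0 = t * c (upperRightHom s) 1 0 := by
    intro s hs t ht
    have h1 := (coc_u hc hs ht).1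
    have h2 := (coc_u hc ht hs).1
    rw [add_comm t s, h1] at h2
    linear_combination h2
  by_cases hA : ∃ t₀ ∈ Aof G, t₀ ≠ 0
  · obtain ⟨t₀, ht₀, hne⟩ := hA
    refine ⟨c (upperRightHom t₀) 1 0 / t₀, fun t ht => ?_⟩
    have := hsym t₀ ht₀ t ht
    field_simp
    linear_combination this
  · push Not at hA
    refine ⟨0, fun t ht => ?_⟩
    rw [hA t ht, coc_u_zero hc]; simp

/-- (P2) if `z ≠ 0` then `a = d³` for every upper triangular `b = [[a,*],[0,d]] ∈ G`.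
PROOF: the `(1,0)` entry of `IsCoc.conj` reads `z (a/d * t) = d² z t` (`tw b X 1 0 = d² X 1 0` for
`b 1 0 = 0`; `tw (u s) Y 1 0 = Y 1 0`).  With `z t = g₀ t` (P1), `g₀ ≠ 0`, `t₀ ≠ 0`: `a/d = d²`. -/
theorem cube_of_lower_left_ne_zero {G : Subgroup (GL (Fin 2) k)}
    {c : GL (Fin 2) k → Matrix (Fin 2) (Fin 2) k} (hc : IsCoc G c)
    {t₀ : k} (ht₀ : t₀ ∈ Aof G) (h : c (upperRightHom t₀) 1 0 ≠ 0) :
    ∀ b ∈ G, b 1 0 = 0 → b 0 0 = (b 1 1) ^ 3 := by
  intro b hbG hb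
  obtain ⟨g₀, hg₀⟩ := coc_lower_left hc
  have hd := (upper_diag_ne_zero b hb).2
  have h1 := hc.conj hbG ht₀
  rw [conj_upper b hb] at h1
  have h2 := congrFun (congrFun h1 1) 0
  rw [Matrix.add_apply, Matrix.sub_apply, tw_upper_10 b hb, tw_u] at h2
  simp only [Matrix.of_apply, Matrix.cons_val_zero, Matrix.cons_val_one, Matrix.cons_val',
    Matrix.cons_val_fin_one, sub_self, add_zero] at h2
  rw [hg₀ _ (chi_mul_mem_Aof hbG hb ht₀), hg₀ _ ht₀] at h2
  rw [hg₀ _ ht₀] at h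
  have hg : g₀ ≠ 0 := left_ne_zero_of_mul h
  have ht : t₀ ≠ 0 := right_ne_zero_of_mul h
  have h3 : b 0 0 / b 1 1 = (b 1 1) ^ 2 := by
    have : g₀ * t₀ * (b 0 0 / b 1 1) = g₀ * t₀ * (b 1 1) ^ 2 := by linear_combination h2
    exact mul_left_cancel₀ h this
  rw [div_eq_iff hd] at h3
  rw [h3]; ring

/-- (P3) in characteristic `3`, `z = 0`.  PROOF: from the three relations,
`y (2t) = 2 y t - 2 t x t - t² z t`, `y (3t) = 3 y t - 6 t x t - 5 t² z t = t² z t` in char. 3, and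
`u (3t) = u 0 = 1`, `c 1 = 0`.  So `t² z t = 0`. -/
theorem lower_left_zero_of_char_three [CharP k 3] {G : Subgroup (GL (Fin 2) k)}
    {c : GL (Fin 2) k → Matrix (Fin 2) (Fin 2) k} (hc : IsCoc G c) :
    ∀ t ∈ Aof G, c (upperRightHom t) 1 0 = 0 := by
  intro t ht
  have h3 : (3 : k) = 0 := by
    have := CharP.cast_eq_zero k 3
    exact_mod_cast this
  by_cases ht0 : t = 0
  · rw [ht0, coc_u_zero hc]; simp
  have h2t : t + t ∈ Aof G := (Aof G).add_mem ht ht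
  have e1 := (coc_u hc ht ht).2.1
  have e2 := (coc_u hc h2t ht).2.1
  have e3 : (t + t + t) = 0 := by linear_combination t * h3
  rw [e3, coc_u_zero hc, e1, coc_u_trace hc ht] at e2
  simp only [Matrix.zero_apply] at e2
  have key : t ^ 2 * c (upperRightHom t) 1 0 = 0 := by
    linear_combination (-1 : k) * e2 + (2 * t ^ 2 * c (upperRightHom t) 1 0
      - c (upperRightHom t) 0 1 + 2 * t * c (upperRightHom t) 0 0) * h3
  exact (mul_eq_zero.mp key).resolve_left (pow_ne_zero 2 ht0)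

end Fermat.Agent.S56.GT
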