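import Fermat.Agent.S56.GT.CocP

/-!
# S56 / GT / CocQ (continuation of CocP) : cocycles on the upper triangular subgroup, explicit computations

`u t := upperRightHom t = [[1,t],[0,1]]`, `A = Aof G = {t : u t ∈ G}`.  For a cocycle `c` on `G` write
`c (u t) = [[x t, y t],[z t, - x t]]`.  By `tw_apply`,
`tw (u s) [[x,y],[z,-x]] = [[x + s z, y - 2 s x - s² z],[z, -(x + s z)]]`, so
  `z (s+t) = z s + z t`,  `x (s+t) = x s + x t + s z t`,  `y (s+t) = y s + y t - 2 s x t - s² z t`.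
For `b = [[a,e],[0,d]]`:  `b * u t * b⁻¹ = u (a/d * t)`, and (`IsCoc.conj`)
  `c (b u b⁻¹) = tw b (c u) + (c b - tw (b u b⁻¹) (c b))`.
-/

set_option autoImplicit false

namespace Fermat.Agent.S56.GT

open Matrix Matrix.GeneralLinearGroup

variable {k : Type*} [Field k]

/-- (P4) if `z = 0` on `A`, then after subtracting a coboundary `x = 0` on `A` too.
PROOF: now `x` is additive and `y (s+t) = y (t+s)` gives `2 s x t = 2 t x s`, so `x t = β t`.
Take `m = [[0,0],[β,0]]`: `tw (u t) m - m = [[t β, - t² β],[0, - t β]]`. -/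
theorem exists_cob_normalize (h2 : (2 : k) ≠ 0) {G : Subgroup (GL (Fin 2) k)}
    {c : GL (Fin 2) k → Matrix (Fin 2) (Fin 2) k} (hc : IsCoc G c)
    (hz : ∀ t ∈ Aof G, c (upperRightHom t) 1 0 = 0) :
    ∃ m : Matrix (Fin 2) (Fin 2) k, m.trace = 0 ∧ ∀ t ∈ Aof G,
      (c (upperRightHom t) - (tw (upperRightHom t) m - m)) 0 0 = 0 ∧
      (c (upperRightHom t) - (tw (upperRightHom t) m - m)) 1 0 = 0 ∧
      (c (upperRightHom t) - (tw (upperRightHom t) m - m)) 1 1 = 0 := by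
  have hsym : ∀ s ∈ Aof G, ∀ t ∈ Aof G,
      s * c (upperRightHom t) 0 0 = t * c (upperRightHom s) 0 0 := by
    intro s hs t ht
    have h1 := (coc_u hc hs ht).2.1
    have h2' := (coc_u hc ht hs).2.1
    rw [add_comm t s, h1, coc_u_trace hc ht, coc_u_trace hc hs, hz t ht, hz s hs] at h2'
    have : 2 * (s * c (upperRightHom t) 0 0) = 2 * (t * c (upperRightHom s) 0 0) := by
      linear_combination (-1 : k) * h2'
    exact mul_left_cancel₀ h2 this
  obtain ⟨β, hβ⟩ : ∃ β : k, ∀ t ∈ Aof G, c (upperRightHom t) 0 0 = β * t := by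
    by_cases hA : ∃ t₀ ∈ Aof G, t₀ ≠ 0
    · obtain ⟨t₀, ht₀, hne⟩ := hA
      refine ⟨c (upperRightHom t₀) 0 0 / t₀, fun t ht => ?_⟩
      have := hsym t₀ ht₀ t ht
      field_simp
      linear_combination this
    · push Not at hA
      refine ⟨0, fun t ht => ?_⟩
      rw [hA t ht, coc_u_zero hc]; simp
  refine ⟨!![0, 0; β, 0], by simp [Matrix.trace_fin_two], fun t ht => ?_⟩
  rw [tw_u]
  have a1 := hβ t ht
  have a2 := hz t ht
  have a3 := coc_u_trace hc ht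
  generalize c (upperRightHom t) = Y at a1 a2 a3 ⊢
  refine ⟨?_, ?_, ?_⟩
  · simp [a1]; ring
  · simp [a2]
  · simp [a3, a1]; ring

/-- (P5) a normalised cocycle (`c (u t) = y t • E₁₂` on `A`): `y` is additive and semilinear:
`y (a/d * t) = a² y t + μ t`.
PROOF: additivity from the cocycle relation.  Let `Y = c b`, `s = a/d * t`.  Entry `(0,0)` of
`IsCoc.conj`: `0 = 0 + (Y 0 0 - (Y 0 0 + s Y 1 0))`, so `s * Y 1 0 = 0`.  Entry `(0,1)`:
`y s = a² y t + (2 s Y 0 0 + s² Y 1 0) = a² y t + 2 (a/d) (Y 0 0) t` (`Y 1 1 = - Y 0 0`).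
So `μ = 2 * (a/d) * Y 0 0`. -/
theorem semilinear_of_normalized {G : Subgroup (GL (Fin 2) k)}
    {c : GL (Fin 2) k → Matrix (Fin 2) (Fin 2) k} (hc : IsCoc G c)
    (hn : ∀ t ∈ Aof G, c (upperRightHom t) 0 0 = 0 ∧ c (upperRightHom t) 1 0 = 0 ∧
      c (upperRightHom t) 1 1 = 0) :
    (∀ s ∈ Aof G, ∀ t ∈ Aof G, c (upperRightHom (s + t)) 0 1 =
      c (upperRightHom s) 0 1 + c (upperRightHom t) 0 1) ∧
    ∀ b ∈ G, b 1 0 = 0 → ∃ μ : k, ∀ t ∈ Aof G,
      c (upperRightHom (b 0 0 / b 1 1 * t)) 0 1 = (b 0 0) ^ 2 * c (upperRightHom t) 0 1 + μ * t := by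
  refine ⟨fun s hs t ht => ?_, fun b hbG hb => ?_⟩
  · have h1 := (coc_u hc hs ht).2.1
    rw [(hn t ht).1, (hn t ht).2.1, (hn t ht).2.2] at h1
    rw [h1]; ring
  · refine ⟨2 * (b 0 0 / b 1 1) * c b 0 0, fun t ht => ?_⟩
    have h1 := hc.conj hbG ht
    rw [conj_upper b hb] at h1
    have e00 := congrFun (congrFun h1 0) 0
    have e01 := congrFun (congrFun h1 0) 1
    rw [Matrix.add_apply, Matrix.sub_apply, tw_u, tw_apply] at e00 e01
    rw [(hn _ (chi_mul_mem_Aof hbG hb ht)).1] at e00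
    simp only [Matrix.of_apply, Matrix.cons_val_zero, Matrix.cons_val_one, Matrix.cons_val',
      Matrix.cons_val_fin_one, (hn t ht).1, (hn t ht).2.1, (hn t ht).2.2, hb, mul_zero, add_zero,
      zero_mul, sub_zero] at e00 e01
    rw [e01, coc_u_trace hc hbG]
    linear_combination (b 0 0 / b 1 1 * t) * e00

/-- (P6) if moreover `y t = κ t` then `c` restricted to `U` is the coboundary of
`m = [[-κ/2,0],[0,κ/2]]` (`tw (u t) m - m = [[0, κ t],[0,0]]`). -/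
theorem exists_cob_of_linear (h2 : (2 : k) ≠ 0) {G : Subgroup (GL (Fin 2) k)}
    {c : GL (Fin 2) k → Matrix (Fin 2) (Fin 2) k}
    (hn : ∀ t ∈ Aof G, c (upperRightHom t) 0 0 = 0 ∧ c (upperRightHom t) 1 0 = 0 ∧
      c (upperRightHom t) 1 1 = 0) (κ : k) (hκ : ∀ t ∈ Aof G, c (upperRightHom t) 0 1 = κ * t) :
    ∃ m : Matrix (Fin 2) (Fin 2) k, m.trace = 0 ∧ ∀ g ∈ Uof G, c g - (tw g m - m) = 0 := by
  refine ⟨!![-κ / 2, 0; 0, κ / 2], by simp [Matrix.trace_fin_two]; ring, ?_⟩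
  rintro g ⟨hg, t, rfl⟩
  have ht : t ∈ Aof G := hg
  rw [tw_u]
  obtain ⟨a1, a2, a3⟩ := hn t ht
  have a4 := hκ t ht
  generalize c (upperRightHom t) = Y at a1 a2 a3 a4 ⊢
  ext i j
  fin_cases i <;> fin_cases j
  · simp [a1]
  · simp [a4]; field_simp; ring
  · simp [a2]
  · simp [a3]

end Fermat.Agent.S56.GT
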