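import Fermat.Agent.S56.GT.FixA

/-!
# S56 / GT / Conj : transport of cocycles and hypotheses under conjugation
-/

set_option autoImplicit false

namespace Fermat.Agent.S56.GT

open Matrix Matrix.GeneralLinearGroup OnePoint

variable {k : Type*} [Field k]

/-- transport of a cocycle to the conjugate subgroup. -/
def cjc (h : GL (Fin 2) k) (c : GL (Fin 2) k → Matrix (Fin 2) (Fin 2) k) :
    GL (Fin 2) k → Matrix (Fin 2) (Fin 2) k :=
  fun g => tw h (c (h⁻¹ * g * h))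

lemma IsCoc.cj {G : Subgroup (GL (Fin 2) k)} {c : GL (Fin 2) k → Matrix (Fin 2) (Fin 2) k}
    (hc : IsCoc G c) (h : GL (Fin 2) k) : IsCoc (cj h G) (cjc h c) := by
  refine ⟨fun g hg => trace_tw_eq_zero h (hc.1 _ (mem_cj.mp hg)), fun g hg g' hg' => ?_⟩
  have h1 := hc.2 _ (mem_cj.mp hg) _ (mem_cj.mp hg')
  have h2 : h⁻¹ * (g * g') * h = h⁻¹ * g * h * (h⁻¹ * g' * h) := by group
  simp only [cjc]
  rw [h2, h1, tw_add, ← tw_mul, ← tw_mul]
  congr 2
  group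

/-- (`m = tw h⁻¹ m'`.) -/
lemma IsCob.of_cj {G : Subgroup (GL (Fin 2) k)} {c : GL (Fin 2) k → Matrix (Fin 2) (Fin 2) k}
    {h : GL (Fin 2) k} (hc : IsCob (cj h G) (cjc h c)) : IsCob G c := by
  obtain ⟨m, hm, hm'⟩ := hc
  refine ⟨tw h⁻¹ m, trace_tw_eq_zero _ hm, fun g hg => ?_⟩
  have hg' : h * g * h⁻¹ ∈ cj h G := by
    rw [mem_cj]
    have : h⁻¹ * (h * g * h⁻¹) * h = g := by group
    rw [this]; exact hg
  have h1 := hm' _ hg'
  simp only [cjc] at h1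
  have h2 : h⁻¹ * (h * g * h⁻¹) * h = g := by group
  rw [h2] at h1
  have h3 : c g = tw h⁻¹ (tw h (c g)) := by rw [← tw_mul, inv_mul_cancel, tw_one]
  rw [h3, h1, tw_sub, ← tw_mul, ← tw_mul]
  congr 2
  group

lemma G1of_cj (h : GL (Fin 2) k) (G : Subgroup (GL (Fin 2) k)) :
    G1of (cj h G) = cj h (G1of G) := by
  ext g
  rw [mem_G1of, mem_cj, mem_cj, mem_G1of]
  have hd : (h⁻¹ * g * h).val.det = g.val.det := by
    have h1 : (h⁻¹).val.det * h.val.det = 1 := by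
      rw [← Matrix.det_mul, ← Units.val_mul, inv_mul_cancel]; simp
    simp only [Units.val_mul, Matrix.det_mul]
    calc (h⁻¹).val.det * g.val.det * h.val.det = ((h⁻¹).val.det * h.val.det) * g.val.det := by ring
      _ = g.val.det := by rw [h1, one_mul]
  rw [hd]

lemma exists_fixed_cj [DecidableEq k] {G : Subgroup (GL (Fin 2) k)} (h : GL (Fin 2) k)
    (hG : ∀ g ∈ G, ∃ x : OnePoint k, g • x = x) : ∀ g ∈ cj h G, ∃ x : OnePoint k, g • x = x := by
  intro g hg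
  obtain ⟨x, hx⟩ := hG _ (mem_cj.mp hg)
  refine ⟨h • x, ?_⟩
  rw [mul_smul, mul_smul, inv_smul_eq_iff] at hx
  exact hx

lemma no_fixed_cj [DecidableEq k] {G : Subgroup (GL (Fin 2) k)} (h : GL (Fin 2) k)
    (hG : ∀ x : OnePoint k, ∃ g ∈ G, g • x ≠ x) : ∀ x : OnePoint k, ∃ g ∈ cj h G, g • x ≠ x := by
  intro x
  obtain ⟨g, hg, hgx⟩ := hG (h⁻¹ • x)
  refine ⟨h * g * h⁻¹, ?_, fun hx => hgx ?_⟩
  · rw [mem_cj]
    have : h⁻¹ * (h * g * h⁻¹) * h = g := by group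
    rw [this]; exact hg
  · rw [mul_smul, mul_smul, ← eq_inv_smul_iff] at hx
    exact hx

lemma exists_det_cj {G : Subgroup (GL (Fin 2) k)} (h : GL (Fin 2) k)
    (hG : ∃ g ∈ G, g.val.det ^ 2 ≠ 1) : ∃ g ∈ cj h G, g.val.det ^ 2 ≠ 1 := by
  obtain ⟨g, hg, hgd⟩ := hG
  refine ⟨h * g * h⁻¹, ?_, ?_⟩
  · rw [mem_cj]
    have : h⁻¹ * (h * g * h⁻¹) * h = g := by group
    rw [this]; exact hg
  · have hd : (h * g * h⁻¹).val.det = g.val.det := by
      have h1 : h.val.det * (h⁻¹).val.det = 1 := by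
        rw [← Matrix.det_mul, ← Units.val_mul, mul_inv_cancel]; simp
      simp only [Units.val_mul, Matrix.det_mul]
      calc h.val.det * g.val.det * (h⁻¹).val.det = (h.val.det * (h⁻¹).val.det) * g.val.det := by
            ring
        _ = g.val.det := by rw [h1, one_mul]
    rw [hd]; exact hgd

end Fermat.Agent.S56.GT
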