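import Fermat.Agent.S56.GT.CountB

/-!
# S56 / GT / CountC : the second exceptional orbit
-/

set_option autoImplicit false

namespace Fermat.Agent.S56.GT

open MulAction

variable {H X : Type*} [Group H] [MulAction H X]

/-- an orbit with stabiliser strictly bigger than `Z` has `2 z |orbit| ≤ h`. -/
private theorem two_mul_card_orbit_le [Finite H] (Z : Subgroup H)
    (h1 : ∀ g ∈ Z, ∀ x : X, g • x = x) (x : X)
    (hx : Nat.card (stabilizer H x) - Nat.card Z ≠ 0) :
    2 * (Nat.card Z * Nat.card (orbit H x)) ≤ Nat.card H := by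
  have hle : Z ≤ stabilizer H x := fun g hg => h1 g hg x
  obtain ⟨c, hc⟩ := Subgroup.card_dvd_of_le hle
  have hz : 0 < Nat.card Z := Nat.card_pos
  have hos : Nat.card (orbit H x) * Nat.card (stabilizer H x) = Nat.card H := by
    rw [Nat.card_congr (MulAction.orbitEquivQuotientStabilizer H x)]
    exact (Subgroup.card_eq_card_quotient_mul_card_subgroup _).symm
  have hc2 : 2 ≤ c := by
    by_contra hlt
    have hc1 : c ≤ 1 := by omega
    apply hx
    rw [hc]
    have : Nat.card Z * c ≤ Nat.card Z * 1 := Nat.mul_le_mul_left _ hc1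
    omega
  rw [← hos, hc]
  calc 2 * (Nat.card Z * Nat.card (orbit H x))
      = Nat.card (orbit H x) * (Nat.card Z * 2) := by ring
    _ ≤ Nat.card (orbit H x) * (Nat.card Z * c) :=
        Nat.mul_le_mul_left _ (Nat.mul_le_mul_left _ hc2)

/-- (C4) **existence of a second exceptional orbit of known size.**
Suppose `∑_x (|Stab x| - z) = (h - z N) + (h - z M)` with `h = |H|`, `z = |Z|`, `N = |orbit x₀|`
and `0 < M`, `z * M < h`.  Then there is an orbit of size exactly `M`.

PROOF.  By `sum_orbit` the points outside `orbit x₀` contribute `S := h - z M`, `0 < S < h`.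
As `S > 0` there is `x₁ ∉ orbit x₀` with `|Stab x₁| > z`.  As `Z ≤ Stab x₁`, `z ∣ |Stab x₁|`, so
`|Stab x₁| ≥ 2 z`, `2 z |orbit x₁| ≤ h`, and `orbit x₁` contributes `h - z |orbit x₁| ≥ h/2`.
If some `x₂` outside `orbit x₀ ∪ orbit x₁` had `|Stab x₂| > z`, its orbit would contribute `≥ h/2`
too and `S ≥ h`: contradiction.  So `S = h - z |orbit x₁|`, `|orbit x₁| = M`. -/
theorem exists_orbit_card [Finite H] [Fintype X] (Z : Subgroup H)
    (h1 : ∀ g ∈ Z, ∀ x : X, g • x = x) (x₀ : X) (M : ℕ) (hM : 0 < M)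
    (hM' : Nat.card Z * M < Nat.card H)
    (hsum : (∑ x : X, (Nat.card (stabilizer H x) - Nat.card Z))
      + Nat.card Z * Nat.card (orbit H x₀) + Nat.card Z * M = 2 * Nat.card H) :
    ∃ x₁ : X, Nat.card (orbit H x₁) = M := by
  classical
  set f : X → ℕ := fun x => Nat.card (stabilizer H x) - Nat.card Z with hf
  have hz : 0 < Nat.card Z := Nat.card_pos
  -- orbits are disjoint
  have hdisj : ∀ {x y w : X}, w ∈ orbit H x → w ∈ orbit H y → x ∈ orbit H y := by
    intro x y w hwx hwy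
    have e1 : orbit H w = orbit H x := orbit_eq_iff.2 hwx
    have e2 : orbit H w = orbit H y := orbit_eq_iff.2 hwy
    exact orbit_eq_iff.1 (e1.symm.trans e2)
  have s0 := sum_orbit Z h1 x₀
  have split0 := Finset.sum_filter_add_sum_filter_not (Finset.univ : Finset X)
    (fun y : X => y ∈ orbit H x₀) f
  set R₀ : Finset X := Finset.univ.filter (fun y : X => ¬ y ∈ orbit H x₀) with hR₀
  have e0 : (∑ y ∈ R₀, f y) + Nat.card Z * M = Nat.card H := by
    have s0' : (∑ y ∈ Finset.univ.filter (fun y : X => y ∈ orbit H x₀), f y)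
      + Nat.card Z * Nat.card (orbit H x₀) = Nat.card H := s0
    have hsum' : (∑ x : X, f x) + Nat.card Z * Nat.card (orbit H x₀) + Nat.card Z * M
      = 2 * Nat.card H := hsum
    omega
  have hne0 : (∑ y ∈ R₀, f y) ≠ 0 := by omega
  obtain ⟨x₁, hx₁R, hx₁⟩ := Finset.exists_ne_zero_of_sum_ne_zero hne0
  have hx₁0 : x₁ ∉ orbit H x₀ := by simpa [hR₀] using hx₁R
  refine ⟨x₁, ?_⟩
  have s1 : (∑ y ∈ Finset.univ.filter (fun y : X => y ∈ orbit H x₁), f y)
      + Nat.card Z * Nat.card (orbit H x₁) = Nat.card H := sum_orbit Z h1 x₁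
  have split1 := Finset.sum_filter_add_sum_filter_not R₀ (fun y : X => y ∈ orbit H x₁) f
  have hO1 : R₀.filter (fun y : X => y ∈ orbit H x₁)
      = Finset.univ.filter (fun y : X => y ∈ orbit H x₁) := by
    ext y
    simp only [hR₀, Finset.mem_filter, Finset.mem_univ, true_and]
    exact ⟨fun h => h.2, fun h => ⟨fun h0 => hx₁0 (hdisj h h0), h⟩⟩
  rw [hO1] at split1
  set R₁ : Finset X := R₀.filter (fun y : X => ¬ y ∈ orbit H x₁) with hR₁
  have e1 : (∑ y ∈ R₁, f y) + Nat.card Z * M = Nat.card Z * Nat.card (orbit H x₁) := by omega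
  by_cases hrest : (∑ y ∈ R₁, f y) = 0
  · rw [hrest, zero_add] at e1
    exact (Nat.eq_of_mul_eq_mul_left hz e1).symm
  · exfalso
    obtain ⟨x₂, hx₂R, hx₂⟩ := Finset.exists_ne_zero_of_sum_ne_zero hrest
    have hx₂' : x₂ ∉ orbit H x₀ ∧ x₂ ∉ orbit H x₁ := by
      simpa [hR₁, hR₀] using hx₂R
    have s2 : (∑ y ∈ Finset.univ.filter (fun y : X => y ∈ orbit H x₂), f y)
        + Nat.card Z * Nat.card (orbit H x₂) = Nat.card H := sum_orbit Z h1 x₂
    have hsub : Finset.univ.filter (fun y : X => y ∈ orbit H x₂) ⊆ R₁ := by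
      intro y hy
      have hy' : y ∈ orbit H x₂ := by simpa using hy
      simp only [hR₁, hR₀, Finset.mem_filter, Finset.mem_univ, true_and]
      exact ⟨fun h0 => hx₂'.1 (hdisj hy' h0), fun h0 => hx₂'.2 (hdisj hy' h0)⟩
    have hle : (∑ y ∈ Finset.univ.filter (fun y : X => y ∈ orbit H x₂), f y) ≤ ∑ y ∈ R₁, f y :=
      Finset.sum_le_sum_of_subset hsub
    have b1 := two_mul_card_orbit_le Z h1 x₁ hx₁
    have b2 := two_mul_card_orbit_le Z h1 x₂ hx₂
    have hzM : 0 < Nat.card Z * M := Nat.mul_pos hz hM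
    omega

end Fermat.Agent.S56.GT
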