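import Fermat.Agent.S56.GT.CountA
import Fermat.Agent.S56.GT.CountC

/-!
# S56 / GT / Count : the counting lemma
-/

set_option autoImplicit false

namespace Fermat.Agent.S56.GT

open MulAction

variable {H X : Type*} [Group H] [MulAction H X]

/-- (C5) arithmetic.  `O := 2 + N (q-2)` divides `q τ N`, `N ≥ q + 1`, `q ≥ 3`, `τ > 0`.  Then
`q - 1 ≤ 2 τ`.

PROOF.  `gcd(O,N) ∣ 2` (as `O - N (q-2) = 2`), so `O ∣ 2 q τ`
(`O/g` is coprime to `N/g`, `g = gcd(O,N)`), so `O ≤ 2 q τ`;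
`O ≥ 2 + (q+1)(q-2) = q (q-1)`. -/
theorem arith_bound (q τ N : ℕ) (hq : 3 ≤ q) (hτ : 0 < τ) (hN : q + 1 ≤ N)
    (hdvd : (2 + N * (q - 2)) ∣ q * τ * N) : q - 1 ≤ 2 * τ := by
  obtain ⟨r, rfl⟩ : ∃ r, q = r + 2 := ⟨q - 2, by omega⟩
  simp only [Nat.add_sub_cancel] at hdvd ⊢
  have h1 : (2 + N * r) ∣ (r + 2) * τ * N * r := Dvd.dvd.mul_right hdvd r
  have h2 : (2 + N * r) ∣ (r + 2) * τ * N * r + 2 * ((r + 2) * τ) :=
    ⟨(r + 2) * τ, by ring⟩
  have h3 : (2 + N * r) ∣ 2 * ((r + 2) * τ) := (Nat.dvd_add_right h1).mp h2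
  have h4 : 2 + N * r ≤ 2 * ((r + 2) * τ) := Nat.le_of_dvd (by positivity) h3
  have h5 : (r + 2 + 1) * r ≤ N * r := Nat.mul_le_mul_right r hN
  have h6 : (r + 2) * (r + 1) ≤ (r + 2) * (2 * τ) := by nlinarith
  have h7 := Nat.le_of_mul_le_mul_left h6 (by omega)
  omega

/-- **The counting lemma.**

PROOF.  `z = |Z|`, `h = |H| = N * |Stab x₀| = z q τ N` (orbit-stabiliser).  `h4` with `q ≥ 3` gives
an element `g₀ ∈ Stab x₀`, `g₀ ∉ Z`, `Fix1 g₀` (its fixed point is `x₀`).  By `card_fix1` and `h4`,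
`#{g ∉ Z, Fix1 g} = N z (q-1)`.  Insert in `sum_card_stabilizer`:
`∑_x (|Stab x| - z) = 2 h - 2 z - N z (q-1)`, i.e. `hsum` of `exists_orbit_card` holds with
`M := 2 + N (q-2)`  (`z N + z M = 2 z + N z (q-1)`); `z M < h` because `q τ N ≥ q N > 2 + N(q-2)`
(`N ≥ 2`, `τ ≥ 1`; `τ > 0` since `|Stab x₀| > 0`).  So some orbit has `M` elements;
`M * |Stab x₁| = h = z q τ N` and `z ∣ |Stab x₁|` give `M ∣ q τ N`.  Conclude by `arith_bound`. -/
theorem count_main [Finite H] [Finite X] (p : ℕ) [Fact p.Prime] (Z : Subgroup H) [Z.Normal]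
    (h1 : ∀ g ∈ Z, ∀ x : X, g • x = x) (h2 : ∀ g : H, g ∉ Z → Fix1 X g ∨ Fix2 X g)
    (h3 : ∀ g : H, g ∉ Z → Fix1 X g → ∃ w : H, w ^ p = 1 ∧ ∀ x : X, w • x = x ↔ g • x = x)
    (x₀ : X) (q τ : ℕ) (hq : 3 ≤ q)
    (h4 : Nat.card {g : H // g • x₀ = x₀ ∧ g ∉ Z ∧ Fix1 X g} = Nat.card Z * (q - 1))
    (h5 : Nat.card (stabilizer H x₀) = Nat.card Z * q * τ)
    (h6 : q + 1 ≤ Nat.card (orbit H x₀)) :
    q - 1 ≤ 2 * τ := by
  classical
  have : Fintype X := Fintype.ofFinite X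
  have horb : ∀ x : X, Nat.card (orbit H x) * Nat.card (stabilizer H x) = Nat.card H := by
    intro x
    rw [Nat.card_congr (orbitEquivQuotientStabilizer H x),
      ← Subgroup.card_eq_card_quotient_mul_card_subgroup]
  set z := Nat.card Z with hz
  set N := Nat.card (orbit H x₀) with hN
  have hz0 : 0 < z := Nat.card_pos
  have hτ : 0 < τ := by
    rcases Nat.eq_zero_or_pos τ with rfl | h
    · rw [mul_zero] at h5
      exact absurd h5 (Nat.card_pos).ne'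
    · exact h
  have hh : Nat.card H = N * (z * q * τ) := by rw [← horb x₀, h5]
  -- the element `g₀`
  have hpos : 0 < Nat.card {g : H // g • x₀ = x₀ ∧ g ∉ Z ∧ Fix1 X g} := by
    rw [h4]
    exact Nat.mul_pos hz0 (by omega)
  obtain ⟨⟨g₀, hg₀x, hg₀Z, hg₀F⟩⟩ := (Nat.card_pos_iff.mp hpos).1
  have hg₀' : ∀ w : X, g₀ • w = w ↔ w = x₀ := by
    obtain ⟨x, hx⟩ := hg₀F
    have : x₀ = x := (hx x₀).mp hg₀x
    subst this
    exact hx
  have hc1 := card_fix1 p Z h3 x₀ g₀ hg₀Z hg₀'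
  rw [h4] at hc1
  have hsum0 := sum_card_stabilizer Z h1 h2
  rw [hc1] at hsum0
  obtain ⟨r, rfl⟩ : ∃ r, q = r + 2 := ⟨q - 2, by omega⟩
  have hr1 : r + 2 - 1 = r + 1 := by omega
  rw [hr1] at hsum0
  have hN4 : r + 2 + 1 ≤ N := h6
  have hM' : z * (2 + N * r) < Nat.card H := by
    rw [hh]
    have h7 : 2 + N * r < N * ((r + 2) * τ) := by
      have h8 : N * (r + 2) ≤ N * ((r + 2) * τ) :=
        Nat.mul_le_mul_left N (Nat.le_mul_of_pos_right _ hτ)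
      nlinarith
    calc z * (2 + N * r) < z * (N * ((r + 2) * τ)) := Nat.mul_lt_mul_of_pos_left h7 hz0
      _ = N * (z * (r + 2) * τ) := by ring
  obtain ⟨x₁, hx₁⟩ := exists_orbit_card Z h1 x₀ (2 + N * r) (by omega) hM' (by
    rw [← hsum0]
    ring)
  have hZle : Z ≤ stabilizer H x₁ := fun g hg => mem_stabilizer_iff.mpr (h1 g hg x₁)
  obtain ⟨c, hc⟩ := Subgroup.card_dvd_of_le hZle
  have h9 := horb x₁
  rw [hx₁, hc, hh] at h9
  have h10 : (2 + N * r) * c = (r + 2) * τ * N := by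
    apply Nat.eq_of_mul_eq_mul_left hz0
    rw [← hz] at h9
    calc z * ((2 + N * r) * c) = (2 + N * r) * (z * c) := by ring
      _ = N * (z * (r + 2) * τ) := h9
      _ = z * ((r + 2) * τ * N) := by ring
  exact arith_bound (r + 2) τ N hq hτ hN4 ⟨c, by rw [Nat.add_sub_cancel]; exact h10.symm⟩

end Fermat.Agent.S56.GT
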