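import Fermat.Agent.S56.GT.CountDefs

/-!
# S56 / GT / CountA : p-elements with a unique fixed point
-/

set_option autoImplicit false

namespace Fermat.Agent.S56.GT

open MulAction

variable {H X : Type*} [Group H] [MulAction H X]

/-- for `w ^ p = 1` acting on a finite set `Y`: `|Y| ≡ |Fix w| mod p`. -/
private theorem card_modEq_card_fix {Y : Type*} [MulAction H Y] [Finite Y] (p : ℕ) [Fact p.Prime]
    {w : H} (hw : w ^ p = 1) : Nat.card Y ≡ Nat.card {y : Y // w • y = y} [MOD p] := by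
  have hP : IsPGroup p (Subgroup.zpowers w) := by
    rintro ⟨g, hg⟩
    obtain ⟨n, rfl⟩ := Subgroup.mem_zpowers_iff.mp hg
    refine ⟨1, ?_⟩
    ext
    simp only [pow_one, Subgroup.coe_pow, Subgroup.coe_one]
    rw [← zpow_natCast, ← zpow_mul, mul_comm, zpow_mul, zpow_natCast, hw, one_zpow]
  have h := hP.card_modEq_card_fixedPoints Y
  have he : (fixedPoints (Subgroup.zpowers w) Y : Set Y) = {y : Y | w • y = y} := by
    ext y
    rw [mem_fixedPoints, Set.mem_ofPred_eq]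
    constructor
    · intro hy
      exact hy ⟨w, Subgroup.mem_zpowers w⟩
    · rintro hy ⟨g, hg⟩
      have hst : w ∈ stabilizer H y := hy
      have : Subgroup.zpowers w ≤ stabilizer H y := (Subgroup.zpowers_le).mpr hst
      exact this hg
  rw [he] at h
  exact h

/-- (C2) Two elements of order dividing `p` with unique fixed points `x₁`, `x₂`: the fixed points
are in the same orbit.

PROOF.  `Y := orbit H x₂` (a finite `H`-set, `MulAction H (orbit H x₂)`).  For `w` with `w ^ p = 1`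
the group `Subgroup.zpowers w` is a `p`-group, so by `IsPGroup.card_modEq_card_fixedPoints`
`|Y| ≡ |{y ∈ Y : w y = y}| mod p`.  For `w₂` the right side is `1` (`x₂ ∈ Y`), for `w₁` it is `1` if
`x₁ ∈ Y` and `0` otherwise.  As `1 ≢ 0 mod p`, `x₁ ∈ Y`. -/
theorem mem_orbit_of_pow_eq_one [Finite X] (p : ℕ) [Fact p.Prime] {w₁ w₂ : H} {x₁ x₂ : X}
    (h₁ : w₁ ^ p = 1) (h₂ : w₂ ^ p = 1) (f₁ : ∀ w : X, w₁ • w = w ↔ w = x₁)
    (f₂ : ∀ w : X, w₂ • w = w ↔ w = x₂) : x₁ ∈ orbit H x₂ := by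
  by_contra hx
  have e₂ : Nat.card {y : orbit H x₂ // w₂ • y = y} = 1 := by
    have : Nonempty {y : orbit H x₂ // w₂ • y = y} :=
      ⟨⟨⟨x₂, mem_orbit_self x₂⟩, Subtype.ext ((f₂ x₂).2 rfl)⟩⟩
    have : Subsingleton {y : orbit H x₂ // w₂ • y = y} := by
      refine ⟨fun a b => ?_⟩
      have ha : ((a : orbit H x₂) : X) = x₂ := (f₂ _).1 (congrArg Subtype.val a.2)
      have hb : ((b : orbit H x₂) : X) = x₂ := (f₂ _).1 (congrArg Subtype.val b.2)
      exact Subtype.ext (Subtype.ext (ha.trans hb.symm))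
    exact Nat.card_unique
  have e₁ : Nat.card {y : orbit H x₂ // w₁ • y = y} = 0 := by
    have : IsEmpty {y : orbit H x₂ // w₁ • y = y} := by
      refine ⟨fun a => hx ?_⟩
      have ha : ((a : orbit H x₂) : X) = x₁ := (f₁ _).1 (congrArg Subtype.val a.2)
      rw [← ha]
      exact (a : orbit H x₂).2
    exact Nat.card_of_isEmpty
  have m₁ := card_modEq_card_fix (Y := orbit H x₂) p h₁
  have m₂ := card_modEq_card_fix (Y := orbit H x₂) p h₂
  rw [e₁] at m₁
  rw [e₂] at m₂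
  have h10 : 1 ≡ 0 [MOD p] := m₂.symm.trans m₁
  have hp : p ∣ 1 := (Nat.modEq_zero_iff_dvd).1 h10
  exact (Fact.out : p.Prime).one_lt.ne' (Nat.dvd_one.1 hp)

/-- the fixed points of a conjugate. -/
private theorem conj_fix {t a : H} {x : X} (h : ∀ w : X, t • w = w ↔ w = x) (w : X) :
    (a * t * a⁻¹) • w = w ↔ w = a • x := by
  rw [mul_smul, mul_smul, smul_eq_iff_eq_inv_smul, h, inv_smul_eq_iff]

/-- (C3) the number of `g ∉ Z` with exactly one fixed point is `N * P₀`, `N = |orbit x₀|`,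
`P₀ = #{g ∈ Stab x₀ : g ∉ Z, Fix1 g}`.

PROOF.  Map `g ↦` its unique fixed point.  By `h3` and `mem_orbit_of_pow_eq_one` (applied to the
`p`-elements attached to `g` and to `g₀`), the fixed point lies in `orbit H x₀`.  The fibre over
`a • x₀` is in bijection with the fibre over `x₀` by `g ↦ a⁻¹ g a` (`Z` is normal; `Fix1` is
invariant under conjugation). -/
theorem card_fix1 [Finite H] [Finite X] (p : ℕ) [Fact p.Prime] (Z : Subgroup H) [Z.Normal]
    (h3 : ∀ g : H, g ∉ Z → Fix1 X g → ∃ w : H, w ^ p = 1 ∧ ∀ x : X, w • x = x ↔ g • x = x)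
    (x₀ : X) (g₀ : H) (hg₀ : g₀ ∉ Z) (hg₀' : ∀ w : X, g₀ • w = w ↔ w = x₀) :
    Nat.card {g : H // g ∉ Z ∧ Fix1 X g} =
      Nat.card (orbit H x₀) * Nat.card {g : H // g • x₀ = x₀ ∧ g ∉ Z ∧ Fix1 X g} := by
  classical
  -- a section of `a ↦ a • x₀`
  have hsec : ∀ y : orbit H x₀, ∃ a : H, a • x₀ = (y : X) := fun y => mem_orbit_iff.1 y.2
  choose a ha using hsec
  -- the fixed point of an element of the stabiliser
  have hT : ∀ t : {g : H // g • x₀ = x₀ ∧ g ∉ Z ∧ Fix1 X g}, ∀ w : X, (t : H) • w = w ↔ w = x₀ := by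
    rintro ⟨t, h0, -, x, hx⟩ w
    have hxx : x₀ = x := (hx x₀).1 h0
    change t • w = w ↔ w = x₀
    rw [hx w, hxx]
  -- the fixed point lies in the orbit
  have horb : ∀ (g : H) (x : X), g ∉ Z → (∀ w : X, g • w = w ↔ w = x) → x ∈ orbit H x₀ := by
    intro g x hg hx
    obtain ⟨w₁, hw₁, f₁⟩ := h3 g hg ⟨x, hx⟩
    obtain ⟨w₂, hw₂, f₂⟩ := h3 g₀ hg₀ ⟨x₀, hg₀'⟩
    exact mem_orbit_of_pow_eq_one p hw₁ hw₂ (fun w => (f₁ w).trans (hx w))
      (fun w => (f₂ w).trans (hg₀' w))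
  have hZ : ∀ (b t : H), t ∉ Z → b * t * b⁻¹ ∉ Z := by
    intro b t ht hmem
    apply ht
    have := (inferInstance : Z.Normal).conj_mem _ hmem b⁻¹
    simpa [mul_assoc] using this
  let φ : orbit H x₀ × {g : H // g • x₀ = x₀ ∧ g ∉ Z ∧ Fix1 X g} →
      {g : H // g ∉ Z ∧ Fix1 X g} := fun yt =>
    ⟨a yt.1 * (yt.2 : H) * (a yt.1)⁻¹, hZ _ _ yt.2.2.2.1, ⟨a yt.1 • x₀, conj_fix (hT yt.2)⟩⟩
  have hφ : Function.Bijective φ := by
    constructor
    · rintro ⟨y, t⟩ ⟨y', t'⟩ h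
      have h' : a y * (t : H) * (a y)⁻¹ = a y' * (t' : H) * (a y')⁻¹ := congrArg Subtype.val h
      have hy : y = y' := by
        apply Subtype.ext
        rw [← ha y, ← ha y']
        have h1 := (conj_fix (a := a y) (hT t) (a y • x₀)).2 rfl
        rw [h'] at h1
        exact (conj_fix (a := a y') (hT t') (a y • x₀)).1 h1
      subst hy
      have ht : (t : H) = (t' : H) := mul_left_cancel (mul_right_cancel h')
      rw [Subtype.ext ht]
    · rintro ⟨g, hg, x, hx⟩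
      have hxo := horb g x hg hx
      set y : orbit H x₀ := ⟨x, hxo⟩ with hy
      have hay : a y • x₀ = x := ha y
      have hfix : ∀ w : X, ((a y)⁻¹ * g * ((a y)⁻¹)⁻¹) • w = w ↔ w = x₀ := by
        intro w
        rw [conj_fix (a := (a y)⁻¹) hx w, ← hay, inv_smul_smul]
      refine ⟨⟨y, ⟨(a y)⁻¹ * g * ((a y)⁻¹)⁻¹, (hfix x₀).2 rfl, hZ _ _ hg, ⟨x₀, hfix⟩⟩⟩, ?_⟩
      apply Subtype.ext
      change a y * ((a y)⁻¹ * g * ((a y)⁻¹)⁻¹) * (a y)⁻¹ = g
      group
  rw [← Nat.card_prod]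
  exact (Nat.card_congr (Equiv.ofBijective φ hφ)).symm

end Fermat.Agent.S56.GT
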