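import Fermat.Agent.S56.GT.CountDefs

/-!
# S56 / GT / CountB : double counting
-/

set_option autoImplicit false

namespace Fermat.Agent.S56.GT

open MulAction

variable {H X : Type*} [Group H] [MulAction H X]

/-- (C1) double counting: `∑_x (|Stab x| - |Z|) = 2 (|H| - |Z|) - #{g ∉ Z : Fix1 g}`, written
additively.

PROOF.  Count the pairs `(g,x)`, `g ∉ Z`, `g x = x` in two ways.  For fixed `x` there are
`|Stab x| - |Z|` of them (`Z ≤ Stab x` by `h1`), for fixed `g ∉ Z` there are `1` or `2` (`h2`). -/
theorem sum_card_stabilizer [Finite H] [Fintype X] (Z : Subgroup H)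
    (h1 : ∀ g ∈ Z, ∀ x : X, g • x = x) (h2 : ∀ g : H, g ∉ Z → Fix1 X g ∨ Fix2 X g) :
    (∑ x : X, (Nat.card (stabilizer H x) - Nat.card Z)) + Nat.card {g : H // g ∉ Z ∧ Fix1 X g}
      + 2 * Nat.card Z = 2 * Nat.card H := by
  classical
  haveI := Fintype.ofFinite H
  set nZ : Finset H := Finset.univ.filter (fun g : H => g ∉ Z) with hnZ
  have hcardZ : Nat.card Z = (Finset.univ.filter (fun g : H => g ∈ Z)).card := by
    rw [Nat.card_eq_fintype_card, Fintype.card_subtype]
  -- Step A
  have hA : ∀ x : X, Nat.card (stabilizer H x) - Nat.card Z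
      = (nZ.filter (fun g => g • x = x)).card := by
    intro x
    have h3 : Nat.card (stabilizer H x) = (Finset.univ.filter (fun g : H => g • x = x)).card := by
      rw [Nat.card_eq_fintype_card, Fintype.card_subtype]
      rfl
    have h4 := Finset.card_filter_add_card_filter_not
      (s := Finset.univ.filter (fun g : H => g • x = x)) (fun g : H => g ∈ Z)
    have h5 : (Finset.univ.filter (fun g : H => g • x = x)).filter (fun g : H => g ∈ Z)
        = Finset.univ.filter (fun g : H => g ∈ Z) := by
      ext g
      simp only [Finset.mem_filter, Finset.mem_univ, true_and]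
      exact ⟨fun h => h.2, fun h => ⟨h1 g h x, h⟩⟩
    have h6 : (Finset.univ.filter (fun g : H => g • x = x)).filter (fun g : H => ¬ g ∈ Z)
        = nZ.filter (fun g => g • x = x) := by
      ext g
      simp only [hnZ, Finset.mem_filter, Finset.mem_univ, true_and]
      exact and_comm
    rw [h5, h6] at h4
    rw [h3, hcardZ, ← h4]
    omega
  -- Step B
  have hB : ∑ x : X, (nZ.filter (fun g => g • x = x)).card
      = ∑ g ∈ nZ, (Finset.univ.filter (fun x : X => g • x = x)).card :=
    Finset.sum_card_bipartiteAbove_eq_sum_card_bipartiteBelow (s := (Finset.univ : Finset X))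
      (t := nZ) (fun (x : X) (g : H) => g • x = x)
  -- Step C
  have hC : ∀ g ∈ nZ, (Finset.univ.filter (fun x : X => g • x = x)).card
      + (if Fix1 X g then 1 else 0) = 2 := by
    intro g hg
    have hgZ : g ∉ Z := by simpa [hnZ] using hg
    by_cases hf : Fix1 X g
    · rw [if_pos hf]
      obtain ⟨x, hx⟩ := hf
      have : Finset.univ.filter (fun w : X => g • w = w) = {x} := by
        ext w; simp [hx w]
      rw [this, Finset.card_singleton]
    · rw [if_neg hf]
      obtain ⟨x, y, hxy, hw⟩ := (h2 g hgZ).resolve_left hf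
      have : Finset.univ.filter (fun w : X => g • w = w) = {x, y} := by
        ext w; simp [hw w]
      rw [this, Finset.card_pair hxy]
  -- Step D
  have hD : Nat.card {g : H // g ∉ Z ∧ Fix1 X g} = ∑ g ∈ nZ, (if Fix1 X g then 1 else 0) := by
    rw [Nat.card_eq_fintype_card, Fintype.card_subtype, ← Finset.card_filter, hnZ,
      Finset.filter_filter]
  -- Step E
  have hE : nZ.card + Nat.card Z = Nat.card H := by
    rw [hcardZ, Nat.card_eq_fintype_card, hnZ, add_comm]
    exact Finset.card_filter_add_card_filter_not (s := (Finset.univ : Finset H)) (fun g : H => g ∈ Z)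
  rw [Finset.sum_congr rfl (fun x _ => hA x), hB, hD, ← Finset.sum_add_distrib,
    Finset.sum_congr rfl hC, Finset.sum_const, smul_eq_mul, ← hE]
  ring

open Classical in
/-- (C4a) the contribution of one orbit: `∑_{y ∈ orbit x} (|Stab y| - |Z|) = |H| - |Z| |orbit x|`.

PROOF. `|Stab y| = |Stab x|` for `y` in the orbit (conjugate subgroups:
`MulAction.stabilizer_smul_eq_stabilizer_map_conj`), `|orbit x| * |Stab x| = |H|`
(`MulAction.card_orbit_mul_card_stabilizer_eq_card_group`, or the `Nat.card` version via
`MulAction.orbitEquivQuotientStabilizer` and `Subgroup.card_eq_card_quotient_mul_card_subgroup`). -/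
theorem sum_orbit [Finite H] [Fintype X] (Z : Subgroup H)
    (h1 : ∀ g ∈ Z, ∀ x : X, g • x = x) (x : X) :
    (∑ y ∈ Finset.univ.filter (fun y : X => y ∈ orbit H x),
        (Nat.card (stabilizer H y) - Nat.card Z)) + Nat.card Z * Nat.card (orbit H x)
      = Nat.card H := by
  have hle : Nat.card Z ≤ Nat.card (stabilizer H x) :=
    Subgroup.card_le_of_le (fun g hg => h1 g hg x)
  have hst : ∀ y ∈ Finset.univ.filter (fun y : X => y ∈ orbit H x),
      Nat.card (stabilizer H y) - Nat.card Z = Nat.card (stabilizer H x) - Nat.card Z := by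
    intro y hy
    have hy' : y ∈ orbit H x := by simpa using hy
    rw [Nat.card_congr (MulAction.stabilizerEquivStabilizerOfOrbitRel
      (show orbitRel H X y x from hy')).toEquiv]
  have hcard : (Finset.univ.filter (fun y : X => y ∈ orbit H x)).card = Nat.card (orbit H x) := by
    rw [Nat.card_eq_fintype_card, Fintype.card_subtype]
  have hos : Nat.card (orbit H x) * Nat.card (stabilizer H x) = Nat.card H := by
    rw [Nat.card_congr (MulAction.orbitEquivQuotientStabilizer H x)]
    exact (Subgroup.card_eq_card_quotient_mul_card_subgroup _).symm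
  rw [Finset.sum_congr rfl hst, Finset.sum_const, smul_eq_mul, hcard, ← hos, mul_comm (Nat.card Z),
    ← mul_add, Nat.sub_add_cancel hle]

end Fermat.Agent.S56.GT
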