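import Mathlib

/-!
# S56 / GT / CountDefs : the orbit counting lemma (abstract finite group actions)

This replaces Dickson's classification.  `H` a finite group acting on a finite set `X`
(think: `H ⊂ GL₂(k)`, `X = ℙ¹(k)`), `Z` a subgroup acting trivially (the scalars), every
`g ∉ Z` has exactly one or exactly two fixed points.
-/

set_option autoImplicit false

namespace Fermat.Agent.S56.GT

open MulAction

variable {H X : Type*} [Group H] [MulAction H X]

/-- `g` has exactly one fixed point. -/
def Fix1 (X : Type*) [MulAction H X] (g : H) : Prop := ∃ x : X, ∀ w : X, g • w = w ↔ w = x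

/-- `g` has exactly two fixed points. -/
def Fix2 (X : Type*) [MulAction H X] (g : H) : Prop :=
  ∃ x y : X, x ≠ y ∧ ∀ w : X, g • w = w ↔ (w = x ∨ w = y)

end Fermat.Agent.S56.GT
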