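import Fermat.Agent.S56.GT.Defs
import Fermat.Agent.S56.GT.CountDefs

/-!
# S56 / GT / FixA : fixed points of elements of `GL₂(k)` on `ℙ¹(k) = OnePoint k`

Mathlib: `OnePoint.instGLAction`, `OnePoint.smul_infty_eq_ite`, `OnePoint.smul_some_eq_ite`,
`OnePoint.smul_infty_eq_self_iff`, `Matrix.GeneralLinearGroup.IsParabolic`,
`IsParabolic.smul_eq_self_iff`, `parabolicFixedPoint`, `upperRightHom`
(files `Mathlib/Topology/Compactification/OnePoint/ProjectiveLine.lean`,
`Mathlib/LinearAlgebra/Matrix/GeneralLinearGroup/FinTwo.lean`).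
-/

set_option autoImplicit false
set_option linter.unusedSectionVars false

namespace Fermat.Agent.S56.GT

open Matrix Matrix.GeneralLinearGroup OnePoint Polynomial

variable {k : Type*} [Field k] [DecidableEq k]

/-- a vector spanning the line `x ∈ ℙ¹(k)`. -/
def vec : OnePoint k → (Fin 2 → k)
  | ∞ => ![1, 0]
  | (t : k) => ![t, 1]

lemma vec_infty : vec (∞ : OnePoint k) = ![1, 0] := rfl

lemma vec_coe (t : k) : vec (t : OnePoint k) = ![t, 1] := rfl

lemma vec_ne_zero (x : OnePoint k) : vec x ≠ 0 := by
  cases x with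
  | infty =>
    intro h
    have := congrFun h 0
    simp [vec_infty] at this
  | coe t =>
    intro h
    have := congrFun h 1
    simp [vec_coe] at this

/-- every non-zero vector is proportional to some `vec x`. -/
lemma exists_vec (v : Fin 2 → k) (hv : v ≠ 0) : ∃ (x : OnePoint k) (a : k), a ≠ 0 ∧ v = a • vec x := by
  by_cases h1 : v 1 = 0
  · have h0 : v 0 ≠ 0 := by
      intro h0
      apply hv
      funext i
      fin_cases i
      · exact h0
      · exact h1
    refine ⟨∞, v 0, h0, ?_⟩
    funext i
    fin_cases i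
    · simp [vec_infty]
    · simp [vec_infty, h1]
  · refine ⟨((v 0 / v 1 : k) : OnePoint k), v 1, h1, ?_⟩
    funext i
    fin_cases i
    · simp [vec_coe, mul_div_cancel₀ _ h1]
    · simp [vec_coe]

lemma det_fin_two_ne_zero (g : GL (Fin 2) k) : g 0 0 * g 1 1 - g 0 1 * g 1 0 ≠ 0 := by
  have := g.det_ne_zero
  rwa [det_fin_two] at this

/-- fixed points = stable lines.  (Cases `x = ∞`, `x = t`; `smul_infty_eq_ite`,
`smul_some_eq_ite`, `Matrix.mulVec`, `Fin.sum_univ_two`; use `det g ≠ 0`.) -/
lemma smul_eq_self_iff_vec (g : GL (Fin 2) k) (x : OnePoint k) :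
    g • x = x ↔ ∃ a : k, g.val *ᵥ vec x = a • vec x := by
  have hdet := det_fin_two_ne_zero g
  cases x with
  | infty =>
    rw [smul_infty_eq_self_iff, vec_infty]
    constructor
    · intro h
      refine ⟨g 0 0, ?_⟩
      funext i
      fin_cases i
      · simp [Matrix.mulVec, dotProduct, Fin.sum_univ_two]
      · simp [Matrix.mulVec, dotProduct, Fin.sum_univ_two, h]
    · rintro ⟨a, ha⟩
      have := congrFun ha 1
      simpa [Matrix.mulVec, dotProduct, Fin.sum_univ_two] using this
  | coe t =>
    rw [smul_some_eq_ite, vec_coe]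
    constructor
    · intro h
      split_ifs at h with h0
      · exact absurd h (infty_ne_coe _)
      · rw [coe_eq_coe, div_eq_iff h0] at h
        refine ⟨g 1 0 * t + g 1 1, ?_⟩
        funext i
        fin_cases i
        · simp [Matrix.mulVec, dotProduct, Fin.sum_univ_two]
          linear_combination h
        · simp [Matrix.mulVec, dotProduct, Fin.sum_univ_two]
    · rintro ⟨a, ha⟩
      have h0 := congrFun ha 0
      have h1 := congrFun ha 1
      simp [Matrix.mulVec, dotProduct, Fin.sum_univ_two] at h0 h1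
      have ha0 : a ≠ 0 := by
        rintro rfl
        apply hdet
        have e1 : g 0 1 = - (g 0 0 * t) := by linear_combination h0
        have e2 : g 1 1 = - (g 1 0 * t) := by linear_combination h1
        rw [e1, e2]; ring
      rw [if_neg (by rw [h1]; exact ha0), coe_eq_coe, h0, h1, mul_div_cancel_left₀ _ ha0]

/-- `GL₂(k)` is transitive on `ℙ¹(k)`. (`h = [[0,1],[1,-t]]` sends `t` to `∞`.) -/
lemma exists_smul_eq_infty (x : OnePoint k) : ∃ h : GL (Fin 2) k, h • x = ∞ := by
  cases x with
  | infty => exact ⟨1, one_smul _ _⟩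
  | coe t =>
    refine ⟨Matrix.GeneralLinearGroup.mkOfDetNeZero !![0, 1; 1, -t] (by simp [det_fin_two]), ?_⟩
    rw [smul_some_eq_ite, if_pos]
    simp [Matrix.GeneralLinearGroup.mkOfDetNeZero]

/-- `g` is central iff it is diagonal with equal diagonal entries. -/
lemma mem_center_iff {g : GL (Fin 2) k} :
    g ∈ Subgroup.center (GL (Fin 2) k) ↔ g 0 1 = 0 ∧ g 1 0 = 0 ∧ g 0 0 = g 1 1 := by
  constructor
  · intro hg
    rw [Subgroup.mem_center_iff] at hg
    have h1 := hg (upperRightHom 1)
    have h2 := hg (Matrix.GeneralLinearGroup.mkOfDetNeZero !![1, 0; 1, 1] (by simp [det_fin_two]))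
    have h1' := congrArg (fun m : GL (Fin 2) k => m.val) h1
    have h2' := congrArg (fun m : GL (Fin 2) k => m.val) h2
    simp only [Units.val_mul] at h1' h2'
    have e1 := congrFun (congrFun h1' 0) 0
    have e2 := congrFun (congrFun h1' 0) 1
    have e3 := congrFun (congrFun h2' 0) 0
    simp [Matrix.mul_apply, Fin.sum_univ_two, Matrix.GeneralLinearGroup.mkOfDetNeZero] at e1 e2 e3
    refine ⟨e3, e1, ?_⟩
    linear_combination -e2
  · rintro ⟨h01, h10, h00⟩
    rw [Subgroup.mem_center_iff]
    intro h
    apply Units.ext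
    rw [Units.val_mul, Units.val_mul]
    ext i j
    have a01 : g.val 0 1 = 0 := h01
    have a10 : g.val 1 0 = 0 := h10
    have a00 : g.val 0 0 = g.val 1 1 := h00
    fin_cases i <;> fin_cases j <;>
      simp [Matrix.mul_apply, Fin.sum_univ_two, a01, a10, a00, mul_comm]

/-- scalars act trivially.  (`Matrix.GeneralLinearGroup.center...`/`Matrix.mem_center_iff`-type
lemmas: an element of the centre of `GL₂(k)` is a scalar matrix; or test commutation with
`upperRightHom 1` and its transpose.) -/
lemma smul_eq_self_of_mem_center {g : GL (Fin 2) k} (hg : g ∈ Subgroup.center (GL (Fin 2) k))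
    (x : OnePoint k) : g • x = x := by
  obtain ⟨h01, h10, h00⟩ := mem_center_iff.mp hg
  rw [smul_eq_self_iff_vec]
  refine ⟨g 1 1, ?_⟩
  have a01 : g.val 0 1 = 0 := h01
  have a10 : g.val 1 0 = 0 := h10
  have a00 : g.val 0 0 = g.val 1 1 := h00
  funext i
  fin_cases i <;> simp [Matrix.mulVec, dotProduct, Fin.sum_univ_two, a01, a10, a00]

lemma mem_range_scalar_iff {g : GL (Fin 2) k} :
    g.val ∈ Set.range (Matrix.scalar (Fin 2)) ↔ g ∈ Subgroup.center (GL (Fin 2) k) := by
  rw [mem_center_iff]
  constructor
  · rintro ⟨a, ha⟩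
    have e : ∀ i j, g i j = (Matrix.scalar (Fin 2) a) i j := fun i j => by rw [ha]
    refine ⟨by simp [e], by simp [e], by simp [e]⟩
  · rintro ⟨h01, h10, h00⟩
    refine ⟨g 1 1, ?_⟩
    have a01 : g.val 0 1 = 0 := h01
    have a10 : g.val 1 0 = 0 := h10
    have a00 : g.val 0 0 = g.val 1 1 := h00
    ext i j
    fin_cases i <;> fin_cases j <;> simp [a01, a10, a00]

/-- `IsParabolic` in our terms. -/
lemma isParabolic_iff {g : GL (Fin 2) k} :
    g.IsParabolic ↔ g ∉ Subgroup.center (GL (Fin 2) k) ∧ g.val.discr = 0 := by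
  rw [← mem_range_scalar_iff]
  rfl

lemma trace_det_of_split {g : GL (Fin 2) k} {a b : k}
    (h : g.val.charpoly = (X - C a) * (X - C b)) :
    g.val.trace = a + b ∧ g.val.det = a * b := by
  rw [Matrix.charpoly_fin_two] at h
  have h0 := congrArg (fun p => p.coeff 0) h
  have h1 := congrArg (fun p => p.coeff 1) h
  have e : (X - C a) * (X - C b) = X ^ 2 - C (a + b) * X + C (a * b) := by
    simp only [C_add, C_mul]; ring
  rw [e] at h0 h1
  simp [coeff_X, coeff_C, coeff_X_pow] at h0 h1
  exact ⟨by linear_combination -h1, h0⟩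

/-- a split characteristic polynomial gives a fixed point (an eigenvector for `a`). -/
lemma exists_fixed_of_split {g : GL (Fin 2) k} {a b : k}
    (h : g.val.charpoly = (X - C a) * (X - C b)) : ∃ x : OnePoint k, g • x = x := by
  obtain ⟨htr, hdet⟩ := trace_det_of_split h
  rw [trace_fin_two] at htr
  rw [det_fin_two] at hdet
  -- an eigenvector for `a`
  have key : ∃ v : Fin 2 → k, v ≠ 0 ∧ g.val *ᵥ v = a • v := by
    by_cases h01 : g.val 0 1 = 0
    · by_cases h00 : g.val 0 0 = a
      · by_cases h10 : g.val 1 0 = 0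
        · refine ⟨![1, 0], fun e => by simpa using congrFun e 0, ?_⟩
          funext i
          fin_cases i <;> simp [Matrix.mulVec, dotProduct, Fin.sum_univ_two, h00, h10]
        · refine ⟨![a - g.val 1 1, g.val 1 0], fun e => h10 (by simpa using congrFun e 1), ?_⟩
          funext i
          fin_cases i
          · simp [Matrix.mulVec, dotProduct, Fin.sum_univ_two, h00, h01]
          · simp [Matrix.mulVec, dotProduct, Fin.sum_univ_two]
            ring
      · -- then `g 1 1 = a`
        have h11 : g.val 1 1 = a := by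
          have e : (g.val 0 0 - a) * (g.val 1 1 - a) = 0 := by
            have hb : b = g.val 0 0 + g.val 1 1 - a := by linear_combination -htr
            rw [hb, h01] at hdet
            linear_combination hdet
          rcases mul_eq_zero.mp e with e | e
          · exact absurd (sub_eq_zero.mp e) h00
          · exact sub_eq_zero.mp e
        refine ⟨![0, 1], fun e => by simpa using congrFun e 1, ?_⟩
        funext i
        fin_cases i <;> simp [Matrix.mulVec, dotProduct, Fin.sum_univ_two, h01, h11]
    · refine ⟨![g.val 0 1, a - g.val 0 0], fun e => h01 (by simpa using congrFun e 0), ?_⟩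
      funext i
      fin_cases i
      · simp [Matrix.mulVec, dotProduct, Fin.sum_univ_two]
        ring
      · simp [Matrix.mulVec, dotProduct, Fin.sum_univ_two]
        have hb : b = g.val 0 0 + g.val 1 1 - a := by linear_combination -htr
        rw [hb] at hdet
        linear_combination -hdet
  obtain ⟨v, hv, hgv⟩ := key
  obtain ⟨x, c, hc, rfl⟩ := exists_vec v hv
  refine ⟨x, (smul_eq_self_iff_vec g x).mpr ⟨a, ?_⟩⟩
  rw [Matrix.mulVec_smul, smul_comm] at hgv
  exact smul_right_injective _ hc hgv

/-- `discr g = (a - b)²` if `charpoly g = (X - a)(X - b)`. -/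
lemma discr_of_split {g : GL (Fin 2) k} {a b : k}
    (h : g.val.charpoly = (X - C a) * (X - C b)) : g.val.discr = (a - b) ^ 2 := by
  obtain ⟨htr, hdet⟩ := trace_det_of_split h
  rw [discr_fin_two, htr, hdet]
  ring

end Fermat.Agent.S56.GT
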