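import Fermat.Agent.S56.GT.FixB
import Fermat.Agent.S56.GT.CountA

/-!
# S56 / GT / Frattini : `det B = det G`
-/

set_option autoImplicit false

namespace Fermat.Agent.S56.GT

open Matrix Matrix.GeneralLinearGroup OnePoint

variable {k : Type*} [Field k] [DecidableEq k]

/-- **Frattini**: `det (B) = det (G)`.
PROOF.  Fix `t ∈ A`, `t ≠ 0`, `w₁ = u t ∈ G₁ := G1of G`.  For `g ∈ G`, `w₂ = g w₁ g⁻¹ ∈ G₁`
(determinant one).  `w₁ ^ p = w₂ ^ p = 1` (`upperRightHom_pow_char`), `w₁` fixes only `∞`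
(`upperRightHom_smul_eq_self_iff`), `w₂` fixes only `g ∞`.  By `mem_orbit_of_pow_eq_one` for the
group `↥(G1of G)` acting on `OnePoint k` there is `h ∈ G₁` with `h ∞ = g ∞` (or the other way
round).  Then `b = h⁻¹ g ∈ G` fixes `∞`, i.e. `b 1 0 = 0` (`smul_infty_eq_self_iff`), `det b = det g`. -/
theorem exists_upper_det [Finite k] (p : ℕ) [Fact p.Prime] [CharP k p]
    (G : Subgroup (GL (Fin 2) k)) (hA : Aof G ≠ ⊥) :
    ∀ g ∈ G, ∃ b ∈ G, b 1 0 = 0 ∧ b.val.det = g.val.det := by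
  intro g hg
  obtain ⟨t, htA, ht0⟩ : ∃ t ∈ Aof G, t ≠ 0 := by
    by_contra hcon
    push Not at hcon
    exact hA ((AddSubgroup.eq_bot_iff_forall _).2 hcon)
  have hu1 : (upperRightHom t : GL (Fin 2) k) ∈ G1of G := by
    have : t ∈ Aof (G1of G) := by rw [Aof_G1of]; exact htA
    exact this
  have hdetinv : (g⁻¹ : GL (Fin 2) k).val.det * g.val.det = 1 := by
    rw [← Matrix.det_mul, ← Units.val_mul, inv_mul_cancel]
    simp
  have hu2 : g * (upperRightHom t : GL (Fin 2) k) * g⁻¹ ∈ G1of G := by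
    refine ⟨G.mul_mem (G.mul_mem hg hu1.1) (G.inv_mem hg), ?_⟩
    rw [Units.val_mul, Units.val_mul, Matrix.det_mul, Matrix.det_mul, hu1.2, mul_one, mul_comm]
    exact hdetinv
  let w₁ : ↥(G1of G) := ⟨upperRightHom t, hu1⟩
  let w₂ : ↥(G1of G) := ⟨g * (upperRightHom t : GL (Fin 2) k) * g⁻¹, hu2⟩
  have h₁ : w₁ ^ p = 1 := Subtype.ext (upperRightHom_pow_char p t)
  have h₂ : w₂ ^ p = 1 := by
    apply Subtype.ext
    show (g * (upperRightHom t : GL (Fin 2) k) * g⁻¹) ^ p = 1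
    rw [conj_pow, upperRightHom_pow_char p t, mul_one, mul_inv_cancel]
  have f₁ : ∀ x : OnePoint k, w₁ • x = x ↔ x = ∞ := fun x => upperRightHom_smul_eq_self_iff ht0 x
  have f₂ : ∀ x : OnePoint k, w₂ • x = x ↔ x = g • (∞ : OnePoint k) := by
    intro x
    show (g * (upperRightHom t : GL (Fin 2) k) * g⁻¹) • x = x ↔ _
    rw [mul_smul, mul_smul, smul_eq_iff_eq_inv_smul, upperRightHom_smul_eq_self_iff ht0,
      inv_smul_eq_iff]
  have : Finite (OnePoint k) := inferInstanceAs (Finite (Option k))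
  have horb := mem_orbit_of_pow_eq_one (H := ↥(G1of G)) (X := OnePoint k) p h₂ h₁ f₂ f₁
  obtain ⟨h, hh⟩ := MulAction.mem_orbit_iff.1 horb
  have hh' : (h : GL (Fin 2) k) • (∞ : OnePoint k) = g • (∞ : OnePoint k) := hh
  refine ⟨(h : GL (Fin 2) k)⁻¹ * g, G.mul_mem (G.inv_mem h.2.1) hg, ?_, ?_⟩
  · apply smul_infty_eq_self_iff.1
    rw [mul_smul, ← hh', inv_smul_smul]
  · have hdh : ((h : GL (Fin 2) k)⁻¹).val.det = 1 := ((G1of G).inv_mem h.2).2
    rw [Units.val_mul, Matrix.det_mul, hdh, one_mul]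

end Fermat.Agent.S56.GT
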