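import Mathlib

/-!
# S56 / GT / Lin : an additive map which is semilinear for many multipliers is linear
-/

set_option autoImplicit false

namespace Fermat.Agent.S56.GT

variable {k : Type*} [Field k]

theorem Lin_y_zero (A : AddSubgroup k) (y : k → k)
    (hadd : ∀ s ∈ A, ∀ t ∈ A, y (s + t) = y s + y t) : y 0 = 0 := by
  have h := hadd 0 A.zero_mem 0 A.zero_mem
  rw [add_zero] at h
  exact left_eq_add.mp h

theorem Lin_y_neg (A : AddSubgroup k) (y : k → k)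
    (hadd : ∀ s ∈ A, ∀ t ∈ A, y (s + t) = y s + y t) (s : k) (hs : s ∈ A) : y (-s) = - y s := by
  have h := hadd s hs (-s) (A.neg_mem hs)
  rw [add_neg_cancel, Lin_y_zero A y hadd] at h
  exact (neg_eq_of_add_eq_zero_right h.symm).symm

/-- the ring of multipliers for which `y` is semilinear. -/
def Lin_E (A : AddSubgroup k) (y : k → k)
    (hadd : ∀ s ∈ A, ∀ t ∈ A, y (s + t) = y s + y t) : Subring k where
  carrier := {l | (∀ t ∈ A, l * t ∈ A) ∧ ∃ μ : k, ∀ t ∈ A, y (l * t) = l * y t + μ * t}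
  mul_mem' := by
    rintro a b ⟨ha, μ, hμ⟩ ⟨hb, ν, hν⟩
    refine ⟨fun t ht => ?_, a * ν + μ * b, fun t ht => ?_⟩
    · rw [mul_assoc]
      exact ha _ (hb t ht)
    · rw [mul_assoc, hμ _ (hb t ht), hν t ht]
      ring
  one_mem' := by
    refine ⟨fun t ht => ?_, 0, fun t ht => ?_⟩
    · rwa [one_mul]
    · rw [one_mul, one_mul, zero_mul, add_zero]
  add_mem' := by
    rintro a b ⟨ha, μ, hμ⟩ ⟨hb, ν, hν⟩
    refine ⟨fun t ht => ?_, μ + ν, fun t ht => ?_⟩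
    · rw [add_mul]
      exact A.add_mem (ha t ht) (hb t ht)
    · rw [add_mul, hadd _ (ha t ht) _ (hb t ht), hμ t ht, hν t ht]
      ring
  zero_mem' := by
    refine ⟨fun t ht => ?_, 0, fun t ht => ?_⟩
    · rw [zero_mul]
      exact A.zero_mem
    · rw [zero_mul, zero_mul, add_zero, Lin_y_zero A y hadd]
  neg_mem' := by
    rintro a ⟨ha, μ, hμ⟩
    refine ⟨fun t ht => ?_, -μ, fun t ht => ?_⟩
    · rw [neg_mul]
      exact A.neg_mem (ha t ht)
    · rw [neg_mul, Lin_y_neg A y hadd _ (ha t ht), hμ t ht]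
      ring

theorem Lin_inv_mem [Finite k] (E : Subring k) (l : k) (hl : l ∈ E) : l⁻¹ ∈ E := by
  cases nonempty_fintype k
  by_cases h0 : l = 0
  · rw [h0, inv_zero]
    exact E.zero_mem
  have h1 := FiniteField.pow_card_sub_one_eq_one l h0
  have h2 : 1 < Fintype.card k := Fintype.one_lt_card
  have h3 : l⁻¹ = l ^ (Fintype.card k - 2) := by
    apply inv_eq_of_mul_eq_one_right
    rw [← pow_succ']
    have h4 : Fintype.card k - 2 + 1 = Fintype.card k - 1 := by omega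
    rw [h4, h1]
  rw [h3]
  exact pow_mem hl _

theorem Lin_pow (A : AddSubgroup k) (y : k → k) (l μ : k) (hlA : ∀ n : ℕ, ∀ t ∈ A, l ^ n * t ∈ A)
    (hμ : ∀ t ∈ A, y (l * t) = l * y t + μ * t) (n : ℕ) :
    ∀ t ∈ A, y (l ^ (n + 1) * t) = l ^ (n + 1) * y t + ((n : k) + 1) * l ^ n * μ * t := by
  induction n with
  | zero =>
    intro t ht
    rw [zero_add, pow_one, hμ t ht]
    simp
  | succ n ih =>
    intro t ht
    rw [pow_succ' l (n + 1), mul_assoc, hμ _ (hlA _ t ht), ih t ht]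
    push_cast
    ring

theorem Lin_linear_of_mem [Finite k] (A : AddSubgroup k) (y : k → k) (l μ : k)
    (hlA : ∀ n : ℕ, ∀ t ∈ A, l ^ n * t ∈ A)
    (hμ : ∀ t ∈ A, y (l * t) = l * y t + μ * t) : ∀ t ∈ A, y (l * t) = l * y t := by
  cases nonempty_fintype k
  intro t ht
  have h2 : 1 < Fintype.card k := Fintype.one_lt_card
  have h := Lin_pow A y l μ hlA hμ (Fintype.card k - 1) t ht
  have h3 : Fintype.card k - 1 + 1 = Fintype.card k := by omega
  have h4 : ((Fintype.card k - 1 : ℕ) : k) + 1 = 0 := by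
    have : (((Fintype.card k - 1 + 1 : ℕ)) : k) = 0 := by
      rw [h3]
      exact FiniteField.cast_card_eq_zero k
    rwa [Nat.cast_add, Nat.cast_one] at this
  rw [h3, FiniteField.pow_card, h4] at h
  rw [h]
  ring

/-- `A ⊂ k` a finite additive subgroup, `y` additive on `A`, `Cs ⊂ kˣ` a set of multipliers
preserving `A` with `y (χ t) = χ y t + μ_χ t`, and `|A| - 1 ≤ 2 |Cs|`.  Then `y t = κ t` on `A`.

PROOF.  `E := {λ ∈ k : λ A ⊂ A and ∃ μ, ∀ t ∈ A, y (λ t) = λ y t + μ t}` is a subring of `k`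
(sum: `μ + μ'`; product: `λ μ' + μ λ'`; `0, 1, -1 ∈ E`), finite, so closed under inverses of
non-zero elements (`λ⁻¹ = λ ^ (|k| - 2)`).  `Cs ⊂ E \ {0}`, so `|Cs| ≤ |E| - 1`.
If `A = 0` take `κ = 0`.  Otherwise fix `t₀ ∈ A`, `t₀ ≠ 0`.
(1) `A = E t₀`: otherwise pick `t₁ ∈ A \ E t₀`; `(λ,λ') ↦ λ t₀ + λ' t₁` is an injection
`E × E → A` (if `λ t₀ + λ' t₁ = 0` with `λ' ≠ 0` then `t₁ = -(λ/λ') t₀ ∈ E t₀`), so
`|E|² ≤ |A| ≤ 2 |E| - 1`, i.e. `(|E| - 1)² ≤ 0`, contradicting `0 ≠ 1 ∈ E`.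
(2) for `λ ∈ E` with constant `μ`: by induction `y (λ ^ n t) = λ ^ n y t + n λ ^ (n-1) μ t` for all
`t ∈ A`.  For `n = |k|`: `λ ^ n = λ` (`FiniteField.pow_card`) and `(n : k) = 0`
(`FiniteField.cast_card_eq_zero`), so `y (λ t) = λ y t`.
(3) `κ := y t₀ / t₀`: for `t = λ t₀`, `y t = λ y t₀ = κ t`. -/
theorem linear_of_semilinear [Finite k] (A : AddSubgroup k) (y : k → k)
    (hadd : ∀ s ∈ A, ∀ t ∈ A, y (s + t) = y s + y t) (Cs : Set k)
    (h0 : ∀ χ ∈ Cs, χ ≠ 0) (hA : ∀ χ ∈ Cs, ∀ t ∈ A, χ * t ∈ A)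
    (hy : ∀ χ ∈ Cs, ∃ μ : k, ∀ t ∈ A, y (χ * t) = χ * y t + μ * t)
    (hcard : Nat.card A - 1 ≤ 2 * Cs.ncard) :
    ∃ κ : k, ∀ t ∈ A, y t = κ * t := by
  classical
  by_cases hA0 : ∀ t ∈ A, t = 0
  · refine ⟨0, fun t ht => ?_⟩
    rw [hA0 t ht, Lin_y_zero A y hadd, mul_zero]
  push Not at hA0
  obtain ⟨t₀, ht₀, ht₀0⟩ := hA0
  set E : Subring k := Lin_E A y hadd with hE
  have hEA : ∀ l ∈ E, ∀ t ∈ A, l * t ∈ A := fun l hl => hl.1
  have hlin : ∀ l ∈ E, ∀ t ∈ A, y (l * t) = l * y t := by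
    intro l hl
    obtain ⟨μ, hμ⟩ := hl.2
    exact Lin_linear_of_mem A y l μ (fun n => hEA _ (pow_mem hl n)) hμ
  have hCs : Cs ⊆ ((E : Set k) \ {0}) := fun χ hχ => ⟨⟨hA χ hχ, hy χ hχ⟩, h0 χ hχ⟩
  have hcs : Cs.ncard + 1 ≤ Nat.card E := by
    have h1 : Cs.ncard ≤ ((E : Set k) \ {0}).ncard := Set.ncard_le_ncard hCs (Set.toFinite _)
    have h2 : ((E : Set k) \ {0}).ncard + 1 = (E : Set k).ncard :=
      Set.ncard_sdiff_singleton_add_one E.zero_mem (Set.toFinite _)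
    have h3 : (E : Set k).ncard = Nat.card E := rfl
    omega
  have hspan : ∀ t ∈ A, ∃ l ∈ E, t = l * t₀ := by
    by_contra hcon
    push Not at hcon
    obtain ⟨t₁, ht₁, hne⟩ := hcon
    let f : E × E → A := fun x =>
      ⟨x.1 * t₀ + x.2 * t₁, A.add_mem (hEA _ x.1.2 _ ht₀) (hEA _ x.2.2 _ ht₁)⟩
    have hf : Function.Injective f := by
      rintro ⟨a, b⟩ ⟨c, d⟩ hab
      have h1 : (a : k) * t₀ + b * t₁ = c * t₀ + d * t₁ := congrArg Subtype.val hab
      have hbd : b = d := by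
        by_contra hbd
        have hbd' : (d : k) - b ≠ 0 := sub_ne_zero.mpr (fun h => hbd (Subtype.ext h.symm))
        apply hne (((d : k) - b)⁻¹ * ((a : k) - c))
          (E.mul_mem (Lin_inv_mem E _ (E.sub_mem d.2 b.2)) (E.sub_mem a.2 c.2))
        have h2 : ((d : k) - b) * t₁ = ((a : k) - c) * t₀ := by linear_combination -h1
        rw [mul_assoc, ← h2, ← mul_assoc, inv_mul_cancel₀ hbd', one_mul]
      subst hbd
      have h2 : (a : k) * t₀ = c * t₀ := add_right_cancel h1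
      have h3 : (a : k) = c := mul_right_cancel₀ ht₀0 h2
      rw [Subtype.ext h3]
    have h1 : Nat.card (E × E) ≤ Nat.card A := Nat.card_le_card_of_injective f hf
    rw [Nat.card_prod] at h1
    have h2 : 1 < Nat.card E := Finite.one_lt_card
    have h3 : Nat.card A ≤ 2 * Nat.card E - 1 := by omega
    have h4 : Nat.card E * Nat.card E + 1 ≤ 2 * Nat.card E := by omega
    nlinarith
  refine ⟨y t₀ / t₀, fun t ht => ?_⟩
  obtain ⟨l, hl, rfl⟩ := hspan t ht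
  rw [hlin l hl t₀ ht₀]
  field_simp

end Fermat.Agent.S56.GT
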