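import Fermat.Agent.S56.GT.Defs

/-!
# S56 / GT / ResInj : restriction to a subgroup of index prime to `p` is injective on `H¹`
-/

set_option autoImplicit false

namespace Fermat.Agent.S56.GT

open Matrix Matrix.GeneralLinearGroup

variable {k : Type*} [Field k]

/-- If `c` is a cocycle on the finite group `G` which vanishes on a subgroup `P ≤ G` of index
prime to `p = char k`, then `c` is a coboundary.

PROOF.  `c (g * u) = c g + tw g (c u) = c g` for `u ∈ P`, so `c` factors through the finite set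
`G/P` (use `↥G ⧸ P.subgroupOf G`, `Quotient.lift`/`Quotient.out`; `n := P.relIndex G` is its
cardinality, invertible in `k`).  Put `s := ∑_{x ∈ G/P} c x`.  For `h ∈ G`:
`tw h s = ∑ tw h (c x) = ∑ (c (h x) - c h) = s - n • c h` (left translation by `h` permutes `G/P`).
So `c h = tw h m - m` with `m := -(n:k)⁻¹ • s`; `m.trace = 0`. -/
theorem isCob_of_res_zero (p : ℕ) [Fact p.Prime] [CharP k p] (G P : Subgroup (GL (Fin 2) k))
    [Finite G] (hPG : P ≤ G) (hidx : ¬ p ∣ P.relIndex G)
    (c : GL (Fin 2) k → Matrix (Fin 2) (Fin 2) k) (hc : IsCoc G c) (h0 : ∀ g ∈ P, c g = 0) :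
    IsCob G c := by
  classical
  have : Fintype (↥G ⧸ P.subgroupOf G) := Fintype.ofFinite _
  -- `c` factors through `G/P`
  let cbar : ↥G ⧸ P.subgroupOf G → Matrix (Fin 2) (Fin 2) k :=
    Quotient.lift (fun g : G => c g.1) (by
      intro a b hab
      have hab' : a⁻¹ * b ∈ P.subgroupOf G := QuotientGroup.leftRel_apply.1 hab
      have hu : (a.1)⁻¹ * b.1 ∈ P := by simpa [Subgroup.mem_subgroupOf] using hab'
      have h1 := hc.2 a.1 a.2 ((a.1)⁻¹ * b.1) (hPG hu)
      rw [mul_inv_cancel_left, h0 _ hu, tw_zero, add_zero] at h1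
      exact h1.symm)
  have hcbar : ∀ g : G, cbar (QuotientGroup.mk g) = c g.1 := fun g => rfl
  have htr : ∀ x, (cbar x).trace = 0 := by
    intro x
    induction x using QuotientGroup.induction_on with
    | H g => rw [hcbar]; exact hc.1 g.1 g.2
  have hact : ∀ (h : G) (x : ↥G ⧸ P.subgroupOf G), cbar (h • x) = c h.1 + tw h.1 (cbar x) := by
    intro h x
    induction x using QuotientGroup.induction_on with
    | H g =>
      have h1 : h • (QuotientGroup.mk g : ↥G ⧸ P.subgroupOf G) = QuotientGroup.mk (h * g) := rfl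
      rw [h1, hcbar, hcbar]
      exact hc.2 h.1 h.2 g.1 g.2
  set s : Matrix (Fin 2) (Fin 2) k := ∑ x, cbar x with hs
  set n : ℕ := P.relIndex G with hn
  have hcard : Fintype.card (↥G ⧸ P.subgroupOf G) = n := by
    rw [hn, Subgroup.relIndex, Subgroup.index, Nat.card_eq_fintype_card]
  have hn0 : (n : k) ≠ 0 := fun h => hidx ((CharP.cast_eq_zero_iff k p n).1 h)
  have hsum : ∀ h : G, s = (n : k) • c h.1 + tw h.1 s := by
    intro h
    have h1 : s = ∑ x, cbar (h • x) := by
      rw [hs]
      exact (Equiv.sum_comp (MulAction.toPerm h) cbar).symm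
    have h2 : ∑ x, cbar (h • x) = (n : k) • c h.1 + tw h.1 s := by
      simp only [hact]
      rw [Finset.sum_add_distrib, Finset.sum_const, Finset.card_univ, hcard, ← tw_sum,
        Nat.cast_smul_eq_nsmul]
    exact h1.trans h2
  refine ⟨-((n : k)⁻¹ • s), ?_, fun g hg => ?_⟩
  · rw [Matrix.trace_neg, Matrix.trace_smul, hs, Matrix.trace_sum]
    simp [htr]
  · have h1 := hsum ⟨g, hg⟩
    have h2 : c g = (n : k)⁻¹ • (s - tw g s) := by
      have h3 : s - tw g s = (n : k) • c g := by
        rw [sub_eq_iff_eq_add]; exact h1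
      rw [h3, smul_smul, inv_mul_cancel₀ hn0, one_smul]
    rw [h2, tw_neg, tw_smul, smul_sub]
    abel

end Fermat.Agent.S56.GT
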