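import Fermat.Agent.S56.GT.FixA

/-!
# S56 / GT / Sylow : normal form (the upper unipotent part is a Sylow `p`-subgroup)
-/

set_option autoImplicit false

namespace Fermat.Agent.S56.GT

open Matrix Matrix.GeneralLinearGroup OnePoint

variable {k : Type*} [Field k]

/-- the action of a subgroup of `GL₂(k)` on column vectors. -/
@[instance_reducible]
def Sylow_act (H : Subgroup (GL (Fin 2) k)) : MulAction H (Fin 2 → k) where
  smul g v := g.1.val *ᵥ v
  one_smul v := Matrix.one_mulVec v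
  mul_smul g h v := (Matrix.mulVec_mulVec v g.1.val h.1.val).symm

theorem Sylow_exists_fixed [Finite k] (p : ℕ) [Fact p.Prime] [CharP k p]
    (H : Subgroup (GL (Fin 2) k)) (hH : IsPGroup p H) :
    ∃ v : Fin 2 → k, v ≠ 0 ∧ ∀ g ∈ H, g.val *ᵥ v = v := by
  let _ := Sylow_act H
  cases nonempty_fintype k
  have hp : p ∣ Nat.card (Fin 2 → k) := by
    rw [Nat.card_eq_fintype_card, Fintype.card_fun, Fintype.card_fin]
    exact dvd_pow ((CharP.cast_eq_zero_iff k p _).mp (Nat.cast_card_eq_zero k)) two_ne_zero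
  have h0 : (0 : Fin 2 → k) ∈ MulAction.fixedPoints H (Fin 2 → k) :=
    fun g => Matrix.mulVec_zero _
  obtain ⟨v, hv, hne⟩ := hH.exists_fixed_point_of_prime_dvd_card_of_fixed_point (Fin 2 → k) hp h0
  exact ⟨v, hne.symm, fun g hg => hv ⟨g, hg⟩⟩

theorem Sylow_exists_base (v : Fin 2 → k) (hv : v ≠ 0) :
    ∃ m : GL (Fin 2) k, m.val *ᵥ ![1, 0] = v := by
  by_cases h0 : v 0 = 0
  · have h1 : v 1 ≠ 0 := by
      intro h1
      apply hv
      funext i
      fin_cases i
      · exact h0
      · exact h1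
    refine ⟨Matrix.GeneralLinearGroup.mkOfDetNeZero !![v 0, 1; v 1, 0]
      (by rw [det_fin_two_of]; simpa using h1), ?_⟩
    funext i
    fin_cases i <;> simp [Matrix.GeneralLinearGroup.mkOfDetNeZero, Matrix.mulVec, dotProduct,
      Fin.sum_univ_two]
  · refine ⟨Matrix.GeneralLinearGroup.mkOfDetNeZero !![v 0, 0; v 1, 1]
      (by rw [det_fin_two_of]; simpa using h0), ?_⟩
    funext i
    fin_cases i <;> simp [Matrix.GeneralLinearGroup.mkOfDetNeZero, Matrix.mulVec, dotProduct,
      Fin.sum_univ_two]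

theorem Sylow_eq_upper (p : ℕ) [Fact p.Prime] [CharP k p] (g : GL (Fin 2) k)
    (hfix : g.val *ᵥ ![1, 0] = ![1, 0]) (n : ℕ) (hn : g ^ p ^ n = 1) :
    g = upperRightHom (g 0 1) := by
  have h00 : g 0 0 = 1 := by
    have := congrFun hfix 0
    simpa [Matrix.mulVec, dotProduct, Fin.sum_univ_two] using this
  have h10 : g 1 0 = 0 := by
    have := congrFun hfix 1
    simpa [Matrix.mulVec, dotProduct, Fin.sum_univ_two] using this
  have hdet : g.val.det = g 1 1 := by
    rw [det_fin_two]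
    have e00 : g.val 0 0 = 1 := h00
    have e10 : g.val 1 0 = 0 := h10
    rw [e00, e10]
    simp
  have hd : (g 1 1) ^ (p ^ n) = 1 := by
    rw [← hdet, ← Matrix.det_pow, ← Units.val_pow_eq_pow_val, hn]
    simp
  have h11 : g 1 1 = 1 := by
    apply iterateFrobenius_inj k p n
    rw [iterateFrobenius_def, iterateFrobenius_def, hd, one_pow]
  ext i j
  fin_cases i <;> fin_cases j <;> simp [h00, h10, h11]

/-- After conjugation, `Uof G` has index prime to `p` in `G`.
PROOF.  Let `P` be a Sylow `p`-subgroup of (the finite group) `G`.  `P` is a `p`-group acting on the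
finite set `Fin 2 → k` of cardinality `|k|² ≡ 0 mod p`, so the number of fixed vectors is `≡ 0 mod p`
(`IsPGroup.card_modEq_card_fixedPoints`), and `0` is fixed: there is a fixed `v ≠ 0`.  Choose
`h ∈ GL₂(k)` with `h v = e₁ = ![1,0]`.  Every `g ∈ h P h⁻¹` fixes `e₁`: `g = [[1,s],[0,d]]`, and `g` has
`p`-power order, so `d ^ (p ^ n) = 1`; also `d ^ (|k| - 1) = 1`, coprime exponents: `d = 1`,
`g = u s`.  So `h P h⁻¹ ≤ Uof (cj h G) ≤ cj h G`; the index of `h P h⁻¹` in `cj h G` equals that of `P`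
in `G`, prime to `p` (`Sylow.not_dvd_index` or `Sylow.card_coprime_index`), and
`(Uof _).relIndex _` divides it (`Subgroup.relIndex_dvd_of_le_left`). -/
theorem exists_cj_sylow [Finite k] (p : ℕ) [Fact p.Prime] [CharP k p]
    (G : Subgroup (GL (Fin 2) k)) :
    ∃ h : GL (Fin 2) k, ¬ p ∣ (Uof (cj h G)).relIndex (cj h G) := by
  have hfin : Finite (GL (Fin 2) k) := inferInstance
  obtain ⟨P⟩ : Nonempty (Sylow p G) := inferInstance
  let P' : Subgroup (GL (Fin 2) k) := (P : Subgroup G).map G.subtype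
  have hP' : IsPGroup p P' := P.isPGroup'.map G.subtype
  have hle : P' ≤ G := Subgroup.map_subtype_le _
  have hidx : P'.relIndex G = (P : Subgroup G).index := by
    rw [Subgroup.relIndex]
    congr 1
    exact Subgroup.comap_map_eq_self_of_injective G.subtype_injective _
  obtain ⟨v, hv0, hv⟩ := Sylow_exists_fixed p P' hP'
  obtain ⟨m, hm⟩ := Sylow_exists_base v hv0
  refine ⟨m⁻¹, fun hdvd => ?_⟩
  have h1 : cj m⁻¹ P' ≤ Uof (cj m⁻¹ G) := by
    intro g hg
    refine ⟨Subgroup.map_mono hle hg, g 0 1, ?_⟩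
    rw [mem_cj, inv_inv] at hg
    obtain ⟨n, hn⟩ := hP' ⟨_, hg⟩
    have hn' : (m * g * m⁻¹) ^ (p ^ n) = 1 := congrArg Subtype.val hn
    rw [conj_pow, conj_eq_one_iff] at hn'
    apply Sylow_eq_upper p g _ n hn'
    have h2 := hv _ hg
    rw [← hm, Matrix.mulVec_mulVec, ← Units.val_mul] at h2
    have h3 : m * g * m⁻¹ * m = m * g := by group
    rw [h3, Units.val_mul, ← Matrix.mulVec_mulVec] at h2
    have h4 := congrArg (fun w => (m⁻¹ : GL (Fin 2) k).val *ᵥ w) h2
    simp only [Matrix.mulVec_mulVec, ← Units.val_mul, inv_mul_cancel, Units.val_one,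
      Matrix.one_mulVec, inv_mul_cancel_left] at h4
    exact h4
  have h3 := Subgroup.relIndex_dvd_of_le_left (cj m⁻¹ G) h1
  have h4 : (cj m⁻¹ P').relIndex (cj m⁻¹ G) = P'.relIndex G :=
    Subgroup.relIndex_map_map_of_injective P' G (MulEquiv.injective _)
  exact P.not_dvd_index (by rw [← hidx, ← h4]; exact hdvd.trans h3)

end Fermat.Agent.S56.GT
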