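import Fermat.Agent.S56.GT.Slot
import Fermat.Agent.S56.GT.Lin
import Fermat.Agent.S56.GT.Sylow
import Fermat.Agent.S56.GT.Conj
import Fermat.Agent.S56.GT.CocQ
import Fermat.Agent.S56.GT.ResInj

/-!
# S56 / GT / H1 : `H¹(G, ad⁰(1)) = 0` (assembly)
-/

set_option autoImplicit false

namespace Fermat.Agent.S56.GT

open Matrix Matrix.GeneralLinearGroup OnePoint

variable {k : Type*} [Field k] [DecidableEq k]

omit [DecidableEq k] in
lemma two_ne_zero_of_char (p : ℕ) [Fact p.Prime] [CharP k p] (hp2 : p ≠ 2) : (2 : k) ≠ 0 := by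
  intro h
  have h2 : ((2 : ℕ) : k) = 0 := by exact_mod_cast h
  rw [CharP.cast_eq_zero_iff k p] at h2
  exact hp2 ((Nat.prime_dvd_prime_iff_eq Fact.out Nat.prime_two).mp h2)

/-- the vanishing theorem in normal form. -/
theorem H1_vanish_aux [Finite k] (p : ℕ) [Fact p.Prime] [CharP k p] (hp2 : p ≠ 2)
    (G : Subgroup (GL (Fin 2) k)) (hSyl : ¬ p ∣ (Uof G).relIndex G)
    (hsplit : ∀ g ∈ G1of G, ∃ x : OnePoint k, g • x = x)
    (hirr : ∀ x : OnePoint k, ∃ g ∈ G1of G, g • x ≠ x)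
    (hdet5 : p = 5 → ∃ g ∈ G, g.val.det ^ 2 ≠ 1)
    (c : GL (Fin 2) k → Matrix (Fin 2) (Fin 2) k) (hc : IsCoc G c) : IsCob G c := by
  have h2 : (2 : k) ≠ 0 := two_ne_zero_of_char p hp2
  have : Finite (GL (Fin 2) k) := by
    have : Finite (Matrix (Fin 2) (Fin 2) k) := inferInstanceAs (Finite (Fin 2 → Fin 2 → k))
    exact Finite.of_injective _ Units.val_injective
  by_cases hA : Aof G = ⊥
  · -- `U` is trivial
    refine isCob_of_res_zero p G (Uof G) (Uof_le G) hSyl c hc ?_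
    rintro g ⟨hg, t, rfl⟩
    have ht : t ∈ Aof G := hg
    rw [hA, AddSubgroup.mem_bot] at ht
    rw [ht, AddChar.map_zero_eq_one]
    exact hc.map_one
  -- step 1 : `z = 0`
  have hz : ∀ t ∈ Aof G, c (upperRightHom t) 1 0 = 0 := by
    by_contra hcon
    push Not at hcon
    obtain ⟨t₀, ht₀, hne⟩ := hcon
    by_cases hp3 : p = 3
    · subst hp3
      exact hne (lower_left_zero_of_char_three hc t₀ ht₀)
    · have hp5 : 5 ≤ p := by
        have h1 : 2 ≤ p := (Fact.out : p.Prime).two_le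
        have h4 : p ≠ 4 := by
          intro h
          have : (Fact.out : p.Prime) = (Fact.out : p.Prime) := rfl
          have hp : p.Prime := Fact.out
          rw [h] at hp
          exact absurd hp (by norm_num)
        omega
      exact slot_false p hp5 G hsplit (hirr ∞) hA hdet5
        (cube_of_lower_left_ne_zero hc ht₀ hne)
  -- step 2 : normalise
  obtain ⟨m₁, hm₁, hn⟩ := exists_cob_normalize h2 hc hz
  set c₁ : GL (Fin 2) k → Matrix (Fin 2) (Fin 2) k := fun g => c g - (tw g m₁ - m₁) with hc₁def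
  have hc₁ : IsCoc G c₁ := hc.sub_cob hm₁
  refine IsCob.of_sub_cob hm₁ ?_
  change IsCob G c₁
  have hn₁ : ∀ t ∈ Aof G, c₁ (upperRightHom t) 0 0 = 0 ∧ c₁ (upperRightHom t) 1 0 = 0 ∧
      c₁ (upperRightHom t) 1 1 = 0 := hn
  -- step 3 : `y` is linear
  obtain ⟨hadd, hsemi⟩ := semilinear_of_normalized hc₁ hn₁
  have hnum : Nat.card (Aof G) - 1 ≤ 2 * (chiSet (G1of G)).ncard := by
    have := num_bound p hp2 (G1of G) hsplit (hirr ∞) (by rw [Aof_G1of]; exact hA)
    rwa [Aof_G1of] at this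
  obtain ⟨κ, hκ⟩ := linear_of_semilinear (Aof G) (fun t => c₁ (upperRightHom t) 0 1) hadd
    (chiSet (G1of G))
    (by
      rintro χ ⟨b, hb, hb10, rfl⟩
      have hdet : b.val.det = 1 := hb.2
      rw [Matrix.det_fin_two] at hdet
      have hb10' : b.val 1 0 = 0 := hb10
      rw [hb10', mul_zero, sub_zero] at hdet
      have h00 : b.val 0 0 ≠ 0 := left_ne_zero_of_mul_eq_one hdet
      have h11 : b.val 1 1 ≠ 0 := right_ne_zero_of_mul_eq_one hdet
      exact div_ne_zero h00 h11)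
    (by
      rintro χ ⟨b, hb, hb10, rfl⟩ t ht
      exact chi_mul_mem_Aof hb.1 hb10 ht)
    (by
      rintro χ ⟨b, hb, hb10, rfl⟩
      obtain ⟨μ, hμ⟩ := hsemi b hb.1 hb10
      refine ⟨μ, fun t ht => ?_⟩
      have hdet : b.val.det = 1 := hb.2
      rw [Matrix.det_fin_two] at hdet
      have hb10' : b.val 1 0 = 0 := hb10
      rw [hb10', mul_zero, sub_zero] at hdet
      have h11 : b.val 1 1 ≠ 0 := right_ne_zero_of_mul_eq_one hdet
      have hsq : (b 0 0) ^ 2 = b 0 0 / b 1 1 := by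
        rw [eq_div_iff h11, sq, mul_assoc]
        rw [show b 0 0 * b 1 1 = 1 from hdet, mul_one]
      have := hμ t ht
      rw [hsq] at this
      exact this)
    hnum
  -- step 4 : kill `c₁` on `U`
  obtain ⟨m₂, hm₂, hU⟩ := exists_cob_of_linear h2 hn₁ κ hκ
  refine IsCob.of_sub_cob hm₂ ?_
  exact isCob_of_res_zero p G (Uof G) (Uof_le G) hSyl _ (hc₁.sub_cob hm₂) hU

/-- **`H¹(G, ad⁰(1)) = 0`.**  `k` finite of odd characteristic `p`, `G ⊂ GL₂(k)`, `G₁ = G ∩ SL₂`: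
every element of `G₁` has a fixed point on `ℙ¹(k)`, `G₁` has no global fixed point, and if `p = 5`
some element of `G` has `det² ≠ 1`. -/
theorem H1_vanish [Finite k] (p : ℕ) [Fact p.Prime] [CharP k p] (hp2 : p ≠ 2)
    (G : Subgroup (GL (Fin 2) k))
    (hsplit : ∀ g ∈ G1of G, ∃ x : OnePoint k, g • x = x)
    (hirr : ∀ x : OnePoint k, ∃ g ∈ G1of G, g • x ≠ x)
    (hdet5 : p = 5 → ∃ g ∈ G, g.val.det ^ 2 ≠ 1)
    (c : GL (Fin 2) k → Matrix (Fin 2) (Fin 2) k) (hc : IsCoc G c) : IsCob G c := by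
  obtain ⟨h, hh⟩ := exists_cj_sylow p G
  refine IsCob.of_cj (h := h) ?_
  refine H1_vanish_aux p hp2 (cj h G) hh ?_ ?_ ?_ _ (hc.cj h)
  · rw [G1of_cj]; exact exists_fixed_cj h hsplit
  · rw [G1of_cj]; exact no_fixed_cj h hirr
  · intro h5; exact exists_det_cj h (hdet5 h5)

end Fermat.Agent.S56.GT
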