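import Fermat.Agent.S56.GT.Defs

/-!
# S56 / GT / Hyp : the hypotheses on `r : 𝒢 → GL₂(k)`
-/

set_option autoImplicit false

namespace Fermat.Agent.S56.GT

open Matrix Matrix.GeneralLinearGroup Polynomial

variable {k : Type*} [Field k]

/-- hypotheses on `r : 𝒢 → GL₂(k)` -/
structure Hyp (p : ℕ) {𝒢 : Type*} [Group 𝒢] (r : 𝒢 →* GL (Fin 2) k) : Prop where
  /-- all eigenvalues lie in `k` -/
  split : ∀ g : 𝒢, ∃ a b : k, (r g).val.charpoly = (X - C a) * (X - C b)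
  /-- no subgroup of index `1` or `2` stabilises a line of `k²` -/
  irr2 : ∀ 𝒢' : Subgroup 𝒢, (𝒢'.index = 1 ∨ 𝒢'.index = 2) → ∀ v : Fin 2 → k, v ≠ 0 →
    ∃ g ∈ 𝒢', ∀ a : k, (r g).val *ᵥ v ≠ a • v
  /-- only used for `p = 5` -/
  det5 : p = 5 → ∃ g : 𝒢, (r g).val.det ^ 2 ≠ 1

end Fermat.Agent.S56.GT
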