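import Fermat.Agent.S56.GT.Hyp
import Fermat.Agent.S56.GT.FixB

/-!
# S56 / GT / IrrA : Clifford theory by hand, case of a non-scalar normal subgroup
-/

set_option autoImplicit false

namespace Fermat.Agent.S56.GT

open Matrix Matrix.GeneralLinearGroup OnePoint Polynomial

variable {k : Type*} [Field k] [DecidableEq k] {p : ℕ} {𝒢 : Type*} [Group 𝒢]
  {r : 𝒢 →* GL (Fin 2) k}

/-- (`exists_fixed_of_split`) -/
theorem Hyp.exists_fixed (hr : Hyp p r) (g : 𝒢) : ∃ x : OnePoint k, r g • x = x := by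
  obtain ⟨a, b, h⟩ := hr.split g
  exact exists_fixed_of_split h

/-- (`smul_eq_self_iff_vec`, `vec_ne_zero`) -/
theorem Hyp.no_fixed (hr : Hyp p r) (𝒢' : Subgroup 𝒢) (h : 𝒢'.index = 1 ∨ 𝒢'.index = 2)
    (x : OnePoint k) : ∃ g ∈ 𝒢', r g • x ≠ x := by
  obtain ⟨g, hg, hga⟩ := hr.irr2 𝒢' h (vec x) (vec_ne_zero x)
  refine ⟨g, hg, fun hx => ?_⟩
  obtain ⟨a, ha⟩ := (smul_eq_self_iff_vec (r g) x).mp hx
  exact hga a ha

/-- **Case A.**  `N` a subgroup containing all commutators (so `N` is normal: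
`g n g⁻¹ = (g n g⁻¹ n⁻¹) n`), `n₀ ∈ N` with `r n₀` non-scalar.  Then `r N` has no fixed point.

PROOF.  Suppose `x` is fixed by `r N`.  `F := {y : ∀ n ∈ N, r n • y = y}` is stable under `r 𝒢`
(`n (g y) = g ((g⁻¹ n g) y) = g y`) and contained in the fixed point set of `r n₀`, which has one or
two elements (`fix1_of_isParabolic` / `fix2_of_not_isParabolic`, with `Hyp.exists_fixed`).
Let `𝒢' := {g : r g • x = x}` (a subgroup, e.g. `(MulAction.stabilizer (GL (Fin 2) k) x).comap r`).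
If `𝒢' = ⊤` its index is `1`.  Otherwise pick `a ∉ 𝒢'`, `x' := r a • x ≠ x`, so `F = {x, x'}`, every `r b`
permutes `F`, and `Subgroup.index_eq_two_iff` (`∃ a, ∀ b, Xor' (b * a ∈ H) (b ∈ H)`) gives index `2`.
In both cases `Hyp.no_fixed hr 𝒢' _ x` is contradicted. -/
theorem false_of_fixed_of_nonscalar [NeZero (2 : k)] (hr : Hyp p r) (N : Subgroup 𝒢)
    (hab : ∀ g h : 𝒢, g * h * g⁻¹ * h⁻¹ ∈ N) {n₀ : 𝒢} (hn₀ : n₀ ∈ N)
    (hns : r n₀ ∉ Subgroup.center (GL (Fin 2) k)) (x : OnePoint k)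
    (hx : ∀ n ∈ N, r n • x = x) : False := by
  classical
  have hnorm : ∀ (g n : 𝒢), n ∈ N → g⁻¹ * n * g ∈ N := by
    intro g n hn
    have h1 := N.mul_mem (hab g⁻¹ n) hn
    simpa [mul_assoc] using h1
  have hstab : ∀ (g : 𝒢) (y : OnePoint k), (∀ n ∈ N, r n • y = y) →
      ∀ n ∈ N, r n • (r g • y) = r g • y := by
    intro g y hy n hn
    have h1 := hy _ (hnorm g n hn)
    have h2 : n * g = g * (g⁻¹ * n * g) := by group
    rw [← mul_smul, ← map_mul, h2, map_mul, mul_smul, h1]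
  obtain ⟨x', hx'⟩ : ∃ x' : OnePoint k, ∀ w, r n₀ • w = w → w = x ∨ w = x' := by
    by_cases hp : (r n₀).IsParabolic
    · obtain ⟨x₁, h₁⟩ := fix1_of_isParabolic hp
      refine ⟨x, fun w hw => Or.inl ?_⟩
      rw [(h₁ w).1 hw, (h₁ x).1 (hx n₀ hn₀)]
    · obtain ⟨x₁, y₁, hne, h₁⟩ := fix2_of_not_isParabolic hns hp (hr.exists_fixed n₀)
      rcases (h₁ x).1 (hx n₀ hn₀) with h | h
      · exact ⟨y₁, fun w hw => by rw [h]; exact (h₁ w).1 hw⟩
      · exact ⟨x₁, fun w hw => by rw [h]; exact ((h₁ w).1 hw).symm⟩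
  have hF : ∀ w, (∀ n ∈ N, r n • w = w) → w = x ∨ w = x' := fun w hw => hx' w (hw n₀ hn₀)
  set 𝒢' : Subgroup 𝒢 := (MulAction.stabilizer (GL (Fin 2) k) x).comap r with h𝒢'
  have hmem : ∀ g, g ∈ 𝒢' ↔ r g • x = x := fun g => Iff.rfl
  have hidx : 𝒢'.index = 1 ∨ 𝒢'.index = 2 := by
    by_cases htop : 𝒢' = ⊤
    · left
      rw [htop, Subgroup.index_top]
    · right
      obtain ⟨a, ha⟩ : ∃ a, a ∉ 𝒢' := by
        by_contra hcon
        push Not at hcon
        exact htop (eq_top_iff.2 fun g _ => hcon g)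
      rw [hmem] at ha
      have hax : r a • x = x' := (hF _ (hstab a x hx)).resolve_left ha
      have hne : x' ≠ x := fun h => ha (hax.trans h)
      have hx'F : ∀ n ∈ N, r n • x' = x' := by
        rw [← hax]
        exact hstab a x hx
      rw [Subgroup.index_eq_two_iff]
      refine ⟨a, fun b => ?_⟩
      have hba : b * a ∈ 𝒢' ↔ r b • x' = x := by
        rw [hmem, map_mul, mul_smul, hax]
      by_cases hb : b ∈ 𝒢'
      · refine Or.inr ⟨hb, fun h => ?_⟩
        rw [hba] at h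
        rw [hmem] at hb
        exact hne ((MulAction.injective (r b)) (h.trans hb.symm))
      · refine Or.inl ⟨?_, hb⟩
        rw [hba]
        rw [hmem] at hb
        have hbx : r b • x = x' := (hF _ (hstab b x hx)).resolve_left hb
        refine (hF _ (hstab b x' hx'F)).resolve_right fun h => ?_
        exact hne ((MulAction.injective (r b)) (h.trans hbx.symm))
  obtain ⟨g, hg, hgx⟩ := hr.no_fixed 𝒢' hidx x
  exact hgx ((hmem g).1 hg)

end Fermat.Agent.S56.GT
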