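import Fermat.Agent.S56.GT.IrrB

/-!
# S56 / GT / IrrC : `ad⁰` has no stable line
-/

set_option autoImplicit false

namespace Fermat.Agent.S56.GT

open Matrix Matrix.GeneralLinearGroup Polynomial

variable {k : Type*} [Field k] {p : ℕ} {𝒢 : Type*} [Group 𝒢] {r : 𝒢 →* GL (Fin 2) k}

/-- from `tw g X = l • X` to `g X = ν X g`:  `g X adj(g) = l X`; multiply on the right by `g`
(`adj(g) g = det g`): `det(g) g X = l X g`.  So `ν = l / det g`. -/
lemma mul_eq_of_tw_eq {g : GL (Fin 2) k} {X : Matrix (Fin 2) (Fin 2) k} {l : k}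
    (h : tw g X = l • X) : g.val * X = (l / g.val.det) • (X * g.val) := by
  have hdet : g.val.det ≠ 0 := by
    have := (Matrix.isUnit_iff_isUnit_det _).1 g.isUnit
    exact this.ne_zero
  have h1 : g.val.det • (g.val * X) = l • (X * g.val) := by
    have h2 := congrArg (· * g.val) h
    simp only [tw_def] at h2
    rw [Matrix.mul_assoc, Matrix.adjugate_mul, Matrix.mul_smul, Matrix.mul_one,
      Matrix.smul_mul] at h2
    exact h2
  rw [div_eq_inv_mul, mul_smul, ← h1, smul_smul, inv_mul_cancel₀ hdet, one_smul]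

/-- the kernel of a non-zero `2 × 2` matrix is at most a line. -/
private lemma IrrC_ker_line {X : Matrix (Fin 2) (Fin 2) k} (hX : X ≠ 0) {v w : Fin 2 → k}
    (hv : v ≠ 0) (hXv : X *ᵥ v = 0) (hXw : X *ᵥ w = 0) : ∃ a : k, w = a • v := by
  have hd : v 0 * w 1 - v 1 * w 0 = 0 := by
    by_contra hd
    apply hX
    have e0 := congrFun hXv 0
    have e1 := congrFun hXv 1
    have f0 := congrFun hXw 0
    have f1 := congrFun hXw 1
    simp only [Matrix.mulVec, dotProduct, Fin.sum_univ_two, Pi.zero_apply] at e0 e1 f0 f1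
    have a00 : X 0 0 * (v 0 * w 1 - v 1 * w 0) = 0 := by linear_combination w 1 * e0 - v 1 * f0
    have a01 : X 0 1 * (v 0 * w 1 - v 1 * w 0) = 0 := by linear_combination v 0 * f0 - w 0 * e0
    have a10 : X 1 0 * (v 0 * w 1 - v 1 * w 0) = 0 := by linear_combination w 1 * e1 - v 1 * f1
    have a11 : X 1 1 * (v 0 * w 1 - v 1 * w 0) = 0 := by linear_combination v 0 * f1 - w 0 * e1
    ext i j
    fin_cases i <;> fin_cases j
    · exact (mul_eq_zero.1 a00).resolve_right hd
    · exact (mul_eq_zero.1 a01).resolve_right hd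
    · exact (mul_eq_zero.1 a10).resolve_right hd
    · exact (mul_eq_zero.1 a11).resolve_right hd
  by_cases h0 : v 0 = 0
  · have h1 : v 1 ≠ 0 := by
      intro h1
      apply hv
      ext i
      fin_cases i
      · exact h0
      · exact h1
    refine ⟨w 1 / v 1, ?_⟩
    have hw0 : w 0 = 0 := by
      rw [h0, zero_mul, zero_sub, neg_eq_zero] at hd
      exact (mul_eq_zero.1 hd).resolve_left h1
    ext i
    fin_cases i
    · simp [h0, hw0]
    · simp [h1]
  · refine ⟨w 0 / v 0, ?_⟩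
    ext i
    fin_cases i
    · simp [h0]
    · simp only [Fin.mk_one, Fin.isValue, Pi.smul_apply, smul_eq_mul]
      field_simp
      linear_combination hd

/-- **nilpotent case.**  `X₀ ≠ 0`, `tr X₀ = 0`, `det X₀ = 0`: there is `v ≠ 0` with
`ker X₀ = k v` (explicitly: `X₀ = [[x,y],[z,-x]]`, `x² + y z = 0`; `v = (y,-x)` if it is non-zero,
otherwise `v = (x, z)`... or use `Matrix.exists_mulVec_eq_zero_iff`).  For every `g`:
`X₀ (g v) = ν⁻¹ g X₀ v = 0` (`l ≠ 0` because `tw g` is injective: `tw g⁻¹ (tw g X) = X`), so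
`g v ∈ ker X₀ = k v`.  Contradiction with `hr.irr2 ⊤`. -/
theorem false_of_stable_nilpotent (hr : Hyp p r) (X₀ : Matrix (Fin 2) (Fin 2) k)
    (htr : X₀.trace = 0) (hne : X₀ ≠ 0) (hdet : X₀.det = 0)
    (hst : ∀ g, ∃ l : k, tw (r g) X₀ = l • X₀) : False := by
  obtain ⟨v, hv, hXv⟩ := Matrix.exists_mulVec_eq_zero_iff.2 hdet
  obtain ⟨g, -, hg⟩ := hr.irr2 ⊤ (Or.inl Subgroup.index_top) v hv
  obtain ⟨l, hl⟩ := hst g
  have hmul := mul_eq_of_tw_eq hl
  have hdetg : (r g).val.det ≠ 0 := by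
    have := (Matrix.isUnit_iff_isUnit_det _).1 (r g).isUnit
    exact this.ne_zero
  have hl0 : l ≠ 0 := by
    rintro rfl
    rw [zero_div, zero_smul] at hmul
    apply hne
    have h3 := congrArg (fun Y => ((r g)⁻¹).val * Y) hmul
    simp only [Matrix.mul_zero] at h3
    rw [← Matrix.mul_assoc, ← Units.val_mul, inv_mul_cancel, Units.val_one, Matrix.one_mul] at h3
    exact h3
  have hν : l / (r g).val.det ≠ 0 := div_ne_zero hl0 hdetg
  have hXgv : X₀ *ᵥ ((r g).val *ᵥ v) = 0 := by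
    have h4 := congrArg (· *ᵥ v) hmul
    simp only [Matrix.smul_mulVec, ← Matrix.mulVec_mulVec, hXv, Matrix.mulVec_zero] at h4
    exact (smul_eq_zero.1 h4.symm).resolve_left hν
  obtain ⟨a, ha⟩ := IrrC_ker_line hne hv hXv hXgv
  exact hg a ha

end Fermat.Agent.S56.GT
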