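import Fermat.Agent.S56.GT.BorelB
import Fermat.Agent.S56.GT.Count

/-!
# S56 / GT / Num : the numerical bound `q - 1 ≤ 2 τ` (assembly of Count + Fix + Borel)
-/

set_option autoImplicit false

namespace Fermat.Agent.S56.GT

open Matrix Matrix.GeneralLinearGroup OnePoint

variable {k : Type*} [Field k] [DecidableEq k]

/-- **Numerical bound** (replaces Dickson's classification).  `H ⊂ GL₂(k)`, `k` finite of odd
characteristic, every element of `H` has a fixed point on `ℙ¹(k)`, `H` does not fix `∞`,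
`A = {t : u_t ∈ H} ≠ 0`.  Then `|A| - 1 ≤ 2 |χ(B)|`. -/
theorem num_bound [Finite k] (p : ℕ) [Fact p.Prime] [CharP k p] (hp2 : p ≠ 2)
    (H : Subgroup (GL (Fin 2) k)) (hsplit : ∀ g ∈ H, ∃ x : OnePoint k, g • x = x)
    (hirr : ∃ g ∈ H, g • (∞ : OnePoint k) ≠ ∞) (hA : Aof H ≠ ⊥) :
    Nat.card (Aof H) - 1 ≤ 2 * (chiSet H).ncard := by
  have : NeZero (2 : k) := ⟨by
    intro h
    have h2 : ((2 : ℕ) : k) = 0 := by exact_mod_cast h
    rw [CharP.cast_eq_zero_iff k p] at h2
    exact hp2 ((Nat.prime_dvd_prime_iff_eq Fact.out Nat.prime_two).mp h2)⟩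
  have : Finite (OnePoint k) := inferInstanceAs (Finite (Option k))
  have hq : 3 ≤ Nat.card (Aof H) := by
    have h1 := dvd_card_Aof p (Aof H) hA
    have h2 : 0 < Nat.card (Aof H) := Nat.card_pos
    have h3 := Nat.le_of_dvd h2 h1
    have h4 : 2 ≤ p := (Fact.out : p.Prime).two_le
    omega
  refine count_main (H := ↥H) (X := OnePoint k) p (Zs H) ?_ ?_ ?_ ∞ _ _ hq
    (card_par_infty p H) (card_stab_infty p H) (card_orbit_infty_ge H hirr)
  · intro g hg x
    exact smul_eq_self_of_mem_center (g := (g : GL (Fin 2) k)) hg x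
  · intro g hg
    by_cases hp : (g : GL (Fin 2) k).IsParabolic
    · exact Or.inl (fix1_of_isParabolic hp)
    · exact Or.inr (fix2_of_not_isParabolic (g := (g : GL (Fin 2) k)) hg hp (hsplit g g.2))
  · intro g _ hg1
    have hp : (g : GL (Fin 2) k).IsParabolic := isParabolic_of_fix1 hg1
    obtain ⟨m, hm1, hm2⟩ := exists_pow_of_isParabolic p hp
    refine ⟨g ^ m, ?_, fun x => hm2 x⟩
    apply Subtype.ext
    simpa using hm1

end Fermat.Agent.S56.GT
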