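import Fermat.Agent.S56.GT.Num
import Fermat.Agent.S56.GT.CocP
import Fermat.Agent.S56.GT.Frattini

/-!
# S56 / GT / Slot : exclusion of the exceptional class (`a = d³`)
-/

set_option autoImplicit false

namespace Fermat.Agent.S56.GT

open Matrix Matrix.GeneralLinearGroup OnePoint

variable {k : Type*} [Field k] [DecidableEq k]

/-- **the exceptional slot is empty** (`p ≥ 5`).
PROOF.  `G₁ = G1of G`, `Aof G₁ = Aof G` (`Aof_G1of`).  For `b = [[a,*],[0,d]] ∈ G₁`: `a d = 1` and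
`a = d³` give `d⁴ = 1`, `χ = a/d = d²`, `χ² = 1`: `chiSet G₁ ⊂ {1,-1}`, `ncard ≤ 2`.  By `num_bound`
for `G₁`: `q - 1 ≤ 4`, `q = |A| ≤ 5`; `p ∣ q` (`dvd_card_Aof`), `p ≥ 5`: `p = q = 5`.
By `hdet5` and `exists_upper_det` there is `b = [[a,*],[0,d]] ∈ G` with `(det b)² ≠ 1`.
`a = d³`, `det b = d⁴`, `χ = a/d = d²`.  Fix `t₀ ∈ A`, `t₀ ≠ 0`.  `A` has `5` elements and contains
`0, t₀, 2 t₀, 3 t₀, 4 t₀` (distinct), so `A = {n t₀ : n < 5}`; `χ t₀ ∈ A` (`chi_mul_mem_Aof`), `≠ 0`, so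
`χ = n` with `n ∈ {1,2,3,4}` in characteristic `5`: `χ⁴ = 1`.  So `(det b)² = d⁸ = χ⁴ = 1`:
contradiction. -/
theorem slot_false [Finite k] (p : ℕ) [Fact p.Prime] [CharP k p] (hp5 : 5 ≤ p)
    (G : Subgroup (GL (Fin 2) k)) (hsplit : ∀ g ∈ G1of G, ∃ x : OnePoint k, g • x = x)
    (hirr : ∃ g ∈ G1of G, g • (∞ : OnePoint k) ≠ ∞) (hA : Aof G ≠ ⊥)
    (hdet5 : p = 5 → ∃ g ∈ G, g.val.det ^ 2 ≠ 1)
    (h3 : ∀ b ∈ G, b 1 0 = 0 → b 0 0 = (b 1 1) ^ 3) : False := by
  have hp2 : p ≠ 2 := by omega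
  -- `chiSet G₁ ⊆ {1, -1}`
  have hchi : chiSet (G1of G) ⊆ {1, -1} := by
    rintro x ⟨b, hb, hb10, rfl⟩
    have hdet : b 0 0 * b 1 1 = 1 := by
      have h := hb.2
      rw [Matrix.det_fin_two] at h
      have hb10' : b.val 1 0 = 0 := hb10
      rw [hb10', mul_zero, sub_zero] at h
      exact h
    have h00 := h3 b hb.1 hb10
    rw [h00] at hdet
    have hd0 : b 1 1 ≠ 0 := by
      intro h
      rw [h] at hdet
      simp at hdet
    have hx : b 0 0 / b 1 1 = (b 1 1) ^ 2 := by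
      rw [h00]; field_simp
    rw [hx]
    have h4 : ((b 1 1) ^ 2 - 1) * ((b 1 1) ^ 2 + 1) = 0 := by linear_combination hdet
    rcases mul_eq_zero.1 h4 with h | h
    · left; linear_combination h
    · right
      rw [Set.mem_singleton_iff]
      linear_combination h
  have hncard : (chiSet (G1of G)).ncard ≤ 2 := by
    refine (Set.ncard_le_ncard hchi (Set.toFinite _)).trans ?_
    exact (Set.ncard_insert_le _ _).trans (by simp)
  have hA1 : Aof (G1of G) ≠ ⊥ := by rw [Aof_G1of]; exact hA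
  have hnum := num_bound p hp2 (G1of G) hsplit hirr hA1
  rw [Aof_G1of] at hnum
  have hdvd := dvd_card_Aof p (Aof G) hA
  have hpos : 0 < Nat.card (Aof G) := Nat.card_pos
  have hle := Nat.le_of_dvd hpos hdvd
  have hcard : Nat.card (Aof G) = 5 := by omega
  obtain rfl : p = 5 := by omega
  -- the element with `det² ≠ 1`
  obtain ⟨g, hg, hgdet⟩ := hdet5 rfl
  obtain ⟨b, hb, hb10, hbdet⟩ := exists_upper_det 5 G hA g hg
  have h00 := h3 b hb hb10
  have hdet : b.val.det = (b 1 1) ^ 4 := by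
    rw [Matrix.det_fin_two]
    have hb10' : b.val 1 0 = 0 := hb10
    have h00' : b.val 0 0 = (b.val 1 1) ^ 3 := h00
    rw [hb10', mul_zero, sub_zero, h00']
    ring
  have hd0 : b 1 1 ≠ 0 := by
    intro h
    have h1 : b.val.det ≠ 0 := ((Matrix.isUnit_iff_isUnit_det _).1 b.isUnit).ne_zero
    rw [hdet, h] at h1
    simp at h1
  have hx : b 0 0 / b 1 1 = (b 1 1) ^ 2 := by
    rw [h00]; field_simp
  obtain ⟨t, htA, ht0⟩ : ∃ t ∈ Aof G, t ≠ 0 := by
    by_contra hcon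
    push Not at hcon
    exact hA ((AddSubgroup.eq_bot_iff_forall _).2 hcon)
  have hmem := chi_mul_mem_Aof hb hb10 htA
  rw [hx] at hmem
  have hgen : (⟨(b 1 1) ^ 2 * t, hmem⟩ : Aof G) ∈ AddSubgroup.zmultiples (⟨t, htA⟩ : Aof G) :=
    mem_zmultiples_of_prime_card hcard (fun h => ht0 (congrArg Subtype.val h))
  obtain ⟨n, hn⟩ := AddSubgroup.mem_zmultiples_iff.1 hgen
  have hn' : (n : k) * t = (b 1 1) ^ 2 * t := by
    have := congrArg Subtype.val hn
    simpa using this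
  have hchin : (b 1 1) ^ 2 = (n : k) := (mul_right_cancel₀ ht0 hn').symm
  have hn4 : (n : k) ^ 4 = 1 := by
    have hn0 : (n : ZMod 5) ≠ 0 := by
      intro h
      have h1 : (n : k) = 0 := by
        have := congrArg (ZMod.castHom (dvd_refl 5) k) h
        simpa using this
      rw [h1] at hchin
      exact hd0 (pow_eq_zero_iff (two_ne_zero) |>.1 hchin)
    have h1 : (n : ZMod 5) ^ (5 - 1) = 1 := ZMod.pow_card_sub_one_eq_one hn0
    have := congrArg (ZMod.castHom (dvd_refl 5) k) h1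
    simpa using this
  apply hgdet
  rw [← hbdet, hdet, ← hn4, ← hchin]
  ring

end Fermat.Agent.S56.GT
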